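import Fermat.Agent.S56.Flat.Cnt.Spec.Red
import Fermat.Agent.S56.Flat.Cnt.Spec.Irr

/-! # S56 / FLAT / CNT: `fl_count` (statement VERBATIM from helper25's `Flat/Spec.lean`) from the
reducible and the irreducible case. -/

set_option autoImplicit false
set_option linter.unusedVariables false
set_option linter.unusedSectionVars false
set_option linter.style.haveILetI false

namespace Fermat.Agent.S56

open Polynomial

section Top

variable {p : ℕ} [Fact p.Prime]

/-- **block CNT (top)**, statement VERBATIM from `Flat/Spec.lean`. -/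
theorem fl_count (hp2 : p ≠ 2) {𝒢 : Type} [Group 𝒢] [Finite 𝒢] (D : TameKummerData p 𝒢)
    {k : Type} [Field k] [Finite k] [CharP k p] {V : Type} [AddCommGroup V] [Module k V]
    [Module.Finite k V] (hV : Module.finrank k V = 2) (r : 𝒢 →* Module.End k V)
    (hdet : ∀ g, LinearMap.det (r g) = (((D.ω g : (ZMod p)ˣ) : ZMod p).val : k))
    (hsplit : ∀ g, ∃ α β : k, LinearMap.charpoly (r g) = (X - C α) * (X - C β))
    (hcompl : ∀ ℓ₁ : Submodule k V, IsStableLine r ℓ₁ → (∀ σ ∈ D.I, ∀ v ∈ ℓ₁, r σ v = v) →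
      ∃ ℓ' : Submodule k V, IsStableLine r ℓ' ∧ ℓ₁ ⊓ ℓ' = ⊥) :
    Nat.card {c : 𝒢 → Module.End k V // IsAdCocycle r c ∧
      ∀ ℓ : Submodule k V, IsStableLine r ℓ → (∀ σ ∈ D.I, ∀ v : V, r σ v - v ∈ ℓ) →
        IsBorelUpToCobdry r ℓ c} ≤ Nat.card k ^ 4 := by
  by_cases h : ∃ ℓ : Submodule k V, IsStableLine r ℓ
  · obtain ⟨ℓ₀, hℓ₀⟩ := h
    exact flc_count_reducible hp2 D hV r hdet hcompl ℓ₀ hℓ₀
  · push Not at h
    haveI : Finite (𝒢 → Module.End k V) := by
      haveI : Finite (Module.End k V) := Module.finite_of_finite k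
      infer_instance
    refine le_trans ?_ (flc_count_irreducible hp2 D hV r hdet hsplit h)
    exact Nat.card_le_card_of_injective
      (fun c => (⟨c.1, c.2.1⟩ : {c : 𝒢 → Module.End k V // IsAdCocycle r c}))
      (fun c c' hcc => Subtype.ext (by
        have := congrArg (fun x : {c : 𝒢 → Module.End k V // IsAdCocycle r c} => x.1) hcc
        exact this))

end Top

end Fermat.Agent.S56
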