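import Fermat.Agent.S56.Flat.Cnt.Spec.KF
import Fermat.Agent.S56.Flat.Cnt.Spec.L
import Fermat.Agent.S56.Flat.Cnt.Spec.Gen

/-!
# S56 / FLAT / CNT, leaf U1: characters of `I` with values in `𝔽_p`

If `flcW D χI j ≠ 0` for a level `j ∈ [(p-1)e', p e')` and `χI` has values in `𝔽_pˣ` on `I`, then
`j = (p-1) e'` and `χI = ω` on `I`.  Hence `flcHI D χI = 0` unless `χI = ω` on `I`, and in that case
`#flcH D 1 χI A ≤ #k`.
-/

set_option autoImplicit false
set_option linter.unusedVariables false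
set_option linter.unusedSectionVars false
set_option linter.style.haveILetI false

namespace Fermat.Agent.S56

open Polynomial

section U1

variable {p : ℕ} [Fact p.Prime] {𝒢 : Type} [Group 𝒢] [Finite 𝒢] (D : TameKummerData p 𝒢)
  {k : Type*} [Field k] [Finite k] [CharP k p]

/-- an element of the prime field is an integer -/
theorem flc_exists_intCast {K : Type*} [Field K] [CharP K p] {x : K} (hx : x ^ p = x) :
    ∃ n : ℤ, (n : K) = x :=
  (mem_bot_iff_intCast p K).mp ((Subfield.mem_bot_iff_pow_eq_self K p).mpr hx)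

/-- `(x.val : K) ^ (p-1) = 1` for a unit `x` of `ZMod p` -/
theorem flc_val_pow {K : Type*} [Field K] [CharP K p] (x : (ZMod p)ˣ) :
    ((((x : ZMod p).val : ℕ) : K)) ^ (p - 1) = 1 := by
  have h1 : (((x : ZMod p).val : ℕ) : K) = ZMod.castHom (dvd_refl p) K (x : ZMod p) := by
    rw [ZMod.castHom_apply, ZMod.natCast_val]
  rw [h1, ← map_pow, ZMod.pow_card_sub_one_eq_one (Units.ne_zero x), map_one]

/-- `(x⁻¹.val : K) * (x.val : K) = 1` -/
theorem flc_val_inv_mul {K : Type*} [Field K] [CharP K p] (x : (ZMod p)ˣ) :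
    (((((x⁻¹ : (ZMod p)ˣ) : ZMod p).val : ℕ) : K)) * ((((x : ZMod p).val : ℕ) : K)) = 1 := by
  have h1 : ∀ y : ZMod p, ((y.val : ℕ) : K) = ZMod.castHom (dvd_refl p) K y := by
    intro y
    rw [ZMod.castHom_apply, ZMod.natCast_val]
  rw [h1, h1, ← map_mul, ← Units.val_mul, inv_mul_cancel, Units.val_one, map_one]

theorem flc_val_ne_zero {K : Type*} [Field K] [CharP K p] (x : (ZMod p)ˣ) :
    ((((x : ZMod p).val : ℕ) : K)) ≠ 0 := by
  intro h
  have := flc_val_inv_mul (K := K) x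
  rw [h, mul_zero] at this
  exact zero_ne_one this

/-- the level analysis -/
theorem flc_level_of_ne_bot (χI : 𝒢 → k) (h0 : ∀ σ ∈ D.I, χI σ ≠ 0)
    (hχ : ∀ σ ∈ D.I, χI σ ^ p = χI σ) {j : ℕ} (hj1 : (p - 1) * D.e' ≤ j) (hj2 : j < p * D.e')
    (hW : flcW D χI j ≠ ⊥) : j = (p - 1) * D.e' ∧ FlcIsOmega D χI := by
  have hp := (Fact.out : p.Prime)
  obtain ⟨Λ, hΛ, hΛ0⟩ := Submodule.exists_mem_ne_zero_of_ne_bot hW
  -- the key fact
  have key : ∀ σ ∈ D.I, ∃ n : ℤ, (n : k) = (χI σ)⁻¹ ∧ flcγ D j σ = (n : D.kF) := by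
    intro σ hσ
    have hab : flcWab (χI σ)⁻¹ (flcγ D j σ) ≠ ⊥ := by
      intro h
      have := flcW_le_flcWab D χI j hσ hΛ
      rw [h, Submodule.mem_bot] at this
      exact hΛ0 this
    have ha : ((χI σ)⁻¹) ^ p = (χI σ)⁻¹ := by rw [inv_pow, hχ σ hσ]
    obtain ⟨n, hn⟩ := flc_exists_intCast (p := p) ha
    refine ⟨n, hn, ?_⟩
    have h1 := (flcWab_aeval_iff (χI σ)⁻¹ (flcγ D j σ) hab (X - C n)).mp (by
      rw [map_sub, aeval_X, aeval_C, ← hn]
      simp)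
    rw [map_sub, aeval_X, aeval_C] at h1
    have h2 : (algebraMap ℤ D.kF) n = (n : D.kF) := by simp
    rw [h2] at h1
    exact sub_eq_zero.mp h1
  obtain ⟨σ₀, hσ₀, hord, -, -⟩ := flc_exists_gen D
  -- `j = (p-1) e'`
  have hj : j = (p - 1) * D.e' := by
    obtain ⟨n, -, hn⟩ := key σ₀ hσ₀
    -- `u σ₀ ^ j` lies in the prime field
    have h1 : ((D.u σ₀ : D.kF) ^ j) ^ p = (D.u σ₀ : D.kF) ^ j := by
      have h2 : (D.u σ₀ : D.kF) ^ j = ((((D.ω σ₀ : (ZMod p)ˣ) : ZMod p).val : ℕ) : D.kF) * (n : D.kF) := by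
        rw [← hn, flcγ, nsmul_eq_mul, ← mul_assoc, mul_comm ((((D.ω σ₀ : (ZMod p)ˣ) : ZMod p).val : ℕ) : D.kF),
          flc_val_inv_mul, one_mul]
      rw [h2, mul_pow]
      congr 1
      · rw [← Nat.cast_pow]
        have := map_natCast (frobenius D.kF p) ((D.ω σ₀ : ZMod p).val)
        rw [frobenius_def] at this
        rw [Nat.cast_pow]
        exact this
      · have := (Subfield.mem_bot_iff_pow_eq_self D.kF p).mp
          ((mem_bot_iff_intCast p D.kF).mpr ⟨n, rfl⟩)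
        exact this
    have h3 : (D.u σ₀) ^ (j * (p - 1)) = 1 := by
      apply Units.ext
      rw [Units.val_pow_eq_pow_val, Units.val_one, pow_mul]
      have hne : (D.u σ₀ : D.kF) ^ j ≠ 0 := pow_ne_zero _ (Units.ne_zero _)
      have h4 : (D.u σ₀ : D.kF) ^ j * ((D.u σ₀ : D.kF) ^ j) ^ (p - 1) = (D.u σ₀ : D.kF) ^ j * 1 := by
        rw [← pow_succ', Nat.sub_add_cancel hp.one_le, h1, mul_one]
      exact mul_left_cancel₀ hne h4
    have h5 : (p - 1) * D.e' ∣ j * (p - 1) := by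
      rw [← hord]
      exact orderOf_dvd_of_pow_eq_one h3
    have hp1 : 0 < p - 1 := Nat.sub_pos_of_lt hp.one_lt
    have h6 : D.e' ∣ j := by
      rw [mul_comm j] at h5
      exact Nat.dvd_of_mul_dvd_mul_left hp1 h5
    obtain ⟨t, rfl⟩ := h6
    have ht1 : p - 1 ≤ t := by
      by_contra hlt
      push Not at hlt
      have : D.e' * t < D.e' * (p - 1) := Nat.mul_lt_mul_of_pos_left hlt D.e'_pos
      rw [mul_comm (p - 1)] at hj1
      omega
    have ht2 : t < p := by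
      by_contra hge
      push Not at hge
      have : D.e' * p ≤ D.e' * t := Nat.mul_le_mul_left _ hge
      rw [mul_comm p] at hj2
      omega
    have ht : t = p - 1 := by omega
    rw [ht, mul_comm]
  refine ⟨hj, ?_⟩
  intro σ hσ
  obtain ⟨n, hn1, hn2⟩ := key σ hσ
  -- `flcγ D j σ = (ω σ)⁻¹.val`
  have h1 : flcγ D j σ = (((((D.ω σ)⁻¹ : (ZMod p)ˣ) : ZMod p).val : ℕ) : D.kF) := by
    rw [flcγ, hj, mul_comm, pow_mul, D.u_pow σ hσ, flc_val_pow, nsmul_eq_mul, mul_one]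
  -- compare in `ZMod p`
  have h2 : ((((D.ω σ)⁻¹ : (ZMod p)ˣ) : ZMod p)) = (n : ZMod p) := by
    apply (ZMod.castHom (dvd_refl p) D.kF).injective
    rw [map_intCast, ← hn2, h1, ZMod.castHom_apply, ZMod.natCast_val]
  have h3 : (χI σ)⁻¹ = (((((D.ω σ)⁻¹ : (ZMod p)ˣ) : ZMod p).val : ℕ) : k) := by
    rw [← hn1]
    have : ((((((D.ω σ)⁻¹ : (ZMod p)ˣ) : ZMod p).val : ℕ) : k)) =
        ZMod.castHom (dvd_refl p) k ((((D.ω σ)⁻¹ : (ZMod p)ˣ) : ZMod p)) := by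
      rw [ZMod.castHom_apply, ZMod.natCast_val]
    rw [this, h2, map_intCast]
  have h4 := flc_val_inv_mul (K := k) (D.ω σ)
  rw [← h3] at h4
  have h5 : χI σ * (χI σ)⁻¹ = 1 := mul_inv_cancel₀ (h0 σ hσ)
  have h6 : (χI σ)⁻¹ ≠ 0 := inv_ne_zero (h0 σ hσ)
  have h7 : (χI σ)⁻¹ * χI σ = (χI σ)⁻¹ * ((((D.ω σ : (ZMod p)ˣ) : ZMod p).val : ℕ) : k) := by
    rw [h4, mul_comm, h5]
  exact mul_left_cancel₀ h6 h7

/-- **leaf U1 (a).** -/
theorem flc_HI_eq_bot_of_ne (hp2 : p ≠ 2) (χI : 𝒢 → k) (h0 : ∀ σ ∈ D.I, χI σ ≠ 0)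
    (hχ : ∀ σ ∈ D.I, χI σ ^ p = χI σ) (hne : ¬ FlcIsOmega D χI) : flcHI D χI = ⊥ := by
  apply flc_HI_eq_bot D χI h0
  intro j hj1 hj2 _
  by_contra hW
  exact hne (flc_level_of_ne_bot D χI h0 hχ hj1 hj2 hW).2

/-- **leaf U1 (b).** -/
theorem flc_card_H_one_le (hp2 : p ≠ 2) (χI : 𝒢 → k) (hχ : FlcIsOmega D χI) (A : k)
    (hA : A ≠ 0) : Nat.card ↥(flcH D 1 χI A) ≤ Nat.card k := by
  have hp := (Fact.out : p.Prime)
  have h0 : ∀ σ ∈ D.I, χI σ ≠ 0 := by
    intro σ hσ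
    rw [hχ σ hσ]
    exact flc_val_ne_zero (D.ω σ)
  have hχp : ∀ σ ∈ D.I, χI σ ^ p = χI σ := by
    intro σ hσ
    rw [hχ σ hσ]
    have := map_natCast (frobenius k p) ((D.ω σ : ZMod p).val)
    rw [frobenius_def] at this
    exact this
  refine le_trans (flc_card_H_le D 1 Nat.one_pos χI h0 A hA) ?_
  obtain ⟨σ₀, hσ₀, -, -, -⟩ := flc_exists_gen D
  set e := (p - 1) * D.e' with he
  have hmem : e ∈ (Finset.Ico e (p * D.e')).filter (fun j => ¬ p ∣ j) ∨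
      e ∉ (Finset.Ico e (p * D.e')).filter (fun j => ¬ p ∣ j) := em _
  have hterm : ∀ j ∈ (Finset.Ico e (p * D.e')).filter (fun j => ¬ p ∣ j), j ≠ e →
      (p ^ 1) ^ Module.finrank D.kF ↥(flcW D χI j) = 1 := by
    intro j hj hje
    rw [Finset.mem_filter, Finset.mem_Ico] at hj
    have : flcW D χI j = ⊥ := by
      by_contra hW
      exact hje (flc_level_of_ne_bot D χI h0 hχp hj.1.1 hj.1.2 hW).1
    rw [this, finrank_bot, pow_zero]
  have hbound : (p ^ 1) ^ Module.finrank D.kF ↥(flcW D χI e) ≤ Nat.card k := by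
    rw [pow_one]
    refine le_trans ?_ (flcWab_card_le p (χI σ₀)⁻¹ (flcγ D e σ₀))
    apply Nat.pow_le_pow_right hp.pos
    haveI : Module.Finite D.kF ↥(flcWab (χI σ₀)⁻¹ (flcγ D e σ₀)) := Module.Finite.of_finite
    exact Submodule.finrank_mono (flcW_le_flcWab D χI e hσ₀)
  rcases hmem with hmem | hmem
  · rw [Finset.prod_eq_single_of_mem e hmem (fun j hj hje => hterm j hj hje)]
    exact hbound
  · rw [Finset.prod_eq_one (fun j hj => hterm j hj (fun h => hmem (h ▸ hj)))]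
    exact Nat.one_le_iff_ne_zero.mpr (Nat.card_pos).ne'

end U1

end Fermat.Agent.S56
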