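import Fermat.Agent.S56.Flat.Cnt.Spec.KF
import Fermat.Agent.S56.Flat.Cnt.Spec.L
import Fermat.Agent.S56.Flat.Cnt.Spec.Gen

/-! # S56 / FLAT / CNT: leaf U3 (characters of order dividing `p + 1`), helper12.

`flc_card_H_two_le` : `#flcH D 2 χI A ≤ #k` for a non-trivial character `χI` of `I/P` of order
dividing `p + 1` (of order `> 2` if `p = 3`).  Black boxes: KF (b), L (b), L (c), GEN (a). -/

set_option autoImplicit false
set_option linter.unusedVariables false
set_option linter.unusedSectionVars false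
set_option linter.style.haveILetI false

namespace Fermat.Agent.S56

open Polynomial

/-! ### arithmetic of the levels `j ∈ [(p-1) e, p e)` -/

theorem flcu_mul_e (p e : ℕ) (hp : 1 ≤ p) : p * e = (p - 1) * e + e := by
  obtain ⟨q, rfl⟩ := Nat.exists_eq_add_of_le' hp
  simp [add_mul]

theorem flcu_two_mul_le (p e : ℕ) (hp : 3 ≤ p) : 2 * e ≤ (p - 1) * e :=
  Nat.mul_le_mul_right e (by omega)

theorem flcu_four_mul_le (p e : ℕ) (hp : 5 ≤ p) : 4 * e ≤ (p - 1) * e :=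
  Nat.mul_le_mul_right e (by omega)

theorem flcu_level_eq (p e j j' : ℕ) (hp : 3 ≤ p) (hj : (p - 1) * e ≤ j) (hj2 : j < p * e)
    (hj' : (p - 1) * e ≤ j') (hj2' : j' < p * e)
    (h : (j - e) ≡ (j' - e) [MOD (p - 1) * e]) : j = j' := by
  have h1 := flcu_mul_e p e (by omega)
  have h2 := flcu_two_mul_le p e hp
  generalize (p - 1) * e = E at *
  have h3 : j - e = j' - e := h.eq_of_lt_of_lt (by omega) (by omega)
  omega

theorem flcu_level_inv (p e j j' : ℕ) (hp : 3 ≤ p) (he : 0 < e) (hj : (p - 1) * e ≤ j)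
    (hj2 : j < p * e) (hj' : (p - 1) * e ≤ j') (hj2' : j' < p * e)
    (h : (p - 1) * e ∣ (j - e) + (j' - e)) : j = j' := by
  have h1 := flcu_mul_e p e (by omega)
  have h2 := flcu_two_mul_le p e hp
  generalize (p - 1) * e = E at *
  have h3 : (j - e) + (j' - e) = E :=
    Nat.eq_of_dvd_of_lt_two_mul (by omega) h (by omega)
  omega

theorem flcu_level_neg (p e j : ℕ) (hp : 5 ≤ p) (he : 0 < e) (hj : (p - 1) * e ≤ j)
    (hj2 : j < p * e) (h : (p - 1) * e ∣ 2 * (j - e)) : False := by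
  have h1 := flcu_mul_e p e (by omega)
  have h2 := flcu_four_mul_le p e hp
  generalize (p - 1) * e = E at *
  have h3 : 2 * (j - e) = E :=
    Nat.eq_of_dvd_of_lt_two_mul (by omega) h (by omega)
  omega

/-! ### consequences of `flcWab a b ≠ ⊥` -/

section L

variable {k : Type*} [Field k] [Finite k] {kF : Type*} [Field kF] [Finite kF]

theorem flcu_pow_eq_one_of_ne_bot {a : k} {b : kF} (h : flcWab a b ≠ ⊥) (n : ℕ)
    (ha : a ^ n = 1) : b ^ n = 1 := by
  have := (flcWab_aeval_iff a b h (X ^ n - 1)).mp (by simp [ha])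
  simpa [sub_eq_zero] using this

theorem flcu_quad (p : ℕ) [Fact p.Prime] [CharP kF p] {a : k} {b b' : kF}
    (h : flcWab a b ≠ ⊥) (h' : flcWab a b' ≠ ⊥) (hb : b ^ (p + 1) = 1) :
    b' = b ∨ b' * b = 1 := by
  have hb1 : b ^ p * b = 1 := by rw [← pow_succ]; exact hb
  have hb0 : b ≠ 0 := by
    rintro rfl
    rw [zero_pow (by omega)] at hb
    exact zero_ne_one hb
  have hbp : b ^ p = b⁻¹ := eq_inv_of_mul_eq_one_left hb1
  have ht : (b + b ^ p) ^ p = b + b ^ p := by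
    rw [add_pow_char, hbp, inv_pow, hbp, inv_inv, add_comm]
  obtain ⟨n, hn⟩ := (mem_bot_iff_intCast p kF).mp ((Subfield.mem_bot_iff_pow_eq_self kF p).mpr ht)
  have hQ : aeval b (X ^ 2 - C n * X + 1 : ℤ[X]) = 0 := by
    simp only [map_sub, map_add, map_mul, map_pow, aeval_X, map_one, eq_intCast, map_intCast, hn]
    rw [hbp]
    field_simp
    ring
  have hQ' := (flcWab_aeval_iff a b' h' _).mp ((flcWab_aeval_iff a b h _).mpr hQ)
  simp only [map_sub, map_add, map_mul, map_pow, aeval_X, map_one, eq_intCast, map_intCast, hn]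
    at hQ'
  rw [hbp] at hQ'
  have h3 : (b' - b) * (b' * b - 1) = 0 := by
    have : (b' - b) * (b' * b - 1) = b * (b' ^ 2 - (b + b⁻¹) * b' + 1) := by
      field_simp
      ring
    rw [this, hQ', mul_zero]
  rcases mul_eq_zero.mp h3 with h4 | h4
  · exact Or.inl (sub_eq_zero.mp h4)
  · exact Or.inr (sub_eq_zero.mp h4)

end L

section U3

variable {p : ℕ} [Fact p.Prime] {𝒢 : Type} [Group 𝒢] [Finite 𝒢] (D : TameKummerData p 𝒢)
  {k : Type*} [Field k] [Finite k] [CharP k p]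

theorem flcu_cast_inv_mul (x : (ZMod p)ˣ) :
    ((((x⁻¹ : (ZMod p)ˣ) : ZMod p).val : ℕ) : D.kF) * ((((x : (ZMod p)ˣ) : ZMod p).val : ℕ) : D.kF)
      = 1 := by
  rw [ZMod.natCast_val, ZMod.natCast_val, ← ZMod.cast_mul (dvd_refl p), ← Units.val_mul,
    inv_mul_cancel, Units.val_one, ZMod.cast_one (dvd_refl p)]

theorem flcu_gamma_eq {σ : 𝒢} (hσ : σ ∈ D.I) {j : ℕ} (hj : D.e' ≤ j) :
    flcγ D j σ = (D.u σ : D.kF) ^ (j - D.e') := by
  unfold flcγ
  rw [nsmul_eq_mul]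
  have h1 := flcu_cast_inv_mul D (D.ω σ)
  rw [← D.u_pow σ hσ] at h1
  conv_lhs => rw [← Nat.sub_add_cancel hj, pow_add,
    mul_comm ((D.u σ : D.kF) ^ (j - D.e')), ← mul_assoc, h1, one_mul]

theorem flcu_chi_pow (χI : 𝒢 → k)
    (hmul : ∀ σ ∈ D.I, ∀ τ ∈ D.I, χI (σ * τ) = χI σ * χI τ) (hP : ∀ x ∈ D.P, χI x = 1)
    {σ₀ : 𝒢} (hσ₀ : σ₀ ∈ D.I) (n : ℕ) : χI (σ₀ ^ n) = χI σ₀ ^ n := by
  induction n with
  | zero => rw [pow_zero, pow_zero]; exact hP 1 D.P.one_mem
  | succ m ih => rw [pow_succ, hmul _ (D.I.pow_mem hσ₀ m) _ hσ₀, ih, pow_succ]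

theorem flcu_unit_pow_eq {x y : ℕ} (U : D.kFˣ) (h : (U : D.kF) ^ x = (U : D.kF) ^ y) :
    U ^ x = U ^ y := by
  apply Units.ext
  rw [Units.val_pow_eq_pow_val, Units.val_pow_eq_pow_val, h]

theorem flcu_unit_pow_eq_one {x : ℕ} (U : D.kFˣ) (h : (U : D.kF) ^ x = 1) :
    U ^ x = 1 := by
  apply Units.ext
  rw [Units.val_pow_eq_pow_val, h, Units.val_one]

/-- **leaf U3.** `χI` a character of `I/P` of order dividing `p + 1`, non-trivial (and of order
`> 2` if `p = 3`): `#flcH D 2 χI A ≤ #k`.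
(`a := (χI σ₀)⁻¹`.  If `a² ≠ 1` then `a ∉ 𝔽_p`; a level `j` with `flcW D χI j ≠ 0` has
`b_j := flcγ D j σ₀ = (u σ₀)^(j - e')` with the same annihilating polynomials as `a`, so
`b_j^(p+1) = 1` and a second such level has `b_j' = b_j^(±1)`, which forces `j' = j` by the size of
the range; then `flc_card_H_le` + `flcWab_card_le_half`.  If `a = -1` (`p ≥ 5`): `b_j = -1` is
impossible in the range, no level at all.) -/
theorem flc_card_H_two_le (hp2 : p ≠ 2) (χI : 𝒢 → k)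
    (hmul : ∀ σ ∈ D.I, ∀ τ ∈ D.I, χI (σ * τ) = χI σ * χI τ) (hP : ∀ x ∈ D.P, χI x = 1)
    (hpow : ∀ σ ∈ D.I, χI σ ^ (p + 1) = 1) (hne : ∃ σ ∈ D.I, χI σ ≠ 1)
    (h3 : p = 3 → ∃ σ ∈ D.I, χI σ ^ 2 ≠ 1) (A : k) (hA : A ≠ 0) :
    Nat.card ↥(flcH D 2 χI A) ≤ Nat.card k := by
  have hpp : p.Prime := Fact.out
  have hp3 : 3 ≤ p := by
    have := hpp.two_le
    omega
  have h0 : ∀ σ ∈ D.I, χI σ ≠ 0 := by
    intro σ hσ h
    have := hpow σ hσ
    rw [h, zero_pow (by omega)] at this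
    exact zero_ne_one this
  refine le_trans (flc_card_H_le D 2 (by norm_num) χI h0 A hA) ?_
  obtain ⟨σ₀, hσ₀, hordu, -, hgen⟩ := flc_exists_gen D
  haveI : Finite (k →+ D.kF) := DFunLike.finite _
  -- levels
  have hmemJ : ∀ j ∈ (Finset.Ico ((p - 1) * D.e') (p * D.e')).filter (fun j => ¬ p ∣ j),
      (p - 1) * D.e' ≤ j ∧ j < p * D.e' := by
    intro j hj
    exact Finset.mem_Ico.mp (Finset.mem_filter.mp hj).1
  have hej : ∀ j, (p - 1) * D.e' ≤ j → D.e' ≤ j := by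
    intro j hj
    have := flcu_two_mul_le p D.e' hp3
    omega
  have hWab : ∀ j, flcW D χI j ≠ ⊥ → flcWab (χI σ₀)⁻¹ (flcγ D j σ₀) ≠ ⊥ := by
    intro j hj
    exact ne_bot_of_le_ne_bot hj (flcW_le_flcWab D χI j hσ₀)
  by_cases ha2 : (χI σ₀) ^ 2 = 1
  · -- no level at all
    have hp5 : 5 ≤ p := by
      by_contra hlt
      have hp : p = 3 := by
        have : p ≠ 4 := by
          rintro h4
          rw [h4] at hpp
          exact absurd hpp (by norm_num)
        omega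
      obtain ⟨σ, hσ, hσ2⟩ := h3 hp
      obtain ⟨n, x, hx, rfl⟩ := hgen σ hσ
      apply hσ2
      rw [hmul _ (D.I.pow_mem hσ₀ n) _ (D.P_le_I hx), hP x hx, mul_one,
        flcu_chi_pow D χI hmul hP hσ₀, ← pow_mul, mul_comm, pow_mul, ha2, one_pow]
    have hbot : ∀ j ∈ (Finset.Ico ((p - 1) * D.e') (p * D.e')).filter (fun j => ¬ p ∣ j),
        flcW D χI j = ⊥ := by
      intro j hj
      by_contra hne'
      obtain ⟨hj1, hj2⟩ := hmemJ j hj
      have hb := flcu_pow_eq_one_of_ne_bot (hWab j hne') 2 (by rw [inv_pow, ha2, inv_one])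
      rw [flcu_gamma_eq D hσ₀ (hej j hj1), ← pow_mul, mul_comm] at hb
      have := orderOf_dvd_of_pow_eq_one (flcu_unit_pow_eq_one D (D.u σ₀) hb)
      rw [hordu] at this
      exact flcu_level_neg p D.e' j hp5 D.e'_pos hj1 hj2 this
    rw [Finset.prod_eq_one (fun j hj => by rw [hbot j hj, finrank_bot, pow_zero])]
    exact Nat.card_pos
  · -- at most one level
    have hap : ((χI σ₀)⁻¹) ^ (p + 1) = 1 := by rw [inv_pow, hpow σ₀ hσ₀, inv_one]
    have hapne : ((χI σ₀)⁻¹) ^ p ≠ (χI σ₀)⁻¹ := by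
      intro h
      apply ha2
      rw [pow_succ, h, ← pow_two, inv_pow] at hap
      exact inv_eq_one.mp hap
    by_cases hex : ∃ j₀ ∈ (Finset.Ico ((p - 1) * D.e') (p * D.e')).filter (fun j => ¬ p ∣ j),
        flcW D χI j₀ ≠ ⊥
    · obtain ⟨j₀, hj₀, hne₀⟩ := hex
      obtain ⟨hj1, hj2⟩ := hmemJ j₀ hj₀
      have hb₀ := flcu_pow_eq_one_of_ne_bot (hWab j₀ hne₀) (p + 1) hap
      rw [Finset.prod_eq_single_of_mem j₀ hj₀]
      · rw [← pow_mul]
        refine le_trans (Nat.pow_le_pow_right hpp.pos (Nat.mul_le_mul_left 2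
          (Submodule.finrank_mono (flcW_le_flcWab D χI j₀ hσ₀))))
          (flcWab_card_le_half p _ _ hapne)
      · intro j hj hjne
        suffices hs : flcW D χI j = ⊥ by rw [hs, finrank_bot, pow_zero]
        by_contra hne'
        apply hjne
        obtain ⟨hj1', hj2'⟩ := hmemJ j hj
        rcases flcu_quad p (hWab j₀ hne₀) (hWab j hne') hb₀ with h | h
        · rw [flcu_gamma_eq D hσ₀ (hej j hj1'), flcu_gamma_eq D hσ₀ (hej j₀ hj1)] at h
          have := pow_eq_pow_iff_modEq.mp (flcu_unit_pow_eq D (D.u σ₀) h)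
          rw [hordu] at this
          exact (flcu_level_eq p D.e' j j₀ hp3 hj1' hj2' hj1 hj2 this)
        · rw [flcu_gamma_eq D hσ₀ (hej j hj1'), flcu_gamma_eq D hσ₀ (hej j₀ hj1), ← pow_add] at h
          have := orderOf_dvd_of_pow_eq_one (flcu_unit_pow_eq_one D (D.u σ₀) h)
          rw [hordu] at this
          exact (flcu_level_inv p D.e' j j₀ hp3 D.e'_pos hj1' hj2' hj1 hj2 this)
    · have hex' : ∀ j ∈ (Finset.Ico ((p - 1) * D.e') (p * D.e')).filter (fun j => ¬ p ∣ j),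
          flcW D χI j = ⊥ := by
        intro j hj
        by_contra h
        exact hex ⟨j, hj, h⟩
      rw [Finset.prod_eq_one (fun j hj => by rw [hex' j hj, finrank_bot, pow_zero])]
      exact Nat.card_pos

end U3

end Fermat.Agent.S56
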