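import Fermat.Agent.S56.Flat.TameDefs

/-!
# S56 / FLAT / CNT (helper2): definitions for the count `fl_count`

`𝒢` a finite group with `D : TameKummerData p 𝒢`, `k` a finite field of characteristic `p`.

* `flcZ1 ρ`          : `1`-cocycles `c : 𝒢 → N`, `c (g h) = c g + ρ g (c h)`, for an action
                       `ρ : 𝒢 →* AddMonoid.End N` (actions are DATA, as in `EU`).
* `flcConj P g x`    : `g x g⁻¹` for `x` in the normal subgroup `P`.
* `flcHomG P ρ`      : `Hom_𝒢(P, N)`: additive `f : P → N` with `f (g x g⁻¹) = ρ g (f x)`.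
* `flcChi χ`         : the action of `𝒢` on `k` through the character `χ : 𝒢 →* kˣ`.
* `flcAd r`          : the adjoint action on `Module.End k V`.
* `flcHI D χI`       : additive `f : P → k` with `f (σ x σ⁻¹) = χI σ * f x` for `σ ∈ I`.
* `flcH D m χI A`    : those with moreover `f (φ^m x φ^-m) = A * f x`.
* `flcγ D j g`       : the scalar `ω(g)⁻¹ u(g)^j ∈ kF` of the conjugation rule `ι_conj`.
* `flcWab a b`       : additive `Λ : k → kF` with `Λ (a c) = b Λ c` (a `kF`-space).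
* `flcW D χI j`      : the `kF`-space of additive `Λ : k → kF` with
                       `Λ (χI(σ)⁻¹ c) = ω(σ)⁻¹ u(σ)^j Λ c` for all `σ ∈ I`
                       (where the leading terms of level `j` of elements of `flcHI` live).
* `FlcIsOmega D χ`   : `χ = ω` on inertia.
-/

set_option autoImplicit false

namespace Fermat.Agent.S56

section Coc

variable {𝒢 : Type} [Group 𝒢]

/-- `1`-cocycles for an action by additive endomorphisms -/
def flcZ1 {N : Type*} [AddCommGroup N] (ρ : 𝒢 →* AddMonoid.End N) : AddSubgroup (𝒢 → N) where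
  carrier := {c | ∀ g h : 𝒢, c (g * h) = c g + ρ g (c h)}
  zero_mem' := by
    intro g h
    simp
  add_mem' := by
    intro c c' hc hc' g h
    simp only [Pi.add_apply, hc g h, hc' g h, map_add]
    abel
  neg_mem' := by
    intro c hc g h
    simp only [Pi.neg_apply, hc g h, map_neg]
    abel

theorem mem_flcZ1 {N : Type*} [AddCommGroup N] {ρ : 𝒢 →* AddMonoid.End N} {c : 𝒢 → N} :
    c ∈ flcZ1 ρ ↔ ∀ g h : 𝒢, c (g * h) = c g + ρ g (c h) := Iff.rfl

/-- `x ↦ g x g⁻¹` on a normal subgroup -/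
def flcConj (P : Subgroup 𝒢) [hP : P.Normal] (g : 𝒢) (x : ↥P) : ↥P :=
  ⟨g * (x : 𝒢) * g⁻¹, hP.conj_mem (x : 𝒢) x.2 g⟩

@[simp] theorem flcConj_coe (P : Subgroup 𝒢) [P.Normal] (g : 𝒢) (x : ↥P) :
    ((flcConj P g x : ↥P) : 𝒢) = g * (x : 𝒢) * g⁻¹ := rfl

/-- `Hom_𝒢(P, N)` -/
def flcHomG (P : Subgroup 𝒢) [P.Normal] {N : Type*} [AddCommGroup N]
    (ρ : 𝒢 →* AddMonoid.End N) : AddSubgroup (↥P → N) where
  carrier := {f | (∀ x y : ↥P, f (x * y) = f x + f y) ∧
    ∀ (g : 𝒢) (x : ↥P), f (flcConj P g x) = ρ g (f x)}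
  zero_mem' := ⟨fun _ _ => by simp, fun _ _ => by simp⟩
  add_mem' := by
    rintro f f' ⟨h1, h2⟩ ⟨h1', h2'⟩
    refine ⟨fun x y => ?_, fun g x => ?_⟩
    · simp only [Pi.add_apply, h1, h1']
      abel
    · simp only [Pi.add_apply, h2, h2', map_add]
  neg_mem' := by
    rintro f ⟨h1, h2⟩
    refine ⟨fun x y => ?_, fun g x => ?_⟩
    · simp only [Pi.neg_apply, h1]
      abel
    · simp only [Pi.neg_apply, h2, map_neg]

theorem mem_flcHomG {P : Subgroup 𝒢} [P.Normal] {N : Type*} [AddCommGroup N]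
    {ρ : 𝒢 →* AddMonoid.End N} {f : ↥P → N} :
    f ∈ flcHomG P ρ ↔ (∀ x y : ↥P, f (x * y) = f x + f y) ∧
      ∀ (g : 𝒢) (x : ↥P), f (flcConj P g x) = ρ g (f x) := Iff.rfl

/-- the action of `𝒢` on `k` through a character -/
def flcChi {k : Type*} [Field k] (χ : 𝒢 →* kˣ) : 𝒢 →* AddMonoid.End k where
  toFun g := AddMonoidHom.mulLeft ((χ g : kˣ) : k)
  map_one' := by
    ext c
    show ((χ 1 : kˣ) : k) * c = c
    rw [map_one, Units.val_one, one_mul]
  map_mul' g h := by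
    ext c
    show ((χ (g * h) : kˣ) : k) * c = ((χ g : kˣ) : k) * (((χ h : kˣ) : k) * c)
    rw [map_mul, Units.val_mul, mul_assoc]

@[simp] theorem flcChi_apply {k : Type*} [Field k] (χ : 𝒢 →* kˣ) (g : 𝒢) (c : k) :
    flcChi χ g c = ((χ g : kˣ) : k) * c := rfl

/-- the adjoint action on `Module.End k V` -/
def flcAd {k : Type*} [Field k] {V : Type*} [AddCommGroup V] [Module k V]
    (r : 𝒢 →* Module.End k V) : 𝒢 →* AddMonoid.End (Module.End k V) where
  toFun g :=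
    { toFun := fun A => r g * A * r g⁻¹
      map_zero' := by simp
      map_add' := fun A B => by
        rw [mul_add, add_mul] }
  map_one' := by
    apply AddMonoidHom.ext
    intro A
    show r 1 * A * r 1⁻¹ = A
    rw [inv_one, map_one, one_mul, mul_one]
  map_mul' g h := by
    apply AddMonoidHom.ext
    intro A
    show r (g * h) * A * r (g * h)⁻¹ = r g * (r h * A * r h⁻¹) * r g⁻¹
    rw [map_mul, mul_inv_rev, map_mul]
    simp only [mul_assoc]

@[simp] theorem flcAd_apply {k : Type*} [Field k] {V : Type*} [AddCommGroup V] [Module k V]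
    (r : 𝒢 →* Module.End k V) (g : 𝒢) (A : Module.End k V) :
    flcAd r g A = r g * A * r g⁻¹ := rfl

end Coc

section Tame

variable {p : ℕ} [Fact p.Prime] {𝒢 : Type} [Group 𝒢] (D : TameKummerData p 𝒢)
  {k : Type*} [Field k]

/-- additive `f : P → k` with `f (σ x σ⁻¹) = χI σ * f x` for `σ ∈ I` -/
def flcHI (χI : 𝒢 → k) : AddSubgroup (↥D.P → k) where
  carrier := {f | (∀ x y : ↥D.P, f (x * y) = f x + f y) ∧
    ∀ σ ∈ D.I, ∀ x : ↥D.P, haveI := D.P_normal; f (flcConj D.P σ x) = χI σ * f x}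
  zero_mem' := ⟨fun _ _ => by simp, fun _ _ _ => by simp⟩
  add_mem' := by
    rintro f f' ⟨h1, h2⟩ ⟨h1', h2'⟩
    refine ⟨fun x y => ?_, fun σ hσ x => ?_⟩
    · simp only [Pi.add_apply, h1, h1']
      abel
    · simp only [Pi.add_apply, h2 σ hσ, h2' σ hσ, mul_add]
  neg_mem' := by
    rintro f ⟨h1, h2⟩
    refine ⟨fun x y => ?_, fun σ hσ x => ?_⟩
    · simp only [Pi.neg_apply, h1]
      abel
    · simp only [Pi.neg_apply, h2 σ hσ, mul_neg]

/-- those `f ∈ flcHI` with moreover `f (φ^m x φ^-m) = A * f x` -/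
def flcH (m : ℕ) (χI : 𝒢 → k) (A : k) : AddSubgroup (↥D.P → k) where
  carrier := {f | f ∈ flcHI D χI ∧
    ∀ x : ↥D.P, haveI := D.P_normal; f (flcConj D.P (D.φ ^ m) x) = A * f x}
  zero_mem' := ⟨(flcHI D χI).zero_mem, fun _ => by simp⟩
  add_mem' := by
    rintro f f' ⟨h1, h2⟩ ⟨h1', h2'⟩
    refine ⟨(flcHI D χI).add_mem h1 h1', fun x => ?_⟩
    simp only [Pi.add_apply, h2, h2', mul_add]
  neg_mem' := by
    rintro f ⟨h1, h2⟩
    refine ⟨(flcHI D χI).neg_mem h1, fun x => ?_⟩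
    simp only [Pi.neg_apply, h2, mul_neg]

/-- the scalar `ω(g)⁻¹ u(g)^j ∈ kF` of the conjugation rule `ι_conj` -/
def flcγ (j : ℕ) (g : 𝒢) : D.kF :=
  (((D.ω g)⁻¹ : (ZMod p)ˣ) : ZMod p).val • (D.u g : D.kF) ^ j

/-- additive `Λ : k → kF` with `Λ (a c) = b Λ c` -/
def flcWab {kF : Type*} [Field kF] (a : k) (b : kF) : Submodule kF (k →+ kF) where
  carrier := {Λ | ∀ c : k, Λ (a * c) = b * Λ c}
  zero_mem' := by
    intro c
    simp
  add_mem' := by
    intro Λ Λ' h h' c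
    simp only [AddMonoidHom.add_apply, h c, h' c, mul_add]
  smul_mem' := by
    intro x Λ h c
    simp only [AddMonoidHom.smul_apply, h c, smul_eq_mul]
    ring

/-- where the leading terms of level `j` of the elements of `flcHI D χI` live -/
def flcW (χI : 𝒢 → k) (j : ℕ) : Submodule D.kF (k →+ D.kF) where
  carrier := {Λ | ∀ σ ∈ D.I, ∀ c : k, Λ ((χI σ)⁻¹ * c) = flcγ D j σ * Λ c}
  zero_mem' := by
    intro σ _ c
    simp
  add_mem' := by
    intro Λ Λ' h h' σ hσ c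
    simp only [AddMonoidHom.add_apply, h σ hσ c, h' σ hσ c, mul_add]
  smul_mem' := by
    intro x Λ h σ hσ c
    simp only [AddMonoidHom.smul_apply, h σ hσ c, smul_eq_mul]
    ring

theorem flcW_le_flcWab (χI : 𝒢 → k) (j : ℕ) {σ : 𝒢} (hσ : σ ∈ D.I) :
    flcW D χI j ≤ flcWab (χI σ)⁻¹ (flcγ D j σ) := fun _ hΛ c => hΛ σ hσ c

/-- `χ = ω` on inertia -/
def FlcIsOmega (χI : 𝒢 → k) : Prop :=
  ∀ σ ∈ D.I, χI σ = ((((D.ω σ : (ZMod p)ˣ) : ZMod p).val : ℕ) : k)

end Tame

end Fermat.Agent.S56
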