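import Fermat.Agent.S56.Flat.Cnt.Spec.F

/-!
# S56 / FLAT / CNT, leaf KF: the Kummer filtration on `flcHI` and the count `flc_card_H_le`

For an additive `f : P → k` and `c : k` the function `flcTr f c = Tr_{k/𝔽_p}(c · f) : P → 𝔽_p` is an
additive character of `P`; `flcFil D j` is the group of those `f` all of whose characters
`flcTr f c` lie in `D.Fil j`; the leading term of level `j` is `flcLead D j f : c ↦ D.ι j (flcTr f c)`.
-/

set_option autoImplicit false
set_option linter.unusedVariables false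
set_option linter.unusedSectionVars false
set_option linter.style.haveILetI false

namespace Fermat.Agent.S56

section General

/-- `#G ≤ a b` if the kernel and the range of a homomorphism have at most `a`, `b` elements -/
theorem flc_card_le_mul {G X : Type*} [AddGroup G] [Finite G] [AddGroup X] (ψ : G →+ X)
    {a b : ℕ} (ha : Nat.card ψ.ker ≤ a) (hb : Nat.card ψ.range ≤ b) : Nat.card G ≤ a * b := by
  rw [← AddSubgroup.card_mul_index ψ.ker, AddSubgroup.index_ker]
  exact Nat.mul_le_mul ha hb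

end General

section KF

variable {p : ℕ} [Fact p.Prime] {𝒢 : Type} [Group 𝒢] [Finite 𝒢] (D : TameKummerData p 𝒢)
  {k : Type*} [Field k] [Finite k] [CharP k p]

/-- the additive character `Tr_{k/𝔽_p}(c · f)` -/
noncomputable def flcTr (f : ↥D.P → k) (c : k) : ↥D.P → ZMod p :=
  letI : Algebra (ZMod p) k := ZMod.algebra k p
  fun x => Algebra.trace (ZMod p) k (c * f x)

theorem flcTr_apply (f : ↥D.P → k) (c : k) (x : ↥D.P) :
    flcTr D f c x = (letI : Algebra (ZMod p) k := ZMod.algebra k p;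
      Algebra.trace (ZMod p) k (c * f x)) := rfl

theorem flcTr_add_arg (f : ↥D.P → k) (c c' : k) :
    flcTr D f (c + c') = flcTr D f c + flcTr D f c' := by
  funext x
  simp only [flcTr_apply, Pi.add_apply, add_mul, map_add]

theorem flcTr_add (f f' : ↥D.P → k) (c : k) :
    flcTr D (f + f') c = flcTr D f c + flcTr D f' c := by
  funext x
  simp only [flcTr_apply, Pi.add_apply, mul_add, map_add]

theorem flcTr_neg (f : ↥D.P → k) (c : k) : flcTr D (-f) c = -flcTr D f c := by
  funext x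
  simp only [flcTr_apply, Pi.neg_apply, mul_neg, map_neg]

theorem flcTr_zero (c : k) : flcTr D (0 : ↥D.P → k) c = 0 := by
  funext x
  simp only [flcTr_apply, Pi.zero_apply, mul_zero, map_zero]

theorem flcTr_mul (f : ↥D.P → k) (hf : ∀ x y : ↥D.P, f (x * y) = f x + f y) (c : k)
    (x y : ↥D.P) : flcTr D f c (x * y) = flcTr D f c x + flcTr D f c y := by
  simp only [flcTr_apply, hf, mul_add, map_add]

/-- nondegeneracy of the trace form -/
theorem flcTr_eq_zero (f : ↥D.P → k) (h : ∀ c : k, flcTr D f c = 0) : f = 0 := by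
  letI : Algebra (ZMod p) k := ZMod.algebra k p
  funext x
  show f x = 0
  have hnd := traceForm_nondegenerate (ZMod p) k
  have h1 : ∀ c : k, Algebra.traceForm (ZMod p) k (f x) c = 0 := by
    intro c
    have := congrFun (h c) x
    rw [flcTr_apply] at this
    rw [Algebra.traceForm_apply, mul_comm]
    exact this
  exact hnd.1 (f x) h1

/-- `f` all of whose characters lie in `Fil j` -/
noncomputable def flcFil (j : ℕ) : AddSubgroup (↥D.P → k) where
  carrier := {f | ∀ c : k, flcTr D f c ∈ D.Fil j}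
  zero_mem' := by
    intro c
    rw [flcTr_zero]
    exact (D.Fil j).zero_mem
  add_mem' := by
    intro f f' hf hf' c
    rw [flcTr_add]
    exact (D.Fil j).add_mem (hf c) (hf' c)
  neg_mem' := by
    intro f hf c
    rw [flcTr_neg]
    exact (D.Fil j).neg_mem (hf c)

theorem mem_flcFil {j : ℕ} {f : ↥D.P → k} : f ∈ flcFil D j ↔ ∀ c : k, flcTr D f c ∈ D.Fil j :=
  Iff.rfl

theorem flcFil_anti {i j : ℕ} (h : i ≤ j) : flcFil (k := k) D j ≤ flcFil D i :=
  fun _ hf c => D.Fil_anti h (hf c)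

theorem flcFil_low {f : ↥D.P → k} (hf : ∀ x y : ↥D.P, f (x * y) = f x + f y) :
    f ∈ flcFil D ((p - 1) * D.e') :=
  fun c => D.Fil_low _ (flcTr_mul D f hf c)

theorem flcFil_top : flcFil (k := k) D (p * D.e') = ⊥ := by
  rw [eq_bot_iff]
  intro f hf
  rw [AddSubgroup.mem_bot]
  exact flcTr_eq_zero D f (fun c => D.Fil_top _ (hf c))

/-- the leading term of level `j` -/
noncomputable def flcLead (j : ℕ) (f : ↥D.P → k) (c : k) : D.kF := D.ι j (flcTr D f c)

theorem flcLead_add_arg {j : ℕ} {f : ↥D.P → k} (hf : f ∈ flcFil D j) (c c' : k) :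
    flcLead D j f (c + c') = flcLead D j f c + flcLead D j f c' := by
  unfold flcLead
  rw [flcTr_add_arg, D.ι_add j _ (hf c) _ (hf c')]

theorem flcLead_add {j : ℕ} {f f' : ↥D.P → k} (hf : f ∈ flcFil D j) (hf' : f' ∈ flcFil D j)
    (c : k) : flcLead D j (f + f') c = flcLead D j f c + flcLead D j f' c := by
  unfold flcLead
  rw [flcTr_add, D.ι_add j _ (hf c) _ (hf' c)]

theorem flcLead_eq_zero_iff {j : ℕ} {f : ↥D.P → k} (hf : f ∈ flcFil D j) :
    (∀ c, flcLead D j f c = 0) ↔ f ∈ flcFil D (j + 1) := by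
  constructor
  · intro h c
    exact (D.ι_eq_zero_iff j _ (hf c)).mp (h c)
  · intro h c
    exact (D.ι_eq_zero_iff j _ (hf c)).mpr (h c)

theorem flcLead_dvd {j : ℕ} (hj : p ∣ j) {f : ↥D.P → k} (hf : f ∈ flcFil D j) (c : k) :
    flcLead D j f c = 0 := D.ι_dvd j hj _ (hf c)

/-- the conjugation rule for leading terms -/
theorem flcLead_conj {j : ℕ} {f : ↥D.P → k} (hf : f ∈ flcFil D j) (g : 𝒢) (B : k) (hB : B ≠ 0)
    (hfg : ∀ x : ↥D.P, haveI := D.P_normal; f (flcConj D.P g x) = B * f x) (c : k) :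
    flcLead D j f (B⁻¹ * c) = flcγ D j g * D.act g (flcLead D j f c) := by
  haveI := D.P_normal
  have h1 : tkConj D.P g (flcTr D f c) = flcTr D f (B⁻¹ * c) := by
    funext x
    show flcTr D f c _ = flcTr D f (B⁻¹ * c) x
    rw [flcTr_apply, flcTr_apply]
    have hx : f x = B * f ⟨g⁻¹ * (x : 𝒢) * g, by
        have := D.P_normal.conj_mem (x : 𝒢) x.2 g⁻¹
        rwa [inv_inv] at this⟩ := by
      rw [← hfg]
      congr 1
      apply Subtype.ext
      show (x : 𝒢) = g * (g⁻¹ * (x : 𝒢) * g) * g⁻¹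
      group
    congr 1
    rw [hx]
    field_simp
  unfold flcLead
  rw [← h1, D.ι_conj j g _ (hf c), flcγ, smul_mul_assoc]

/-- the leading term as an additive map -/
noncomputable def flcLeadMap {j : ℕ} {f : ↥D.P → k} (hf : f ∈ flcFil D j) : k →+ D.kF :=
  AddMonoidHom.mk' (flcLead D j f) (flcLead_add_arg D hf)

@[simp] theorem flcLeadMap_apply {j : ℕ} {f : ↥D.P → k} (hf : f ∈ flcFil D j) (c : k) :
    flcLeadMap D hf c = flcLead D j f c := rfl

/-- the leading term homomorphism on a subgroup of `flcFil D j` -/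
noncomputable def flcLeadHom (j : ℕ) (S : AddSubgroup (↥D.P → k)) (hS : S ≤ flcFil D j) :
    ↥S →+ (k →+ D.kF) :=
  AddMonoidHom.mk' (fun f => flcLeadMap D (hS f.2)) (fun f f' => by
    ext c
    exact flcLead_add D (hS f.2) (hS f'.2) c)

@[simp] theorem flcLeadHom_apply (j : ℕ) (S : AddSubgroup (↥D.P → k)) (hS : S ≤ flcFil D j)
    (f : ↥S) (c : k) : flcLeadHom D j S hS f c = flcLead D j (f : ↥D.P → k) c := rfl

theorem flcLeadHom_eq_zero_iff (j : ℕ) (S : AddSubgroup (↥D.P → k)) (hS : S ≤ flcFil D j)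
    (f : ↥S) : flcLeadHom D j S hS f = 0 ↔ (f : ↥D.P → k) ∈ flcFil D (j + 1) := by
  rw [← flcLead_eq_zero_iff D (hS f.2)]
  constructor
  · intro h c
    have := congrArg (fun Λ : k →+ D.kF => Λ c) h
    exact this
  · intro h
    ext c
    exact h c

/-- leading terms of elements of `flcHI` lie in `flcW` -/
theorem flcLead_mem_flcW (χI : 𝒢 → k) (h0 : ∀ σ ∈ D.I, χI σ ≠ 0) {j : ℕ} {f : ↥D.P → k}
    (hfI : f ∈ flcHI D χI) (hf : f ∈ flcFil D j) : flcLeadMap D hf ∈ flcW D χI j := by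
  intro σ hσ c
  rw [flcLeadMap_apply, flcLeadMap_apply, flcLead_conj D hf σ (χI σ) (h0 σ hσ) (hfI.2 σ hσ) c,
    D.act_I σ hσ]

theorem flcHI_le_flcFil (χI : 𝒢 → k) : flcHI D χI ≤ flcFil D ((p - 1) * D.e') :=
  fun _ hf => flcFil_low D hf.1

/-- **leaf KF (a).** -/
theorem flc_HI_eq_bot (χI : 𝒢 → k) (h0 : ∀ σ ∈ D.I, χI σ ≠ 0)
    (hW : ∀ j, (p - 1) * D.e' ≤ j → j < p * D.e' → ¬ p ∣ j → flcW D χI j = ⊥) :
    flcHI D χI = ⊥ := by
  have key : ∀ n : ℕ, flcHI D χI ≤ flcFil D ((p - 1) * D.e' + n) := by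
    intro n
    induction n with
    | zero => exact flcHI_le_flcFil D χI
    | succ n ih =>
      intro f hfI
      have hf := ih hfI
      rw [← add_assoc]
      set j := (p - 1) * D.e' + n with hj
      by_cases hjtop : j < p * D.e'
      · rw [← flcLead_eq_zero_iff D hf]
        intro c
        by_cases hpj : p ∣ j
        · exact flcLead_dvd D hpj hf c
        · have h1 := flcLead_mem_flcW D χI h0 hfI hf
          rw [hW j (Nat.le_add_right _ _) hjtop hpj, Submodule.mem_bot] at h1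
          have := congrArg (fun Λ : k →+ D.kF => Λ c) h1
          exact this
      · have h1 : f ∈ flcFil D (p * D.e') := flcFil_anti D (not_lt.mp hjtop) hf
        rw [flcFil_top, AddSubgroup.mem_bot] at h1
        rw [h1]
        exact (flcFil D (j + 1)).zero_mem
  rw [eq_bot_iff]
  intro f hf
  have h1 := key D.e' hf
  have h2 : (p - 1) * D.e' + D.e' = p * D.e' := by
    have hp := (Fact.out : p.Prime).one_le
    calc (p - 1) * D.e' + D.e' = ((p - 1) + 1) * D.e' := by ring
      _ = p * D.e' := by rw [Nat.sub_add_cancel hp]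
  rw [h2, flcFil_top] at h1
  exact h1

/-- `act (φ^m) x = x^(p^m)` -/
theorem flc_act_phi_pow (m : ℕ) (x : D.kF) : D.act (D.φ ^ m) x = x ^ p ^ m := by
  induction m generalizing x with
  | zero => simp
  | succ m ih =>
    rw [pow_succ, map_mul, RingAut.mul_apply, D.act_φ, ih, ← pow_mul, pow_succ, mul_comm]

/-- the Frobenius-semilinear operator `Λ ↦ (c ↦ γ (Λ (A c))^(p^m))` -/
noncomputable def flcT (γ : D.kF) (A : k) (m : ℕ) : (k →+ D.kF) →+ (k →+ D.kF) :=
  AddMonoidHom.mk' (fun Λ => AddMonoidHom.mk' (fun c => γ * Λ (A * c) ^ p ^ m) (fun c c' => by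
    show γ * Λ (A * (c + c')) ^ p ^ m = γ * Λ (A * c) ^ p ^ m + γ * Λ (A * c') ^ p ^ m
    rw [mul_add, map_add, add_pow_char_pow, mul_add])) (fun Λ Λ' => by
    ext c
    show γ * (Λ + Λ') (A * c) ^ p ^ m = γ * Λ (A * c) ^ p ^ m + γ * Λ' (A * c) ^ p ^ m
    rw [AddMonoidHom.add_apply, add_pow_char_pow, mul_add])

@[simp] theorem flcT_apply (γ : D.kF) (A : k) (m : ℕ) (Λ : k →+ D.kF) (c : k) :
    flcT D γ A m Λ c = γ * Λ (A * c) ^ p ^ m := rfl

theorem flcT_smul (γ : D.kF) (A : k) (m : ℕ) (a : D.kF) (Λ : k →+ D.kF) :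
    flcT D γ A m (a • Λ) = a ^ p ^ m • flcT D γ A m Λ := by
  ext c
  simp only [flcT_apply, AddMonoidHom.smul_apply, smul_eq_mul, mul_pow]
  ring

instance flc_finite_hom : Finite (k →+ D.kF) :=
  Finite.of_injective (fun Λ : k →+ D.kF => (Λ : k → D.kF)) DFunLike.coe_injective

/-- leading terms of elements of `flcH` are fixed by `flcT` -/
theorem flcLead_fixed (m : ℕ) (χI : 𝒢 → k) (A : k) (hA : A ≠ 0) {j : ℕ} {f : ↥D.P → k}
    (hfH : f ∈ flcH D m χI A) (hf : f ∈ flcFil D j) :
    flcT D (flcγ D j (D.φ ^ m)) A m (flcLeadMap D hf) = flcLeadMap D hf := by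
  ext c
  rw [flcT_apply, flcLeadMap_apply, flcLeadMap_apply]
  have h1 := flcLead_conj D hf (D.φ ^ m) A hA hfH.2 (A * c)
  rw [inv_mul_cancel_left₀ hA, flc_act_phi_pow] at h1
  exact h1.symm

/-- one step of the filtration -/
theorem flc_card_step (m : ℕ) (hm : 0 < m) (χI : 𝒢 → k) (h0 : ∀ σ ∈ D.I, χI σ ≠ 0) (A : k)
    (hA : A ≠ 0) (j : ℕ) :
    Nat.card ↥(flcH D m χI A ⊓ flcFil D j) ≤
      Nat.card ↥(flcH D m χI A ⊓ flcFil D (j + 1)) *
        (if p ∣ j then 1 else (p ^ m) ^ Module.finrank D.kF ↥(flcW D χI j)) := by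
  haveI : Finite (↥D.P → k) := by
    haveI : Finite ↥D.P := inferInstance
    infer_instance
  set S := flcH D m χI A ⊓ flcFil D j with hS
  set ψ := flcLeadHom D j S inf_le_right with hψ
  apply flc_card_le_mul ψ
  · -- the kernel
    refine Nat.card_le_card_of_injective
      (fun f : ψ.ker => (⟨(f.1 : ↥D.P → k), ⟨f.1.2.1, ?_⟩⟩ :
        ↥(flcH D m χI A ⊓ flcFil D (j + 1)))) ?_
    · exact (flcLeadHom_eq_zero_iff D j S inf_le_right f.1).mp f.2
    · intro f f' h
      apply Subtype.ext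
      apply Subtype.ext
      exact congrArg (fun x : ↥(flcH D m χI A ⊓ flcFil D (j + 1)) => (x : ↥D.P → k)) h
  · -- the range
    split_ifs with hpj
    · have : ψ.range = ⊥ := by
        rw [eq_bot_iff]
        rintro _ ⟨f, rfl⟩
        rw [AddSubgroup.mem_bot]
        ext c
        exact flcLead_dvd D hpj f.2.2 c
      rw [this]
      simp
    · haveI : Module.Finite D.kF ↥(flcW D χI j) := Module.Finite.of_finite
      refine le_trans ?_ (flc_semilinear p m hm (flcT D (flcγ D j (D.φ ^ m)) A m)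
        (flcT_smul D _ A m) (flcW D χI j))
      refine Nat.card_le_card_of_injective
        (fun Λ : ψ.range => (⟨(Λ : k →+ D.kF), ?_⟩ :
          {y : k →+ D.kF // y ∈ flcW D χI j ∧ flcT D (flcγ D j (D.φ ^ m)) A m y = y})) ?_
      · obtain ⟨f, hf⟩ := Λ.2
        rw [← hf]
        exact ⟨flcLead_mem_flcW D χI h0 f.2.1.1 f.2.2, flcLead_fixed D m χI A hA f.2.1 f.2.2⟩
      · intro Λ Λ' h
        apply Subtype.ext
        exact congrArg (fun x : {y : k →+ D.kF // y ∈ flcW D χI j ∧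
          flcT D (flcγ D j (D.φ ^ m)) A m y = y} => (x : k →+ D.kF)) h

/-- **leaf KF (b).** -/
theorem flc_card_H_le (m : ℕ) (hm : 0 < m) (χI : 𝒢 → k) (h0 : ∀ σ ∈ D.I, χI σ ≠ 0) (A : k)
    (hA : A ≠ 0) :
    Nat.card ↥(flcH D m χI A) ≤
      ∏ j ∈ (Finset.Ico ((p - 1) * D.e') (p * D.e')).filter (fun j => ¬ p ∣ j),
        (p ^ m) ^ Module.finrank D.kF ↥(flcW D χI j) := by
  have key : ∀ n : ℕ, n ≤ p * D.e' →
      Nat.card ↥(flcH D m χI A ⊓ flcFil D (p * D.e' - n)) ≤
        ∏ j ∈ (Finset.Ico (p * D.e' - n) (p * D.e')).filter (fun j => ¬ p ∣ j),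
          (p ^ m) ^ Module.finrank D.kF ↥(flcW D χI j) := by
    intro n
    induction n with
    | zero =>
      intro _
      rw [Nat.sub_zero, flcFil_top, inf_bot_eq]
      simp
    | succ n ih =>
      intro hn
      have hn' : n ≤ p * D.e' := Nat.le_of_succ_le hn
      set j := p * D.e' - (n + 1) with hj
      have hj1 : j + 1 = p * D.e' - n := by omega
      have hjlt : j < p * D.e' := by omega
      have hstep := flc_card_step D m hm χI h0 A hA j
      rw [hj1] at hstep
      refine le_trans hstep ?_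
      refine le_trans (Nat.mul_le_mul_right _ (ih hn')) ?_
      rw [← hj1, ← Finset.insert_Ico_add_one_left_eq_Ico hjlt, Finset.filter_insert]
      by_cases hpj : p ∣ j
      · rw [if_pos hpj, if_neg (not_not.mpr hpj), mul_one]
      · rw [if_neg hpj, if_pos hpj, Finset.prod_insert (by simp), mul_comm]
  have h1 := key D.e' (by
    calc D.e' = 1 * D.e' := (one_mul _).symm
      _ ≤ p * D.e' := Nat.mul_le_mul_right _ (Fact.out : p.Prime).one_le)
  have h2 : p * D.e' - D.e' = (p - 1) * D.e' := by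
    rw [Nat.sub_mul, one_mul]
  rw [h2] at h1
  have h3 : flcH D m χI A ⊓ flcFil D ((p - 1) * D.e') = flcH D m χI A := by
    rw [inf_eq_left]
    intro f hf
    exact flcHI_le_flcFil D χI hf.1
  rw [h3] at h1
  exact h1

end KF

end Fermat.Agent.S56
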