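import Fermat.Agent.S56.Flat.Cnt.Defs

/-!
# S56 / FLAT / CNT, leaf GEN: the structure of `I/P`

`u` restricted to `I` is a homomorphism `θ : I → kFˣ` with kernel `P`; so `I/P` is cyclic of order
`(p-1) e'` (prime to `p`), `φ σ φ⁻¹ ≡ σ^p mod P`, characters of `𝒢` with values in a field of
characteristic `p` are trivial on `P` and have values in `𝔽_pˣ` on `I`.
-/

set_option autoImplicit false
set_option linter.unusedVariables false
set_option linter.unusedSectionVars false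
set_option linter.style.haveILetI false

namespace Fermat.Agent.S56

section Gen

variable {p : ℕ} [Fact p.Prime] {𝒢 : Type} [Group 𝒢] [Finite 𝒢] (D : TameKummerData p 𝒢)

omit [Finite 𝒢] in
theorem flc_u_one : D.u 1 = 1 := by
  have h := D.u_mul 1 1
  rw [mul_one, map_one, RingAut.one_apply] at h
  apply Units.ext
  have h1 : (D.u 1 : D.kF) * 1 = (D.u 1 : D.kF) * (D.u 1 : D.kF) := by
    rw [mul_one]
    exact h
  exact (mul_left_cancel₀ (Units.ne_zero _) h1).symm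

/-- `u` on `I` as a homomorphism -/
noncomputable def flcTheta : ↥D.I →* D.kFˣ where
  toFun σ := D.u (σ : 𝒢)
  map_one' := flc_u_one D
  map_mul' σ τ := by
    apply Units.ext
    show (D.u ((σ : 𝒢) * (τ : 𝒢)) : D.kF) = (D.u (σ : 𝒢) : D.kF) * (D.u (τ : 𝒢) : D.kF)
    rw [D.u_mul, D.act_I (σ : 𝒢) σ.2]

omit [Finite 𝒢] in
@[simp] theorem flcTheta_apply (σ : ↥D.I) : flcTheta D σ = D.u (σ : 𝒢) := rfl

omit [Finite 𝒢] in
theorem flcTheta_ker : (flcTheta D).ker = D.P.subgroupOf D.I := by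
  ext σ
  rw [MonoidHom.mem_ker, flcTheta_apply, D.u_eq_one_iff (σ : 𝒢) σ.2, Subgroup.mem_subgroupOf]

theorem flcTheta_card_range : Nat.card ↥(flcTheta D).range = (p - 1) * D.e' := by
  have h1 := Subgroup.card_mul_index (flcTheta D).ker
  rw [Subgroup.index_ker, flcTheta_ker,
    Nat.card_congr (Subgroup.subgroupOfEquivOfLe D.P_le_I).toEquiv, D.card_I] at h1
  have hP : 0 < Nat.card ↥D.P := Nat.card_pos
  rw [mul_comm] at h1
  exact Nat.eq_of_mul_eq_mul_right hP h1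

omit [Finite 𝒢] in
theorem flc_mem_P_of_u_eq {σ τ : 𝒢} (hσ : σ ∈ D.I) (hτ : τ ∈ D.I) (h : D.u σ = D.u τ) :
    σ⁻¹ * τ ∈ D.P := by
  have h1 : σ⁻¹ * τ ∈ D.I := D.I.mul_mem (D.I.inv_mem hσ) hτ
  rw [← D.u_eq_one_iff _ h1]
  have h2 : flcTheta D (⟨σ, hσ⟩⁻¹ * ⟨τ, hτ⟩) = 1 := by
    rw [map_mul, map_inv, flcTheta_apply, flcTheta_apply]
    show (D.u σ)⁻¹ * D.u τ = 1
    rw [h, inv_mul_cancel]
  exact h2

/-- **leaf GEN (a).** -/
theorem flc_exists_gen :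
    ∃ σ₀ ∈ D.I, orderOf (D.u σ₀) = (p - 1) * D.e' ∧ orderOf (D.ω σ₀) = p - 1 ∧
      ∀ σ ∈ D.I, ∃ n : ℕ, ∃ x ∈ D.P, σ = σ₀ ^ n * x := by
  have hp := (Fact.out : p.Prime)
  haveI : Finite ↥(flcTheta D).range := inferInstance
  haveI : IsCyclic ↥(flcTheta D).range := inferInstance
  obtain ⟨g, hg⟩ := IsCyclic.exists_generator (α := ↥(flcTheta D).range)
  obtain ⟨σ₀, hσ₀g⟩ := g.2
  have hord : orderOf (D.u (σ₀ : 𝒢)) = (p - 1) * D.e' := by
    have h1 : orderOf g = Nat.card ↥(flcTheta D).range :=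
      orderOf_eq_card_of_forall_mem_zpowers hg
    rw [← flcTheta_card_range D, ← h1, ← Subgroup.orderOf_coe g, ← hσ₀g]
    rfl
  refine ⟨(σ₀ : 𝒢), σ₀.2, hord, ?_, ?_⟩
  · -- the order of `ω σ₀`
    let c : (ZMod p)ˣ →* D.kFˣ := Units.map (ZMod.castHom (dvd_refl p) D.kF : ZMod p →* D.kF)
    have hc : Function.Injective c :=
      Units.map_injective (ZMod.castHom (dvd_refl p) D.kF).injective
    have h1 : c (D.ω (σ₀ : 𝒢)) = D.u (σ₀ : 𝒢) ^ D.e' := by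
      apply Units.ext
      rw [Units.val_pow_eq_pow_val, D.u_pow (σ₀ : 𝒢) σ₀.2]
      show ZMod.castHom (dvd_refl p) D.kF ((D.ω (σ₀ : 𝒢) : (ZMod p)ˣ) : ZMod p) = _
      rw [ZMod.castHom_apply, ZMod.natCast_val]
    rw [← orderOf_injective c hc, h1, orderOf_pow_of_dvd D.e'_pos.ne' (by
      rw [hord]
      exact Dvd.intro_left _ rfl), hord, Nat.mul_div_cancel _ D.e'_pos]
  · intro σ hσ
    have h1 : (⟨flcTheta D ⟨σ, hσ⟩, ⟨_, rfl⟩⟩ : ↥(flcTheta D).range) ∈ Subgroup.zpowers g := hg _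
    rw [← mem_powers_iff_mem_zpowers] at h1
    obtain ⟨n, hn⟩ := h1
    have h2 : D.u ((σ₀ : 𝒢) ^ n) = D.u σ := by
      have h3 := congrArg (fun x : ↥(flcTheta D).range => (x : D.kFˣ)) hn
      simp only [SubmonoidClass.coe_pow] at h3
      rw [← hσ₀g] at h3
      have h4 : flcTheta D (σ₀ ^ n) = flcTheta D ⟨σ, hσ⟩ := by
        rw [map_pow]
        exact h3
      exact h4
    have hmem : (σ₀ : 𝒢) ^ n ∈ D.I := D.I.pow_mem σ₀.2 n
    refine ⟨n, ((σ₀ : 𝒢) ^ n)⁻¹ * σ, flc_mem_P_of_u_eq D hmem hσ h2, ?_⟩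
    rw [mul_inv_cancel_left]

/-- **leaf GEN (b).** -/
theorem flc_coprime : ((p - 1) * D.e').Coprime p := by
  have hp := (Fact.out : p.Prime)
  obtain ⟨σ₀, hσ₀, hord, -, -⟩ := flc_exists_gen D
  apply Nat.Coprime.symm
  rw [Nat.Prime.coprime_iff_not_dvd hp]
  intro hdvd
  rw [← hord] at hdvd
  obtain ⟨t, ht⟩ := hdvd
  have ht0 : t ≠ 0 := by
    rintro rfl
    rw [mul_zero] at ht
    rw [ht] at hord
    have : 0 < (p - 1) * D.e' := Nat.mul_pos (Nat.sub_pos_of_lt hp.one_lt) D.e'_pos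
    omega
  -- `y = (u σ₀)^t` has order `p`
  have hy : orderOf (D.u σ₀ ^ t) = p := by
    rw [orderOf_pow_of_dvd ht0 (Dvd.intro_left _ ht.symm), ht, Nat.mul_div_cancel _ (Nat.pos_of_ne_zero ht0)]
  have h1 : (D.u σ₀ ^ t) ^ p = 1 := by
    have := pow_orderOf_eq_one (D.u σ₀ ^ t)
    rw [hy] at this
    exact this
  have h2 : ((D.u σ₀ ^ t : D.kFˣ) : D.kF) = 1 := by
    have h3 : (((D.u σ₀ ^ t : D.kFˣ) : D.kF) - 1) ^ p = 0 := by
      rw [sub_pow_char, one_pow, ← Units.val_pow_eq_pow_val, h1, Units.val_one, sub_self]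
    exact sub_eq_zero.mp (pow_eq_zero_iff hp.ne_zero |>.mp h3)
  have h4 : D.u σ₀ ^ t = 1 := Units.ext h2
  rw [h4, orderOf_one] at hy
  exact hp.one_lt.ne hy

/-- **leaf GEN (c).** -/
theorem flc_conj_phi {σ : 𝒢} (hσ : σ ∈ D.I) : ∃ x ∈ D.P, D.φ * σ * D.φ⁻¹ = σ ^ p * x := by
  have hτ : D.φ * σ * D.φ⁻¹ ∈ D.I := D.I_normal.conj_mem σ hσ D.φ
  have hσp : σ ^ p ∈ D.I := D.I.pow_mem hσ p
  have hu : D.u (σ ^ p) = D.u (D.φ * σ * D.φ⁻¹) := by
    apply Units.ext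
    have h1 : (D.u (σ ^ p) : D.kF) = (D.u σ : D.kF) ^ p := by
      have := map_pow (flcTheta D) ⟨σ, hσ⟩ p
      have h2 := congrArg (fun x : D.kFˣ => (x : D.kF)) this
      simpa using h2
    have h3 : (D.u (D.φ * D.φ⁻¹) : D.kF) = 1 := by
      rw [mul_inv_cancel, flc_u_one, Units.val_one]
    rw [D.u_mul, D.act_φ] at h3
    rw [h1, D.u_mul, D.u_mul, map_mul, RingAut.mul_apply, D.act_I σ hσ, D.act_φ, D.act_φ]
    calc (D.u σ : D.kF) ^ p = (D.u σ : D.kF) ^ p * ((D.u D.φ : D.kF) * (D.u D.φ⁻¹ : D.kF) ^ p) := by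
          rw [h3, mul_one]
      _ = (D.u D.φ : D.kF) * (D.u σ : D.kF) ^ p * (D.u D.φ⁻¹ : D.kF) ^ p := by ring
  refine ⟨(σ ^ p)⁻¹ * (D.φ * σ * D.φ⁻¹), flc_mem_P_of_u_eq D hσp hτ hu, ?_⟩
  rw [mul_inv_cancel_left]

/-- **leaf GEN (d).** -/
theorem flc_omega_P {x : 𝒢} (hx : x ∈ D.P) : D.ω x = 1 := by
  have hp := (Fact.out : p.Prime)
  obtain ⟨n, hn⟩ := D.isPGroup ⟨x, hx⟩
  have h1 : D.ω x ^ p ^ n = 1 := by
    have := congrArg (fun y : ↥D.P => D.ω (y : 𝒢)) hn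
    simpa using this
  have h2 : D.ω x ^ (p - 1) = 1 := by
    have := pow_card_eq_one (G := (ZMod p)ˣ) (x := D.ω x)
    rwa [ZMod.card_units_eq_totient, Nat.totient_prime hp] at this
  have h3 : orderOf (D.ω x) ∣ p ^ n := orderOf_dvd_of_pow_eq_one h1
  have h4 : orderOf (D.ω x) ∣ p - 1 := orderOf_dvd_of_pow_eq_one h2
  have hcop : (p ^ n).Coprime (p - 1) := by
    apply Nat.Coprime.pow_left
    rw [Nat.Prime.coprime_iff_not_dvd hp]
    intro h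
    have := Nat.le_of_dvd (Nat.sub_pos_of_lt hp.one_lt) h
    have := hp.one_lt
    omega
  exact orderOf_eq_one_iff.mp (Nat.eq_one_of_dvd_coprimes hcop h3 h4)

/-- **leaf GEN (e).** -/
theorem flc_char_I {k : Type*} [Field k] [CharP k p] (χ : 𝒢 →* kˣ) :
    (∀ x ∈ D.P, χ x = 1) ∧ ∀ σ ∈ D.I, χ σ ^ (p - 1) = 1 := by
  have hp := (Fact.out : p.Prime)
  have hP : ∀ x ∈ D.P, χ x = 1 := by
    intro x hx
    obtain ⟨n, hn⟩ := D.isPGroup ⟨x, hx⟩
    have h1 : χ x ^ p ^ n = 1 := by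
      have := congrArg (fun y : ↥D.P => χ (y : 𝒢)) hn
      simpa using this
    apply Units.ext
    have h2 : (((χ x : kˣ) : k) - 1) ^ p ^ n = 0 := by
      rw [sub_pow_char_pow, one_pow, ← Units.val_pow_eq_pow_val, h1, Units.val_one, sub_self]
    rw [Units.val_one]
    exact sub_eq_zero.mp (pow_eq_zero_iff (pow_ne_zero n hp.ne_zero) |>.mp h2)
  refine ⟨hP, fun σ hσ => ?_⟩
  obtain ⟨x, hx, hconj⟩ := flc_conj_phi D hσ
  have h1 : χ σ = χ σ ^ p := by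
    have h2 : χ (D.φ * σ * D.φ⁻¹) = χ σ := by
      rw [map_mul, map_mul, map_inv, mul_comm (χ D.φ), mul_assoc, mul_inv_cancel, mul_one]
    rw [hconj, map_mul, map_pow, hP x hx, mul_one] at h2
    exact h2.symm
  have h3 : χ σ ^ (p - 1) * χ σ = 1 * χ σ := by
    rw [← pow_succ, Nat.sub_add_cancel hp.one_le, one_mul]
    exact h1.symm
  exact mul_right_cancel h3

end Gen

end Fermat.Agent.S56
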