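import Fermat.Agent.S56.Flat.Cnt.IrrCore

/-! # S56 / FLAT / CNT: leaf IRR (the irreducible case), helper10.

`flc_count_irreducible` verbatim from the spec stub `Flat/Cnt/Spec/Irr.lean`; proved from the
leaves (T), (U1a), (U3), (GEN) (imported as spec stubs / shims through `IrrBase`).
Helpers: `IrrBase.lean`, `IrrCore.lean` (prefix `flci`). -/

set_option autoImplicit false
set_option linter.unusedVariables false
set_option linter.unusedSectionVars false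
set_option linter.style.haveILetI false

namespace Fermat.Agent.S56

open Polynomial

section Irr

variable {p : ℕ} [Fact p.Prime] {𝒢 : Type} [Group 𝒢] [Finite 𝒢]
  {k : Type} [Field k] [Finite k] [CharP k p] {V : Type} [AddCommGroup V] [Module k V]
  [Module.Finite k V]

/-- **leaf IRR.**  No stable line.  (1) `V^P ≠ 0` (`P` is a `p`-group) is `𝒢`-stable, so `P` acts
trivially on `V` and on `ad⁰`; by (T): `#Z¹(𝒢, ad⁰) ≤ #k³ · #Hom_𝒢(P, ad⁰)`.  (2) `r σ₀` (of order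
prime to `p`, eigenvalues in `k` by `hsplit`) is diagonalisable: either `I` acts by scalars, then
every matrix coefficient of `f ∈ Hom_𝒢(P, ad⁰)` lies in `flcHI D 1 = 0` by (U1a); or there are two
eigenlines `k v₁, k v₂` with characters `ψ₁ ≠ ψ₂` of `I`, swapped by `r φ` (no stable line):
`v₂ = r φ v₁`, `r φ v₂ = κ v₁`, `ψ₂ = ψ₁^p`, `ψ₁ = ψ₂^p`, `ψ₁ ψ₂ = ω`.  In the basis `(v₁, v₂)`:
`f = [[f₁₁, f₁₂], [f₂₁, -f₁₁]]` with `f₁₁ ∈ flcHI D 1 = 0`, `f₂₁ x = κ⁻¹ f₁₂ (φ⁻¹ x φ)` and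
`f₁₂ ∈ flcH D 2 (ψ₁/ψ₂) 1`, so `#Hom_𝒢(P, ad⁰) ≤ #k` by (U3) (for `p = 3`: `(ψ₁/ψ₂)(σ₀)² ≠ 1`
because `ψ₁(σ₀)⁴ = ω(σ₀) = -1`). -/
theorem flc_count_irreducible (hp2 : p ≠ 2) (D : TameKummerData p 𝒢)
    (hV : Module.finrank k V = 2) (r : 𝒢 →* Module.End k V)
    (hdet : ∀ g, LinearMap.det (r g) = (((D.ω g : (ZMod p)ˣ) : ZMod p).val : k))
    (hsplit : ∀ g, ∃ α β : k, LinearMap.charpoly (r g) = (X - C α) * (X - C β))
    (hirr : ∀ ℓ : Submodule k V, ¬ IsStableLine r ℓ) :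
    Nat.card {c : 𝒢 → Module.End k V // IsAdCocycle r c} ≤ Nat.card k ^ 4 := by
  have := D.P_normal
  have hPtriv := flci_P_trivial hV r D.P D.isPGroup hirr
  obtain ⟨σ₀, hσ₀, hu, hω, hgen⟩ := flc_exists_gen D
  have hle := flci_card_le_of_hom hp2 D hV r hPtriv
  suffices h : Nat.card ↥(flcHomG D.P (flciAd0 r)) ≤ Nat.card k by
    calc Nat.card {c : 𝒢 → Module.End k V // IsAdCocycle r c}
        ≤ Nat.card k ^ 3 * Nat.card ↥(flcHomG D.P (flciAd0 r)) := hle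
      _ ≤ Nat.card k ^ 3 * Nat.card k := Nat.mul_le_mul_left _ h
      _ = Nat.card k ^ 4 := (pow_succ _ 3).symm
  obtain ⟨α, β, hchar⟩ := hsplit σ₀
  by_cases hαβ : α = β
  · -- the scalar case
    subst hαβ
    have hm : (r σ₀) ^ ((p - 1) * D.e') = 1 := by
      rw [← map_pow, ← hu]
      exact hPtriv _ (flci_pow_mem_P D σ₀ hσ₀)
    have hm0 : (((p - 1) * D.e' : ℕ) : k) ≠ 0 := by
      intro h
      have hdvd := (CharP.cast_eq_zero_iff k p _).1 h
      exact (Fact.out : p.Prime).one_lt.ne' (Nat.Coprime.eq_one_of_dvd (flc_coprime D).symm hdvd)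
    have hsc := flci_scalar_of_double (r σ₀) α hchar _ hm0 hm
    have hall : ∀ σ ∈ D.I, ∃ c : k, r σ = c • (1 : Module.End k V) := by
      intro σ hσ
      obtain ⟨n, x, hx, rfl⟩ := hgen σ hσ
      refine ⟨α ^ n, ?_⟩
      rw [map_mul, hPtriv x hx, mul_one, map_pow, hsc, _root_.smul_pow, one_pow]
    have hzero := flci_hom_eq_zero_of_scalar hp2 D r hall
    have hsub : Subsingleton ↥(flcHomG D.P (flciAd0 r)) :=
      ⟨fun f g => Subtype.ext ((hzero f.1 f.2).trans (hzero g.1 g.2).symm)⟩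
    rw [Nat.card_eq_one_iff_unique.2 ⟨hsub, ⟨0⟩⟩]
    exact Nat.card_pos
  · -- the non-scalar case
    obtain ⟨b, h0, h1⟩ := flci_exists_eigenbasis hV (r σ₀) α β hαβ hchar
    exact flci_card_hom_le_of_eigenbasis hp2 D r hdet hPtriv hirr σ₀ hσ₀ hω hgen b α β hαβ h0 h1

end Irr

end Fermat.Agent.S56
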