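import Fermat.Agent.S56.Flat.Cnt.Spec.T
import Fermat.Agent.S56.Flat.Cnt.Spec.U1
import Fermat.Agent.S56.Flat.Cnt.Spec.U3
import Fermat.Agent.S56.Flat.Cnt.Spec.Gen

/-! # S56 / FLAT / CNT: leaf IRR, helper file 1 (helper10), prefix `flci`.
Linear algebra of a plane (scalar / eigenbasis dichotomy), `P` acts trivially in the irreducible
case, the adjoint action `flciAd0` on the trace-zero endomorphisms, the reduction to
`Hom_𝒢(P, ad⁰)` by the tame bound (T), and the scalar case (U1a). -/

set_option autoImplicit false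

namespace Fermat.Agent.S56

open Polynomial

section LA

variable {k : Type} [Field k] {V : Type} [AddCommGroup V] [Module k V] [Module.Finite k V]

/-- an endomorphism of a plane of finite order prime to the characteristic with a double
eigenvalue is a scalar -/
theorem flci_scalar_of_double (T : Module.End k V) (α : k)
    (hchar : LinearMap.charpoly T = (X - C α) * (X - C α)) (m : ℕ) (hm : (m : k) ≠ 0)
    (hT : T ^ m = 1) : T = α • (1 : Module.End k V) := by
  have h1 : aeval T (X ^ m - C (1 : k)) = 0 := by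
    rw [map_sub, map_pow, aeval_X, aeval_C, hT, map_one, sub_self]
  have hsep : (X ^ m - C (1 : k)).Separable := separable_X_pow_sub_C 1 hm one_ne_zero
  have hsq : Squarefree (minpoly k T) :=
    Squarefree.squarefree_of_dvd (minpoly.dvd k T h1) hsep.squarefree
  have h2 : minpoly k T ∣ (X - C α) ^ 2 := by
    rw [pow_two, ← hchar]
    exact LinearMap.minpoly_dvd_charpoly T
  have h3 : minpoly k T ∣ X - C α := (hsq.dvd_pow_iff_dvd two_ne_zero).1 h2
  obtain ⟨q, hq⟩ := h3
  have h4 : aeval T (X - C α) = 0 := by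
    rw [hq, map_mul, minpoly.aeval, zero_mul]
  rw [map_sub, aeval_X, aeval_C] at h4
  rw [sub_eq_zero.1 h4]
  rfl

/-- two eigenvectors for distinct eigenvalues form a basis of a plane -/
theorem flci_exists_eigenbasis (hV : Module.finrank k V = 2) (T : Module.End k V) (α β : k)
    (hαβ : α ≠ β) (hchar : LinearMap.charpoly T = (X - C α) * (X - C β)) :
    ∃ b : Module.Basis (Fin 2) k V, T (b 0) = α • b 0 ∧ T (b 1) = β • b 1 := by
  have hα : T.HasEigenvalue α := by
    rw [Module.End.hasEigenvalue_iff_isRoot_charpoly, hchar]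
    simp
  have hβ : T.HasEigenvalue β := by
    rw [Module.End.hasEigenvalue_iff_isRoot_charpoly, hchar]
    simp
  obtain ⟨v₁, hv₁⟩ := hα.exists_hasEigenvector
  obtain ⟨v₂, hv₂⟩ := hβ.exists_hasEigenvector
  have e1 : T v₁ = α • v₁ := hv₁.apply_eq_smul
  have e2 : T v₂ = β • v₂ := hv₂.apply_eq_smul
  have hli : LinearIndependent k ![v₁, v₂] := by
    rw [LinearIndependent.pair_iff]
    intro s t hst
    have h1 := congrArg T hst
    rw [map_add, map_smul, map_smul, e1, e2, map_zero] at h1
    have h2 : (t * (β - α)) • v₂ = 0 := by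
      have h3 : s • α • v₁ + t • β • v₂ - α • (s • v₁ + t • v₂) = 0 := by
        rw [h1, hst, smul_zero, sub_zero]
      rw [← h3]
      simp only [smul_add, smul_smul, sub_smul, mul_sub]
      rw [mul_comm s α, mul_comm α t]
      abel
    have ht : t = 0 := by
      rcases smul_eq_zero.1 h2 with h | h
      · rcases mul_eq_zero.1 h with h | h
        · exact h
        · exact absurd (sub_eq_zero.1 h).symm hαβ
      · exact absurd h hv₂.2
    rw [ht, zero_smul, add_zero] at hst
    exact ⟨(smul_eq_zero.1 hst).resolve_right hv₁.2, ht⟩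
  let b : Module.Basis (Fin 2) k V :=
    basisOfLinearIndependentOfCardEqFinrank hli (by rw [hV, Fintype.card_fin])
  have hb : (b : Fin 2 → V) = ![v₁, v₂] := coe_basisOfLinearIndependentOfCardEqFinrank hli _
  refine ⟨b, ?_, ?_⟩
  · have : b 0 = v₁ := by rw [hb]; rfl
    rw [this, e1]
  · have : b 1 = v₂ := by rw [hb]; rfl
    rw [this, e2]

end LA

section Irr

variable {p : ℕ} [Fact p.Prime] {𝒢 : Type} [Group 𝒢] [Finite 𝒢]
  {k : Type} [Field k] [Finite k] [CharP k p] {V : Type} [AddCommGroup V] [Module k V]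
  [Module.Finite k V]

omit [Finite 𝒢] [Finite k] [Module.Finite k V] in
theorem flci_mul_inv (r : 𝒢 →* Module.End k V) (g : 𝒢) : r g * r g⁻¹ = 1 := by
  rw [← map_mul, mul_inv_cancel, map_one]

omit [Finite 𝒢] [Finite k] [Module.Finite k V] in
theorem flci_inv_mul (r : 𝒢 →* Module.End k V) (g : 𝒢) : r g⁻¹ * r g = 1 := by
  rw [← map_mul, inv_mul_cancel, map_one]

omit [Finite 𝒢] [Finite k] [Module.Finite k V] in
theorem flci_apply_inv_apply (r : 𝒢 →* Module.End k V) (g : 𝒢) (v : V) : r g (r g⁻¹ v) = v := by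
  rw [← Module.End.mul_apply, flci_mul_inv, Module.End.one_apply]

omit [Finite 𝒢] [Finite k] [Module.Finite k V] in
theorem flci_inv_apply_apply (r : 𝒢 →* Module.End k V) (g : 𝒢) (v : V) : r g⁻¹ (r g v) = v := by
  rw [← Module.End.mul_apply, flci_inv_mul, Module.End.one_apply]

/-- the fixed vectors of a normal subgroup form a stable subspace -/
def flciFixed (r : 𝒢 →* Module.End k V) (P : Subgroup 𝒢) : Submodule k V where
  carrier := {v | ∀ x ∈ P, r x v = v}
  add_mem' := by
    intro v w hv hw x hx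
    rw [map_add, hv x hx, hw x hx]
  zero_mem' := fun x _ => map_zero _
  smul_mem' := by
    intro c v hv x hx
    rw [map_smul, hv x hx]

omit [Finite 𝒢] [Finite k] [Module.Finite k V] in
theorem flciFixed_stable (r : 𝒢 →* Module.End k V) (P : Subgroup 𝒢) [hP : P.Normal] (g : 𝒢)
    (v : V) (hv : v ∈ flciFixed r P) : r g v ∈ flciFixed r P := by
  intro x hx
  have h1 : g⁻¹ * x * g ∈ P := by
    have := hP.conj_mem x hx g⁻¹
    rwa [inv_inv] at this
  have h2 : x * g = g * (g⁻¹ * x * g) := by group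
  rw [← Module.End.mul_apply, ← map_mul, h2, map_mul, Module.End.mul_apply, hv _ h1]

/-- a `p`-group has a non-zero fixed vector -/
theorem flciFixed_ne_bot (hV : Module.finrank k V = 2) (r : 𝒢 →* Module.End k V)
    (P : Subgroup 𝒢) (hP : IsPGroup p ↥P) : flciFixed r P ≠ ⊥ := by
  classical
  have hfinV : Finite V := Module.finite_of_finite k
  let _ : MulAction ↥P V := MulAction.compHom V (r.comp P.subtype)
  have hsmul : ∀ (x : ↥P) (v : V), x • v = r (x : 𝒢) v := fun _ _ => rfl
  have h1 := hP.card_modEq_card_fixedPoints V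
  have hcardV : Nat.card V = Nat.card k ^ 2 := by
    rw [Module.natCard_eq_pow_finrank (K := k) (V := V), hV]
  have hpk : p ∣ Nat.card k := by
    have : Fintype k := Fintype.ofFinite k
    rw [Nat.card_eq_fintype_card, ← CharP.cast_eq_zero_iff k p]
    exact Nat.cast_card_eq_zero k
  have hpV : p ∣ Nat.card V := by
    rw [hcardV, pow_two]
    exact Dvd.dvd.mul_right hpk _
  have hpF : p ∣ Nat.card ↥(MulAction.fixedPoints ↥P V) :=
    (Nat.modEq_zero_iff_dvd.1 (h1.symm.trans (Nat.modEq_zero_iff_dvd.2 hpV)))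
  intro hbot
  have hsub : Subsingleton ↥(MulAction.fixedPoints ↥P V) := by
    refine ⟨fun a b => ?_⟩
    have ha : (a : V) ∈ flciFixed r P := fun x hx => a.2 ⟨x, hx⟩
    have hb : (b : V) ∈ flciFixed r P := fun x hx => b.2 ⟨x, hx⟩
    rw [hbot, Submodule.mem_bot] at ha hb
    exact Subtype.ext (ha.trans hb.symm)
  have hne : Nonempty ↥(MulAction.fixedPoints ↥P V) :=
    ⟨⟨0, fun x => by rw [hsmul, map_zero]⟩⟩
  have hc1 : Nat.card ↥(MulAction.fixedPoints ↥P V) = 1 := Nat.card_eq_one_iff_unique.2 ⟨hsub, hne⟩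
  rw [hc1] at hpF
  exact (Fact.out : p.Prime).one_lt.ne' (Nat.dvd_one.1 hpF)

/-- in the irreducible case the wild inertia group acts trivially -/
theorem flci_P_trivial (hV : Module.finrank k V = 2) (r : 𝒢 →* Module.End k V)
    (P : Subgroup 𝒢) [P.Normal] (hP : IsPGroup p ↥P)
    (hirr : ∀ ℓ : Submodule k V, ¬ IsStableLine r ℓ) : ∀ x ∈ P, r x = 1 := by
  have hne := flciFixed_ne_bot hV r P hP
  have htop : flciFixed r P = ⊤ := by
    apply Submodule.eq_top_of_finrank_eq
    rw [hV]
    have hle : Module.finrank k ↥(flciFixed r P) ≤ 2 := by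
      rw [← hV]
      exact Submodule.finrank_le _
    have h0 : Module.finrank k ↥(flciFixed r P) ≠ 0 := by
      intro h
      exact hne (Submodule.finrank_eq_zero.1 h)
    have h1 : Module.finrank k ↥(flciFixed r P) ≠ 1 := by
      intro h
      exact hirr _ ⟨h, fun g v hv => flciFixed_stable r P g v hv⟩
    omega
  intro x hx
  apply LinearMap.ext
  intro v
  have hv : v ∈ flciFixed r P := by rw [htop]; exact Submodule.mem_top
  rw [hv x hx, Module.End.one_apply]

omit [Finite 𝒢] [Finite k] [Module.Finite k V] in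
theorem flci_trace_conj (r : 𝒢 →* Module.End k V) (g : 𝒢) (A : Module.End k V) :
    LinearMap.trace k V (r g * A * r g⁻¹) = LinearMap.trace k V A := by
  rw [LinearMap.trace_mul_comm, ← mul_assoc, flci_inv_mul, one_mul]

/-- the adjoint action on the trace-zero endomorphisms -/
def flciAd0 (r : 𝒢 →* Module.End k V) :
    𝒢 →* AddMonoid.End ↥(LinearMap.ker (LinearMap.trace k V)) where
  toFun g :=
    { toFun := fun A => ⟨r g * (A : Module.End k V) * r g⁻¹, by
        rw [LinearMap.mem_ker, flci_trace_conj]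
        exact LinearMap.mem_ker.1 A.2⟩
      map_zero' := by
        apply Subtype.ext
        show r g * (0 : Module.End k V) * r g⁻¹ = 0
        rw [mul_zero, zero_mul]
      map_add' := fun A B => by
        apply Subtype.ext
        show r g * ((A : Module.End k V) + B) * r g⁻¹ = r g * A * r g⁻¹ + r g * B * r g⁻¹
        rw [mul_add, add_mul] }
  map_one' := by
    apply AddMonoidHom.ext
    intro A
    apply Subtype.ext
    show r 1 * (A : Module.End k V) * r 1⁻¹ = A
    rw [inv_one, map_one, one_mul, mul_one]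
  map_mul' g h := by
    apply AddMonoidHom.ext
    intro A
    apply Subtype.ext
    show r (g * h) * (A : Module.End k V) * r (g * h)⁻¹ = r g * (r h * A * r h⁻¹) * r g⁻¹
    rw [map_mul, mul_inv_rev, map_mul]
    simp only [mul_assoc]

omit [Finite 𝒢] [Finite k] [Module.Finite k V] in
theorem flciAd0_apply (r : 𝒢 →* Module.End k V) (g : 𝒢)
    (A : ↥(LinearMap.ker (LinearMap.trace k V))) :
    ((flciAd0 r g A : ↥(LinearMap.ker (LinearMap.trace k V))) : Module.End k V) =
      r g * (A : Module.End k V) * r g⁻¹ := rfl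

/-- `#ad⁰ ≤ #k³` -/
theorem flci_card_ad0 (hp2 : p ≠ 2) (hV : Module.finrank k V = 2) :
    Nat.card ↥(LinearMap.ker (LinearMap.trace k V)) ≤ Nat.card k ^ 3 := by
  have h2 : (2 : k) ≠ 0 := by
    intro h
    have h' : ((2 : ℕ) : k) = 0 := by exact_mod_cast h
    have hdvd := (CharP.cast_eq_zero_iff k p 2).1 h'
    exact hp2 ((Nat.prime_dvd_prime_iff_eq (Fact.out : p.Prime) Nat.prime_two).1 hdvd)
  have hlt : LinearMap.ker (LinearMap.trace k V) ≠ ⊤ := by
    intro h
    have h1 : (1 : Module.End k V) ∈ LinearMap.ker (LinearMap.trace k V) := by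
      rw [h]; exact Submodule.mem_top
    rw [LinearMap.mem_ker, LinearMap.trace_one, hV] at h1
    exact h2 (by exact_mod_cast h1)
  have hfr : Module.finrank k (Module.End k V) = 4 := by
    rw [Module.finrank_linearMap, hV]
  have h3 : Module.finrank k ↥(LinearMap.ker (LinearMap.trace k V)) ≤ 3 := by
    have := Submodule.finrank_lt hlt
    rw [hfr] at this
    omega
  rw [Module.natCard_eq_pow_finrank (K := k)]
  exact Nat.pow_le_pow_right Nat.card_pos h3

/-- reduction to `Hom_𝒢(P, ad⁰)` by the tame bound (T) -/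
theorem flci_card_le_of_hom (hp2 : p ≠ 2) (D : TameKummerData p 𝒢)
    (hV : Module.finrank k V = 2) (r : 𝒢 →* Module.End k V) (hPtriv : ∀ x ∈ D.P, r x = 1) :
    haveI := D.P_normal
    Nat.card {c : 𝒢 → Module.End k V // IsAdCocycle r c} ≤
      Nat.card k ^ 3 * Nat.card ↥(flcHomG D.P (flciAd0 r)) := by
  have := D.P_normal
  have := D.I_normal
  have hfinE : Finite (Module.End k V) := Module.finite_of_finite k
  have hfinN : Finite ↥(LinearMap.ker (LinearMap.trace k V)) := inferInstance
  have hN : ∀ n : ↥(LinearMap.ker (LinearMap.trace k V)), p • n = 0 := by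
    intro n
    rw [← Nat.cast_smul_eq_nsmul k, CharP.cast_eq_zero, zero_smul]
  have hP' : ∀ x ∈ D.P, flciAd0 r x = 1 := by
    intro x hx
    apply AddMonoidHom.ext
    intro A
    apply Subtype.ext
    show r x * (A : Module.End k V) * r x⁻¹ = A
    rw [hPtriv x hx, hPtriv x⁻¹ (D.P.inv_mem hx), one_mul, mul_one]
  have hT := flc_card_Z1_le_abstract D.P D.I D.P_le_I D.φ D.gen ((p - 1) * D.e') D.card_I p
    (flc_coprime D) hN (flciAd0 r) hP'
  have hfinZ : Finite (𝒢 → ↥(LinearMap.ker (LinearMap.trace k V))) := inferInstance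
  have hinj : Nat.card {c : 𝒢 → Module.End k V // IsAdCocycle r c} ≤
      Nat.card ↥(flcZ1 (flciAd0 r)) := by
    refine Nat.card_le_card_of_injective
      (fun c => (⟨fun g => ⟨c.1 g, LinearMap.mem_ker.2 (c.2.2 g)⟩, ?_⟩ : ↥(flcZ1 (flciAd0 r)))) ?_
    · intro g h
      apply Subtype.ext
      show c.1 (g * h) = c.1 g + r g * c.1 h * r g⁻¹
      exact c.2.1 g h
    · intro c c' hcc
      apply Subtype.ext
      funext g
      have h1 := congrArg (fun z : ↥(flcZ1 (flciAd0 r)) =>
        (((z : 𝒢 → ↥(LinearMap.ker (LinearMap.trace k V))) g :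
          ↥(LinearMap.ker (LinearMap.trace k V))) : Module.End k V)) hcc
      exact h1
  refine hinj.trans (hT.trans ?_)
  exact Nat.mul_le_mul_right _ (flci_card_ad0 hp2 hV)

omit [Finite 𝒢] in
/-- `u` is multiplicative on the powers of an element of `I` -/
theorem flci_u_pow (D : TameKummerData p 𝒢) (σ : 𝒢) (hσ : σ ∈ D.I) (j : ℕ) :
    (D.u (σ ^ j) : D.kF) = (D.u σ : D.kF) ^ j := by
  induction j with
  | zero =>
    rw [pow_zero, pow_zero]
    have h := D.u_mul 1 1
    have hact : D.act 1 (D.u 1 : D.kF) = (D.u 1 : D.kF) := by rw [map_one]; rfl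
    rw [mul_one, hact] at h
    have hne : (D.u 1 : D.kF) ≠ 0 := Units.ne_zero _
    have h' : (D.u 1 : D.kF) * 1 = (D.u 1 : D.kF) * (D.u 1 : D.kF) := by rw [mul_one]; exact h
    exact (mul_left_cancel₀ hne h').symm
  | succ j ih =>
    rw [pow_succ, D.u_mul, D.act_I _ (D.I.pow_mem hσ j), ih, pow_succ]

omit [Finite 𝒢] in
theorem flci_pow_mem_P (D : TameKummerData p 𝒢) (σ : 𝒢) (hσ : σ ∈ D.I) :
    σ ^ orderOf (D.u σ) ∈ D.P := by
  rw [← D.u_eq_one_iff _ (D.I.pow_mem hσ _)]
  apply Units.ext
  rw [flci_u_pow D σ hσ, ← Units.val_pow_eq_pow_val, pow_orderOf_eq_one]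

omit [Finite 𝒢] [Finite k] [Module.Finite k V] in
/-- a line stable under inertia and Frobenius is stable -/
theorem flci_isStableLine (D : TameKummerData p 𝒢) (r : 𝒢 →* Module.End k V) (v : V) (hv : v ≠ 0)
    (hI : ∀ σ ∈ D.I, ∃ c : k, r σ v = c • v) (hφ : ∃ c : k, r D.φ v = c • v) :
    IsStableLine r (Submodule.span k {v}) := by
  refine ⟨finrank_span_singleton hv, ?_⟩
  obtain ⟨c, hc⟩ := hφ
  have hc0 : c ≠ 0 := by
    rintro rfl
    rw [zero_smul] at hc
    have := flci_inv_apply_apply r D.φ v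
    rw [hc, map_zero] at this
    exact hv this.symm
  have hinv : r D.φ⁻¹ v = c⁻¹ • v := by
    have h1 := flci_inv_apply_apply r D.φ v
    rw [hc, map_smul] at h1
    have h2 : c⁻¹ • (c • (r D.φ⁻¹) v) = c⁻¹ • v := by rw [h1]
    rwa [smul_smul, inv_mul_cancel₀ hc0, one_smul] at h2
  have hpow : ∀ n : ℕ, r (D.φ⁻¹ ^ n) v = (c⁻¹) ^ n • v := by
    intro n
    induction n with
    | zero => rw [pow_zero, map_one, Module.End.one_apply, pow_zero, one_smul]
    | succ n ih =>
      rw [pow_succ, map_mul, Module.End.mul_apply, hinv, map_smul, ih, smul_smul, pow_succ,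
        mul_comm]
  intro g w hw
  obtain ⟨a, rfl⟩ := Submodule.mem_span_singleton.1 hw
  obtain ⟨n, hn⟩ := D.gen g
  obtain ⟨c', hc'⟩ := hI _ hn
  have hg : g = (g * D.φ ^ n) * D.φ⁻¹ ^ n := by
    rw [inv_pow, mul_assoc, mul_inv_cancel, mul_one]
  rw [map_smul, hg, map_mul, Module.End.mul_apply, hpow, map_smul, hc', smul_smul, smul_smul]
  exact Submodule.mem_span_singleton.2 ⟨_, rfl⟩

/-- `ω` is not trivial on inertia -/
theorem flci_not_isOmega_one (hp2 : p ≠ 2) (D : TameKummerData p 𝒢) :
    ¬ FlcIsOmega D (fun _ : 𝒢 => (1 : k)) := by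
  intro h
  obtain ⟨σ₀, hσ₀, -, hω, -⟩ := flc_exists_gen D
  have h1 := h σ₀ hσ₀
  simp only at h1
  have h2 : ((1 : ℕ) : k) = ((((D.ω σ₀ : (ZMod p)ˣ) : ZMod p).val : ℕ) : k) := by
    rw [Nat.cast_one]; exact h1
  rw [CharP.natCast_eq_natCast k p] at h2
  have hp : p.Prime := Fact.out
  have h3 : ((D.ω σ₀ : (ZMod p)ˣ) : ZMod p).val = 1 := by
    have hlt : ((D.ω σ₀ : (ZMod p)ˣ) : ZMod p).val < p := ZMod.val_lt _
    have := Nat.ModEq.eq_of_lt_of_lt h2 hp.one_lt hlt
    exact this.symm
  have h4 : D.ω σ₀ = 1 := by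
    apply Units.ext
    rw [Units.val_one]
    have := ZMod.natCast_zmod_val ((D.ω σ₀ : (ZMod p)ˣ) : ZMod p)
    rw [h3, Nat.cast_one] at this
    exact this.symm
  rw [h4, orderOf_one] at hω
  have := hp.two_le
  omega

/-- **the scalar case**: if inertia acts by scalars then `Hom_𝒢(P, ad⁰) = 0` -/
theorem flci_hom_eq_zero_of_scalar (hp2 : p ≠ 2) (D : TameKummerData p 𝒢)
    (r : 𝒢 →* Module.End k V) (hsc : ∀ σ ∈ D.I, ∃ c : k, r σ = c • (1 : Module.End k V)) :
    haveI := D.P_normal
    ∀ f ∈ flcHomG D.P (flciAd0 r), f = 0 := by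
  have := D.P_normal
  intro f hf
  obtain ⟨hadd, hconj⟩ := mem_flcHomG.1 hf
  have hbot := flc_HI_eq_bot_of_ne (k := k) D hp2 (fun _ => 1) (fun _ _ => one_ne_zero)
    (fun _ _ => one_pow p) (flci_not_isOmega_one hp2 D)
  let b := Module.finBasis k V
  funext x
  apply Subtype.ext
  show ((f x : ↥(LinearMap.ker (LinearMap.trace k V))) : Module.End k V) = 0
  apply b.ext
  intro j
  rw [LinearMap.zero_apply]
  apply b.repr.injective
  rw [map_zero]
  ext i
  rw [Finsupp.zero_apply]
  -- the coefficient function lies in `flcHI D 1 = ⊥`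
  have hmem : (fun y : ↥D.P =>
      b.repr (((f y : ↥(LinearMap.ker (LinearMap.trace k V))) : Module.End k V) (b j)) i) ∈
      flcHI D (fun _ : 𝒢 => (1 : k)) := by
    refine ⟨fun y z => ?_, fun σ hσ y => ?_⟩
    · simp only
      rw [hadd y z]
      simp
    · simp only
      rw [hconj σ y, flciAd0_apply, one_mul]
      obtain ⟨c, hc⟩ := hsc σ hσ
      have hcomm : r σ * ((f y : ↥(LinearMap.ker (LinearMap.trace k V))) : Module.End k V) *
          r σ⁻¹ = ((f y : ↥(LinearMap.ker (LinearMap.trace k V))) : Module.End k V) := by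
        have h1 : r σ * ((f y : ↥(LinearMap.ker (LinearMap.trace k V))) : Module.End k V) =
            ((f y : ↥(LinearMap.ker (LinearMap.trace k V))) : Module.End k V) * r σ := by
          rw [hc, smul_mul_assoc, one_mul, mul_smul_comm, mul_one]
        rw [h1, mul_assoc, flci_mul_inv, mul_one]
      rw [hcomm]
  rw [hbot, AddSubgroup.mem_bot] at hmem
  exact congrFun hmem x

omit [Finite 𝒢] [Finite k] [CharP k p] [Module.Finite k V] in
/-- the matrix of an endomorphism with an eigenbasis -/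
theorem flci_toMatrix_diag (b : Module.Basis (Fin 2) k V) (T : Module.End k V) (α β : k)
    (h0 : T (b 0) = α • b 0) (h1 : T (b 1) = β • b 1) :
    LinearMap.toMatrix b b T = Matrix.diagonal ![α, β] := by
  ext i j
  rw [LinearMap.toMatrix_apply]
  fin_cases j
  · show b.repr (T (b 0)) i = _
    rw [h0, map_smul, Module.Basis.repr_self]
    fin_cases i <;> simp
  · show b.repr (T (b 1)) i = _
    rw [h1, map_smul, Module.Basis.repr_self]
    fin_cases i <;> simp

omit [Finite 𝒢] [Finite k] [CharP k p] [Module.Finite k V] in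
/-- a vector in terms of its coordinates -/
theorem flci_apply_basis (b : Module.Basis (Fin 2) k V) (A : Module.End k V) (j : Fin 2) :
    A (b j) = LinearMap.toMatrix b b A 0 j • b 0 + LinearMap.toMatrix b b A 1 j • b 1 := by
  rw [LinearMap.toMatrix_apply, LinearMap.toMatrix_apply]
  conv_lhs => rw [← b.sum_repr (A (b j))]
  rw [Fin.sum_univ_two]

end Irr

end Fermat.Agent.S56
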