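import Fermat.Agent.S56.Flat.Cnt.IrrBase

/-! # S56 / FLAT / CNT: leaf IRR, helper file 2 (helper10), prefix `flci`.
The non-scalar case: in an eigenbasis of the generator `σ₀` of tame inertia, inertia is diagonal and
Frobenius is antidiagonal (no stable line); an element of `Hom_𝒢(P, ad⁰)` is determined by its upper
right entry, which lies in `flcH D 2 (ψ₁/ψ₂) 1`, of size `≤ #k` by (U3). -/

set_option autoImplicit false

namespace Fermat.Agent.S56

open Polynomial

section IrrCore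

variable {p : ℕ} [Fact p.Prime] {𝒢 : Type} [Group 𝒢] [Finite 𝒢]
  {k : Type} [Field k] [Finite k] [CharP k p] {V : Type} [AddCommGroup V] [Module k V]
  [Module.Finite k V]

omit [Finite 𝒢] [Finite k] in
/-- if the image of `ω σ` in `k` is one then `ω σ = 1` -/
theorem flci_omega_eq_one (D : TameKummerData p 𝒢) (σ : 𝒢)
    (h1 : ((((D.ω σ : (ZMod p)ˣ) : ZMod p).val : ℕ) : k) = 1) : D.ω σ = 1 := by
  have h2 : ((1 : ℕ) : k) = ((((D.ω σ : (ZMod p)ˣ) : ZMod p).val : ℕ) : k) := by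
    rw [Nat.cast_one]; exact h1.symm
  rw [CharP.natCast_eq_natCast k p] at h2
  have hp : p.Prime := Fact.out
  have h3 : ((D.ω σ : (ZMod p)ˣ) : ZMod p).val = 1 := by
    have hlt : ((D.ω σ : (ZMod p)ˣ) : ZMod p).val < p := ZMod.val_lt _
    have := Nat.ModEq.eq_of_lt_of_lt h2 hp.one_lt hlt
    exact this.symm
  apply Units.ext
  rw [Units.val_one]
  have := ZMod.natCast_zmod_val ((D.ω σ : (ZMod p)ˣ) : ZMod p)
  rw [h3, Nat.cast_one] at this
  exact this.symm

omit [Finite 𝒢] [Finite k] [CharP k p] [Module.Finite k V] in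
/-- the matrices of the elements of inertia are diagonal in an eigenbasis of the generator -/
theorem flci_I_diag (D : TameKummerData p 𝒢) (r : 𝒢 →* Module.End k V)
    (hPtriv : ∀ x ∈ D.P, r x = 1) (σ₀ : 𝒢)
    (hgen : ∀ σ ∈ D.I, ∃ n : ℕ, ∃ x ∈ D.P, σ = σ₀ ^ n * x)
    (b : Module.Basis (Fin 2) k V) (α β : k) (h0 : r σ₀ (b 0) = α • b 0)
    (h1 : r σ₀ (b 1) = β • b 1) :
    ∀ σ ∈ D.I, ∃ n : ℕ, LinearMap.toMatrix b b (r σ) = Matrix.diagonal ![α ^ n, β ^ n] := by
  intro σ hσ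
  obtain ⟨n, x, hx, rfl⟩ := hgen σ hσ
  refine ⟨n, ?_⟩
  rw [map_mul, hPtriv x hx, mul_one, map_pow, ← LinearMap.toMatrix_pow,
    flci_toMatrix_diag b (r σ₀) α β h0 h1, Matrix.diagonal_pow]
  congr 1
  ext i
  fin_cases i <;> rfl

omit [Finite 𝒢] [Finite k] [CharP k p] [Module.Finite k V] in
/-- eigenvalues of invertible maps are non-zero -/
theorem flci_eigen_ne_zero (r : 𝒢 →* Module.End k V) (g : 𝒢) (v : V) (hv : v ≠ 0) (α : k)
    (h : r g v = α • v) : α ≠ 0 := by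
  rintro rfl
  rw [zero_smul] at h
  have := flci_inv_apply_apply r g v
  rw [h, map_zero] at this
  exact hv this.symm

omit [Finite k] [Module.Finite k V] in
/-- the shape of Frobenius in an eigenbasis of the generator of tame inertia -/
theorem flci_frob_shape (D : TameKummerData p 𝒢) (r : 𝒢 →* Module.End k V)
    (hPtriv : ∀ x ∈ D.P, r x = 1) (hirr : ∀ ℓ : Submodule k V, ¬ IsStableLine r ℓ)
    (σ₀ : 𝒢) (hσ₀ : σ₀ ∈ D.I)
    (hgen : ∀ σ ∈ D.I, ∃ n : ℕ, ∃ x ∈ D.P, σ = σ₀ ^ n * x)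
    (b : Module.Basis (Fin 2) k V) (α β : k) (hαβ : α ≠ β) (h0 : r σ₀ (b 0) = α • b 0)
    (h1 : r σ₀ (b 1) = β • b 1) :
    LinearMap.toMatrix b b (r D.φ) 0 0 = 0 ∧ LinearMap.toMatrix b b (r D.φ) 1 1 = 0 ∧
    LinearMap.toMatrix b b (r D.φ) 0 1 ≠ 0 ∧ LinearMap.toMatrix b b (r D.φ) 1 0 ≠ 0 ∧
    α ^ p = β ∧ β ^ p = α := by
  have hdiag := flci_I_diag D r hPtriv σ₀ hgen b α β h0 h1
  obtain ⟨x, hx, hconj⟩ := flc_conj_phi D hσ₀
  have hΦ : LinearMap.toMatrix b b (r D.φ) * Matrix.diagonal ![α, β] =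
      Matrix.diagonal ![α ^ p, β ^ p] * LinearMap.toMatrix b b (r D.φ) := by
    have e1 : D.φ * σ₀ = σ₀ ^ p * x * D.φ := by
      rw [← hconj]; group
    have e2 := congrArg r e1
    rw [map_mul, map_mul, map_mul, hPtriv x hx, mul_one, map_pow] at e2
    have e3 := congrArg (LinearMap.toMatrix b b) e2
    rw [LinearMap.toMatrix_mul, LinearMap.toMatrix_mul, ← LinearMap.toMatrix_pow,
      flci_toMatrix_diag b (r σ₀) α β h0 h1, Matrix.diagonal_pow] at e3
    rw [e3]
    congr 2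
    ext i
    fin_cases i <;> rfl
  have E : ∀ i j, LinearMap.toMatrix b b (r D.φ) i j * ![α, β] j =
      ![α ^ p, β ^ p] i * LinearMap.toMatrix b b (r D.φ) i j := by
    intro i j
    rw [← Matrix.mul_diagonal, ← Matrix.diagonal_mul, hΦ]
  have E00 : LinearMap.toMatrix b b (r D.φ) 0 0 * α = α ^ p * LinearMap.toMatrix b b (r D.φ) 0 0 :=
    E 0 0
  have E01 : LinearMap.toMatrix b b (r D.φ) 0 1 * β = α ^ p * LinearMap.toMatrix b b (r D.φ) 0 1 :=
    E 0 1
  have E10 : LinearMap.toMatrix b b (r D.φ) 1 0 * α = β ^ p * LinearMap.toMatrix b b (r D.φ) 1 0 :=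
    E 1 0
  have E11 : LinearMap.toMatrix b b (r D.φ) 1 1 * β = β ^ p * LinearMap.toMatrix b b (r D.φ) 1 1 :=
    E 1 1
  have hI0 : ∀ j : Fin 2, ∀ σ ∈ D.I, ∃ c : k, r σ (b j) = c • b j := by
    intro j σ hσ
    obtain ⟨n, hn⟩ := hdiag σ hσ
    refine ⟨![α ^ n, β ^ n] j, ?_⟩
    rw [flci_apply_basis b (r σ) j, hn]
    fin_cases j
    · simp
    · simp
  have h10 : LinearMap.toMatrix b b (r D.φ) 1 0 ≠ 0 := by
    intro h
    refine hirr _ (flci_isStableLine D r (b 0) (b.ne_zero 0) (hI0 0)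
      ⟨LinearMap.toMatrix b b (r D.φ) 0 0, ?_⟩)
    rw [flci_apply_basis b (r D.φ) 0, h, zero_smul, add_zero]
  have h01 : LinearMap.toMatrix b b (r D.φ) 0 1 ≠ 0 := by
    intro h
    refine hirr _ (flci_isStableLine D r (b 1) (b.ne_zero 1) (hI0 1)
      ⟨LinearMap.toMatrix b b (r D.φ) 1 1, ?_⟩)
    rw [flci_apply_basis b (r D.φ) 1, h, zero_smul, zero_add]
  have hαp : α ^ p = β := by
    apply mul_right_cancel₀ h01
    rw [← E01, mul_comm]
  have hβp : β ^ p = α := by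
    apply mul_right_cancel₀ h10
    rw [← E10, mul_comm]
  have hne : α - β ≠ 0 := sub_ne_zero.2 hαβ
  refine ⟨?_, ?_, h01, h10, hαp, hβp⟩
  · rw [hαp] at E00
    have : LinearMap.toMatrix b b (r D.φ) 0 0 * (α - β) = 0 := by
      rw [mul_sub, E00, mul_comm, sub_self]
    exact (mul_eq_zero.1 this).resolve_right hne
  · rw [hβp] at E11
    have : LinearMap.toMatrix b b (r D.φ) 1 1 * (α - β) = 0 := by
      rw [mul_sub, E11, mul_comm, sub_self]
    exact (mul_eq_zero.1 this).resolve_right hne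

/-- the matrix of a value of a function to the trace-zero endomorphisms -/
noncomputable def flciMat (b : Module.Basis (Fin 2) k V) {X : Type}
    (f : X → ↥(LinearMap.ker (LinearMap.trace k V))) (x : X) : Matrix (Fin 2) (Fin 2) k :=
  LinearMap.toMatrix b b ((f x : ↥(LinearMap.ker (LinearMap.trace k V))) : Module.End k V)

omit [Finite k] [CharP k p] [Module.Finite k V] in
theorem flciMat_sub (b : Module.Basis (Fin 2) k V) {X : Type}
    (f f' : X → ↥(LinearMap.ker (LinearMap.trace k V))) (x : X) :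
    flciMat b (f - f') x = flciMat b f x - flciMat b f' x := by
  unfold flciMat
  rw [Pi.sub_apply, Submodule.coe_sub, map_sub]

omit [Finite k] [CharP k p] [Module.Finite k V] in
theorem flciMat_eq_zero (b : Module.Basis (Fin 2) k V) {X : Type}
    (f : X → ↥(LinearMap.ker (LinearMap.trace k V))) (x : X) (h : flciMat b f x = 0) :
    f x = 0 := by
  unfold flciMat at h
  apply Subtype.ext
  rw [Submodule.coe_zero]
  apply (LinearMap.toMatrix b b).injective
  rw [h, map_zero]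

omit [Finite 𝒢] [Finite k] [CharP k p] [Module.Finite k V] in
theorem flciMat_mul (D : TameKummerData p 𝒢) (r : 𝒢 →* Module.End k V)
    (b : Module.Basis (Fin 2) k V) (f : ↥D.P → ↥(LinearMap.ker (LinearMap.trace k V)))
    (hf : haveI := D.P_normal; f ∈ flcHomG D.P (flciAd0 r)) (x y : ↥D.P) :
    flciMat b f (x * y) = flciMat b f x + flciMat b f y := by
  have := D.P_normal
  obtain ⟨hadd, -⟩ := mem_flcHomG.1 hf
  unfold flciMat
  rw [hadd x y, Submodule.coe_add, map_add]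

omit [Finite 𝒢] [Finite k] [CharP k p] [Module.Finite k V] in
theorem flciMat_conj (D : TameKummerData p 𝒢) (r : 𝒢 →* Module.End k V)
    (b : Module.Basis (Fin 2) k V) (f : ↥D.P → ↥(LinearMap.ker (LinearMap.trace k V)))
    (hf : haveI := D.P_normal; f ∈ flcHomG D.P (flciAd0 r)) (g : 𝒢) (x : ↥D.P) :
    haveI := D.P_normal
    flciMat b f (flcConj D.P g x) * LinearMap.toMatrix b b (r g) =
      LinearMap.toMatrix b b (r g) * flciMat b f x := by
  have := D.P_normal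
  obtain ⟨-, hconj⟩ := mem_flcHomG.1 hf
  unfold flciMat
  rw [hconj g x, flciAd0_apply, ← LinearMap.toMatrix_mul, ← LinearMap.toMatrix_mul, mul_assoc,
    mul_assoc, flci_inv_mul, mul_one]

omit [Finite 𝒢] [Finite k] [CharP k p] [Module.Finite k V] in
/-- conjugation by an element with a diagonal matrix -/
theorem flciMat_conj_diag (D : TameKummerData p 𝒢) (r : 𝒢 →* Module.End k V)
    (b : Module.Basis (Fin 2) k V) (f : ↥D.P → ↥(LinearMap.ker (LinearMap.trace k V)))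
    (hf : haveI := D.P_normal; f ∈ flcHomG D.P (flciAd0 r)) (g : 𝒢) (d : Fin 2 → k)
    (hg : LinearMap.toMatrix b b (r g) = Matrix.diagonal d) (x : ↥D.P) (i j : Fin 2) :
    haveI := D.P_normal
    flciMat b f (flcConj D.P g x) i j * d j = d i * flciMat b f x i j := by
  have := D.P_normal
  rw [← Matrix.mul_diagonal, ← Matrix.diagonal_mul, ← hg, flciMat_conj D r b f hf g x]

omit [Finite 𝒢] [Finite k] [CharP k p] [Module.Finite k V] in
/-- conjugation by an element with an antidiagonal matrix -/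
theorem flciMat_conj_anti (D : TameKummerData p 𝒢) (r : 𝒢 →* Module.End k V)
    (b : Module.Basis (Fin 2) k V) (f : ↥D.P → ↥(LinearMap.ker (LinearMap.trace k V)))
    (hf : haveI := D.P_normal; f ∈ flcHomG D.P (flciAd0 r)) (g : 𝒢)
    (h00 : LinearMap.toMatrix b b (r g) 0 0 = 0) (h11 : LinearMap.toMatrix b b (r g) 1 1 = 0)
    (x : ↥D.P) :
    haveI := D.P_normal
    flciMat b f (flcConj D.P g x) 0 1 * LinearMap.toMatrix b b (r g) 1 0 =
      LinearMap.toMatrix b b (r g) 0 1 * flciMat b f x 1 0 ∧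
    flciMat b f (flcConj D.P g x) 1 0 * LinearMap.toMatrix b b (r g) 0 1 =
      LinearMap.toMatrix b b (r g) 1 0 * flciMat b f x 0 1 := by
  have := D.P_normal
  have h := flciMat_conj D r b f hf g x
  have e00 := congrFun (congrFun h 0) 0
  have e11 := congrFun (congrFun h 1) 1
  rw [Matrix.mul_apply, Matrix.mul_apply, Fin.sum_univ_two, Fin.sum_univ_two] at e00 e11
  rw [h00, mul_zero, zero_add, zero_mul, zero_add] at e00
  rw [h11, mul_zero, add_zero, zero_mul, add_zero] at e11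
  exact ⟨e00, e11⟩

omit [Module.Finite k V] in
/-- an element of `Hom_𝒢(P, ad⁰)` is determined by its upper right entry -/
theorem flci_hom_eq_zero_of_entry (hp2 : p ≠ 2) (D : TameKummerData p 𝒢)
    (r : 𝒢 →* Module.End k V) (b : Module.Basis (Fin 2) k V) (α β : k) (hα0 : α ≠ 0)
    (hβ0 : β ≠ 0)
    (hdiag : ∀ σ ∈ D.I, ∃ n : ℕ, LinearMap.toMatrix b b (r σ) = Matrix.diagonal ![α ^ n, β ^ n])
    (h00 : LinearMap.toMatrix b b (r D.φ) 0 0 = 0) (h11 : LinearMap.toMatrix b b (r D.φ) 1 1 = 0)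
    (h01 : LinearMap.toMatrix b b (r D.φ) 0 1 ≠ 0)
    (f : ↥D.P → ↥(LinearMap.ker (LinearMap.trace k V)))
    (hf : haveI := D.P_normal; f ∈ flcHomG D.P (flciAd0 r))
    (hz : ∀ x, flciMat b f x 0 1 = 0) : f = 0 := by
  have := D.P_normal
  have hbot := flc_HI_eq_bot_of_ne (k := k) D hp2 (fun _ => 1) (fun _ _ => one_ne_zero)
    (fun _ _ => one_pow p) (flci_not_isOmega_one hp2 D)
  have hd : ∀ i : Fin 2, ∀ n : ℕ, ![α ^ n, β ^ n] i ≠ 0 := by
    intro i n
    fin_cases i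
    · exact pow_ne_zero n hα0
    · exact pow_ne_zero n hβ0
  have hii : ∀ i : Fin 2, ∀ x, flciMat b f x i i = 0 := by
    intro i
    have hmem : (fun y : ↥D.P => flciMat b f y i i) ∈ flcHI D (fun _ : 𝒢 => (1 : k)) := by
      refine ⟨fun y z => ?_, fun σ hσ y => ?_⟩
      · simp only
        rw [flciMat_mul D r b f hf y z, Matrix.add_apply]
      · simp only
        obtain ⟨n, hn⟩ := hdiag σ hσ
        have := flciMat_conj_diag D r b f hf σ _ hn y i i
        rw [mul_comm] at this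
        rw [one_mul]
        exact mul_left_cancel₀ (hd i n) this
    rw [hbot, AddSubgroup.mem_bot] at hmem
    exact fun x => congrFun hmem x
  have h10 : ∀ x, flciMat b f x 1 0 = 0 := by
    intro x
    have := (flciMat_conj_anti D r b f hf D.φ h00 h11 x).1
    rw [hz, zero_mul] at this
    exact (mul_eq_zero.1 this.symm).resolve_left h01
  funext x
  apply flciMat_eq_zero b f x
  ext i j
  fin_cases i <;> fin_cases j
  · exact hii 0 x
  · exact hz x
  · exact h10 x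
  · exact hii 1 x

/-- **the non-scalar case**: `#Hom_𝒢(P, ad⁰) ≤ #k` -/
theorem flci_card_hom_le_of_eigenbasis (hp2 : p ≠ 2) (D : TameKummerData p 𝒢)
    (r : 𝒢 →* Module.End k V)
    (hdet : ∀ g, LinearMap.det (r g) = (((D.ω g : (ZMod p)ˣ) : ZMod p).val : k))
    (hPtriv : ∀ x ∈ D.P, r x = 1) (hirr : ∀ ℓ : Submodule k V, ¬ IsStableLine r ℓ)
    (σ₀ : 𝒢) (hσ₀ : σ₀ ∈ D.I) (hω : orderOf (D.ω σ₀) = p - 1)
    (hgen : ∀ σ ∈ D.I, ∃ n : ℕ, ∃ x ∈ D.P, σ = σ₀ ^ n * x)
    (b : Module.Basis (Fin 2) k V) (α β : k) (hαβ : α ≠ β) (h0 : r σ₀ (b 0) = α • b 0)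
    (h1 : r σ₀ (b 1) = β • b 1) :
    haveI := D.P_normal
    Nat.card ↥(flcHomG D.P (flciAd0 r)) ≤ Nat.card k := by
  have := D.P_normal
  obtain ⟨hΦ00, hΦ11, hΦ01, hΦ10, hαp, hβp⟩ :=
    flci_frob_shape D r hPtriv hirr σ₀ hσ₀ hgen b α β hαβ h0 h1
  have hdiag := flci_I_diag D r hPtriv σ₀ hgen b α β h0 h1
  have hα0 : α ≠ 0 := flci_eigen_ne_zero r σ₀ (b 0) (b.ne_zero 0) α h0
  have hβ0 : β ≠ 0 := flci_eigen_ne_zero r σ₀ (b 1) (b.ne_zero 1) β h1
  have hMσ₀ := flci_toMatrix_diag b (r σ₀) α β h0 h1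
  have hdetσ : α * β = (((D.ω σ₀ : (ZMod p)ˣ) : ZMod p).val : k) := by
    rw [← hdet σ₀, ← LinearMap.det_toMatrix b, hMσ₀, Matrix.det_diagonal, Fin.prod_univ_two]
    rfl
  have hαβ1 : α * β ≠ 1 := by
    intro h
    have h1 := flci_omega_eq_one (k := k) D σ₀ (by rw [← hdetσ]; exact h)
    rw [h1, orderOf_one] at hω
    have := (Fact.out : p.Prime).two_le
    omega
  have hχ : ∀ σ : 𝒢, ∀ n : ℕ,
      LinearMap.toMatrix b b (r σ) = Matrix.diagonal ![α ^ n, β ^ n] →
      LinearMap.toMatrix b b (r σ) 0 0 / LinearMap.toMatrix b b (r σ) 1 1 = (α / β) ^ n := by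
    intro σ n hn
    rw [hn, div_pow]
    simp
  have hpow1 : (α / β) ^ (p + 1) = 1 := by
    rw [div_pow, pow_succ, pow_succ, hαp, hβp, mul_comm β α]
    exact div_self (mul_ne_zero hα0 hβ0)
  have hU3 := flc_card_H_two_le D hp2
    (fun σ => LinearMap.toMatrix b b (r σ) 0 0 / LinearMap.toMatrix b b (r σ) 1 1)
    (by
      intro σ hσ τ hτ
      obtain ⟨n, hn⟩ := hdiag σ hσ
      rw [hχ σ n hn, map_mul, LinearMap.toMatrix_mul, hn, Matrix.diagonal_mul,
        Matrix.diagonal_mul, mul_div_mul_comm, div_pow]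
      rfl)
    (by
      intro x hx
      rw [hPtriv x hx, LinearMap.toMatrix_one, Matrix.one_apply_eq, Matrix.one_apply_eq,
        div_one])
    (by
      intro σ hσ
      obtain ⟨n, hn⟩ := hdiag σ hσ
      rw [hχ σ n hn, ← pow_mul, mul_comm, pow_mul, hpow1, one_pow])
    ⟨σ₀, hσ₀, by
      rw [hMσ₀]
      intro h
      apply hαβ
      have h' : α / β = 1 := by simpa using h
      exact (div_eq_one_iff_eq hβ0).1 h'⟩
    (by
      intro hp3
      refine ⟨σ₀, hσ₀, ?_⟩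
      rw [hMσ₀]
      intro h
      have h' : (α / β) ^ 2 = 1 := by simpa using h
      rw [div_pow, div_eq_one_iff_eq (pow_ne_zero 2 hβ0)] at h'
      rw [hp3] at hαp
      rw [← hαp] at h'
      have h4 : α ^ 2 * (α ^ 4 - 1) = 0 := by linear_combination (-1 : k) * h'
      have h5 : α ^ 4 = 1 :=
        sub_eq_zero.1 ((mul_eq_zero.1 h4).resolve_left (pow_ne_zero 2 hα0))
      apply hαβ1
      rw [← hαp, ← h5]
      ring)
    1 one_ne_zero
  have hfin : Finite ↥(flcH D 2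
      (fun σ => LinearMap.toMatrix b b (r σ) 0 0 / LinearMap.toMatrix b b (r σ) 1 1)
      (1 : k)) := inferInstance
  refine le_trans (Nat.card_le_card_of_injective
    (fun f => (⟨fun x => flciMat b f.1 x 0 1, ?_⟩ : ↥(flcH D 2
      (fun σ => LinearMap.toMatrix b b (r σ) 0 0 / LinearMap.toMatrix b b (r σ) 1 1)
      (1 : k)))) ?_) hU3
  · have hf := f.2
    refine ⟨⟨fun y z => ?_, fun σ hσ y => ?_⟩, fun x => ?_⟩
    · simp only
      rw [flciMat_mul D r b f.1 hf y z, Matrix.add_apply]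
    · simp only
      obtain ⟨n, hn⟩ := hdiag σ hσ
      have h2 := flciMat_conj_diag D r b f.1 hf σ _ hn y 0 1
      rw [hχ σ n hn, div_pow]
      have h3 : flciMat b f.1 (flcConj D.P σ y) 0 1 * β ^ n = α ^ n * flciMat b f.1 y 0 1 := h2
      rw [div_mul_eq_mul_div, eq_div_iff (pow_ne_zero n hβ0), h3]
    · simp only
      rw [one_mul]
      have hA := (flciMat_conj_anti D r b f.1 hf D.φ hΦ00 hΦ11 (flcConj D.P D.φ x)).1
      have hB := (flciMat_conj_anti D r b f.1 hf D.φ hΦ00 hΦ11 x).2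
      have hx2 : flcConj D.P (D.φ ^ 2) x = flcConj D.P D.φ (flcConj D.P D.φ x) := by
        apply Subtype.ext
        show D.φ ^ 2 * (x : 𝒢) * (D.φ ^ 2)⁻¹ = D.φ * (D.φ * (x : 𝒢) * D.φ⁻¹) * D.φ⁻¹
        rw [pow_two, mul_inv_rev]
        simp only [mul_assoc]
      rw [hx2]
      have h6 : flciMat b f.1 (flcConj D.P D.φ (flcConj D.P D.φ x)) 0 1 *
          (LinearMap.toMatrix b b (r D.φ) 1 0 * LinearMap.toMatrix b b (r D.φ) 0 1) =
          flciMat b f.1 x 0 1 *
          (LinearMap.toMatrix b b (r D.φ) 1 0 * LinearMap.toMatrix b b (r D.φ) 0 1) := by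
        rw [← mul_assoc, hA, mul_assoc, hB]
        ring
      exact mul_right_cancel₀ (mul_ne_zero hΦ10 hΦ01) h6
  · intro f f' hff
    have hsub : (f.1 - f'.1) ∈ flcHomG D.P (flciAd0 r) := (flcHomG D.P (flciAd0 r)).sub_mem f.2 f'.2
    have hz : ∀ x, flciMat b (f.1 - f'.1) x 0 1 = 0 := by
      intro x
      rw [flciMat_sub, Matrix.sub_apply, sub_eq_zero]
      exact congrFun (congrArg Subtype.val hff) x
    have h := flci_hom_eq_zero_of_entry hp2 D r b α β hα0 hβ0 hdiag hΦ00 hΦ11 hΦ01 _ hsub hz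
    exact Subtype.ext (sub_eq_zero.1 h)

end IrrCore

end Fermat.Agent.S56
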