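/-
S56 / FLAT / CNT leaf R(b) (helper4): the reducible case of `fl_count`.
Statement `flc_count_reducible` VERBATIM from `Cnt/Spec/Red.lean` (helper2 fe01583).
Black boxes: `flc_red_devissage` (`Cnt/Spec/RedDev.lean`), (C1) `flc_card_Z1_char_le(_of_ne)`
(`Cnt/Spec/C1.lean`), (GEN) `flc_exists_gen`, `flc_char_I` (`Cnt/Spec/Gen.lean`).
Helper names are prefixed `flcrb_`.
-/
import Fermat.Agent.S56.Flat.Cnt.Spec.RedDev
import Fermat.Agent.S56.Flat.Cnt.Spec.C1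
import Fermat.Agent.S56.Flat.Cnt.Spec.Gen

set_option autoImplicit false
set_option linter.unusedVariables false
set_option linter.unusedSectionVars false
set_option linter.style.haveILetI false

namespace Fermat.Agent.S56

open Polynomial

section Cast

variable {p : ℕ} [Fact p.Prime] {k : Type*} [Field k] [CharP k p]

/-- the reduction `ZMod p → k` written with `val` is the ring homomorphism `ZMod.castHom` -/
theorem flcrb_cast_eq (x : ZMod p) :
    ((x.val : ℕ) : k) = ZMod.castHom (dvd_refl p) k x := by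
  haveI : NeZero p := ⟨(Fact.out : p.Prime).ne_zero⟩
  rw [ZMod.castHom_apply, ZMod.natCast_val]

theorem flcrb_cast_eq_one_iff (x : (ZMod p)ˣ) :
    ((((x : (ZMod p)ˣ) : ZMod p).val : ℕ) : k) = 1 ↔ x = 1 := by
  rw [flcrb_cast_eq, ← map_one (ZMod.castHom (dvd_refl p) k),
    (RingHom.injective (ZMod.castHom (dvd_refl p) k)).eq_iff, Units.val_eq_one]

theorem flcrb_cast_pow (x : (ZMod p)ˣ) (n : ℕ) :
    (((((x ^ n : (ZMod p)ˣ) : (ZMod p)ˣ) : ZMod p).val : ℕ) : k)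
      = ((((x : (ZMod p)ˣ) : ZMod p).val : ℕ) : k) ^ n := by
  rw [flcrb_cast_eq, flcrb_cast_eq, Units.val_pow_eq_pow_val, map_pow]

end Cast

section Red

variable {p : ℕ} [Fact p.Prime] {𝒢 : Type} [Group 𝒢] [Finite 𝒢]
  {k : Type} [Field k] [Finite k] {V : Type} [AddCommGroup V] [Module k V] [Module.Finite k V]

/-- **leaf R (b)**: the reducible case of `fl_count` from `flc_red_devissage`, (C1) and (GEN).
(`ψ := χ₁/χ₂`.  `p ≥ 5`: `ψ = ω` and `ψ⁻¹ = ω` on `I` cannot both hold (`ω σ₀` has order `p - 1 > 2`),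
the trivial character is not `ω` on `I`: `#Z¹(ad⁰) ≤ #k · #k · #k²`.  `p = 3`: `χ₂ σ₀ = ± 1`;
if `χ₂ = 1` on `I` the Borel condition holds for `ℓ`: `≤ #k · #k · #k²`; otherwise `χ₁ = 1` on `I`,
`hcompl` gives a stable complement `ℓ'`, on whose quotient `I` acts trivially.) -/
theorem flc_count_reducible [CharP k p] (hp2 : p ≠ 2) (D : TameKummerData p 𝒢)
    (hV : Module.finrank k V = 2) (r : 𝒢 →* Module.End k V)
    (hdet : ∀ g, LinearMap.det (r g) = (((D.ω g : (ZMod p)ˣ) : ZMod p).val : k))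
    (hcompl : ∀ ℓ₁ : Submodule k V, IsStableLine r ℓ₁ → (∀ σ ∈ D.I, ∀ v ∈ ℓ₁, r σ v = v) →
      ∃ ℓ' : Submodule k V, IsStableLine r ℓ' ∧ ℓ₁ ⊓ ℓ' = ⊥)
    (ℓ₀ : Submodule k V) (hℓ₀ : IsStableLine r ℓ₀) :
    Nat.card {c : 𝒢 → Module.End k V // IsAdCocycle r c ∧
      ∀ ℓ : Submodule k V, IsStableLine r ℓ → (∀ σ ∈ D.I, ∀ v : V, r σ v - v ∈ ℓ) →
        IsBorelUpToCobdry r ℓ c} ≤ Nat.card k ^ 4 := by
  classical
  haveI : Finite (Module.End k V) := Module.finite_of_finite k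
  haveI : Finite (𝒢 → Module.End k V) := inferInstance
  obtain ⟨σ₀, hσ₀I, -, hσ₀ω, hgen⟩ := flc_exists_gen D
  have hp : p.Prime := Fact.out
  have hp3 : 3 ≤ p := by
    have := hp.two_le
    omega
  set w : k := (((D.ω σ₀ : (ZMod p)ˣ) : ZMod p).val : k) with hw
  have hw1 : w ≠ 1 := by
    intro h
    have h1 := (flcrb_cast_eq_one_iff (k := k) (D.ω σ₀)).mp h
    rw [h1, orderOf_one] at hσ₀ω
    omega
  -- the trivial character is not `ω` on `I`
  have htriv : ¬ FlcIsOmega D (fun g => (((1 : 𝒢 →* kˣ) g : kˣ) : k)) := by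
    intro h
    have h1 := h σ₀ hσ₀I
    apply hw1
    rw [hw, ← h1]
    simp
  have hZ1 : Nat.card ↥(flcZ1 (flcChi (1 : 𝒢 →* kˣ))) ≤ Nat.card k :=
    flc_card_Z1_char_le_of_ne D hp2 1 htriv
  have hbound1 : ∀ a b c : ℕ, a ≤ Nat.card k → b ≤ Nat.card k → c ≤ Nat.card k ^ 2 →
      a * b * c ≤ Nat.card k ^ 4 := by
    intro a b c ha hb hc
    calc a * b * c ≤ Nat.card k * Nat.card k * Nat.card k ^ 2 :=
          Nat.mul_le_mul (Nat.mul_le_mul ha hb) hc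
      _ = Nat.card k ^ 4 := by ring
  have hbound2 : ∀ a b c : ℕ, a ≤ Nat.card k ^ 2 → b ≤ Nat.card k → c ≤ Nat.card k →
      a * b * c ≤ Nat.card k ^ 4 := by
    intro a b c ha hb hc
    calc a * b * c ≤ Nat.card k ^ 2 * Nat.card k * Nat.card k :=
          Nat.mul_le_mul (Nat.mul_le_mul ha hb) hc
      _ = Nat.card k ^ 4 := by ring
  -- the set in question is contained in the set of all ad-cocycles
  have hSall : Nat.card {c : 𝒢 → Module.End k V // IsAdCocycle r c ∧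
      ∀ ℓ : Submodule k V, IsStableLine r ℓ → (∀ σ ∈ D.I, ∀ v : V, r σ v - v ∈ ℓ) →
        IsBorelUpToCobdry r ℓ c} ≤ Nat.card {c : 𝒢 → Module.End k V // IsAdCocycle r c} :=
    Nat.card_le_card_of_injective
      (fun c => (⟨c.1, c.2.1⟩ : {c : 𝒢 → Module.End k V // IsAdCocycle r c}))
      (fun c c' hcc => Subtype.ext (by
        have := congrArg (fun x : {c : 𝒢 → Module.End k V // IsAdCocycle r c} => x.1) hcc
        exact this))
  -- and in the Borel ones for a line on whose quotient `I` acts trivially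
  have hSborel : ∀ ℓ : Submodule k V, IsStableLine r ℓ → (∀ σ ∈ D.I, ∀ v : V, r σ v - v ∈ ℓ) →
      Nat.card {c : 𝒢 → Module.End k V // IsAdCocycle r c ∧
        ∀ ℓ : Submodule k V, IsStableLine r ℓ → (∀ σ ∈ D.I, ∀ v : V, r σ v - v ∈ ℓ) →
          IsBorelUpToCobdry r ℓ c} ≤
      Nat.card {c : 𝒢 → Module.End k V // IsAdCocycle r c ∧ IsBorelUpToCobdry r ℓ c} := by
    intro ℓ hℓ hI
    exact Nat.card_le_card_of_injective
      (fun c => (⟨c.1, c.2.1, c.2.2 ℓ hℓ hI⟩ :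
        {c : 𝒢 → Module.End k V // IsAdCocycle r c ∧ IsBorelUpToCobdry r ℓ c}))
      (fun c c' hcc => Subtype.ext (by
        have := congrArg (fun x : {c : 𝒢 → Module.End k V //
          IsAdCocycle r c ∧ IsBorelUpToCobdry r ℓ c} => x.1) hcc
        exact this))
  -- a character trivial at `σ₀` is trivial on `I`
  have hI1 : ∀ χ : 𝒢 →* kˣ, χ σ₀ = 1 → ∀ σ ∈ D.I, χ σ = 1 := by
    intro χ h σ hσ
    obtain ⟨n, x, hx, rfl⟩ := hgen σ hσ
    rw [map_mul, map_pow, h, one_pow, one_mul]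
    exact (flc_char_I D χ).1 x hx
  -- the Borel bound for a line with `χ₂ σ₀ = 1`
  have hcase : ∀ (ℓ : Submodule k V) (hℓ : IsStableLine r ℓ) (χ₁ χ₂ : 𝒢 →* kˣ),
      (∀ g v, r g v - ((χ₂ g : kˣ) : k) • v ∈ ℓ) →
      Nat.card {c : 𝒢 → Module.End k V // IsAdCocycle r c ∧ IsBorelUpToCobdry r ℓ c} ≤
        Nat.card k * Nat.card ↥(flcZ1 (flcChi (1 : 𝒢 →* kˣ))) *
          Nat.card ↥(flcZ1 (flcChi (χ₁ / χ₂))) →
      χ₂ σ₀ = 1 →
      Nat.card {c : 𝒢 → Module.End k V // IsAdCocycle r c ∧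
        ∀ ℓ : Submodule k V, IsStableLine r ℓ → (∀ σ ∈ D.I, ∀ v : V, r σ v - v ∈ ℓ) →
          IsBorelUpToCobdry r ℓ c} ≤ Nat.card k ^ 4 := by
    intro ℓ hℓ χ₁ χ₂ h2 hbor hχ
    have hχ₂ := hI1 χ₂ hχ
    have hItriv : ∀ σ ∈ D.I, ∀ v, r σ v - v ∈ ℓ := by
      intro σ hσ v
      have h3 := h2 σ v
      rwa [hχ₂ σ hσ, Units.val_one, one_smul] at h3
    refine le_trans (hSborel ℓ hℓ hItriv) (le_trans hbor ?_)
    exact hbound1 _ _ _ le_rfl hZ1 (flc_card_Z1_char_le D hp2 _)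
  obtain ⟨χ₁, χ₂, hdet', h1, h2, hall, hbor⟩ := flc_red_devissage hV r ℓ₀ hℓ₀
  by_cases hp3' : p = 3
  · -- `p = 3`
    have hp1 : p - 1 = 2 := by omega
    have hw2 : w ^ 2 = 1 := by
      rw [hw, ← flcrb_cast_pow]
      have h3 : D.ω σ₀ ^ 2 = 1 := by
        have h4 := pow_orderOf_eq_one (D.ω σ₀)
        rwa [hσ₀ω, hp1] at h4
      rw [h3]
      exact (flcrb_cast_eq_one_iff (k := k) 1).mpr rfl
    have hwm1 : w = -1 := by
      have h3 : w * w = 1 := by rw [← sq]; exact hw2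
      rcases mul_self_eq_one_iff.mp h3 with h4 | h4
      · exact absurd h4 hw1
      · exact h4
    have hχ₂sq : ((χ₂ σ₀ : kˣ) : k) * ((χ₂ σ₀ : kˣ) : k) = 1 := by
      have h3 := (flc_char_I D χ₂).2 σ₀ hσ₀I
      rw [hp1] at h3
      have h4 : ((χ₂ σ₀ ^ 2 : kˣ) : k) = 1 := by
        rw [h3, Units.val_one]
      rwa [Units.val_pow_eq_pow_val, sq] at h4
    rcases mul_self_eq_one_iff.mp hχ₂sq with h3 | h3
    · -- `χ₂ = 1` on `I`
      exact hcase ℓ₀ hℓ₀ χ₁ χ₂ h2 hbor (Units.ext h3)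
    · -- `χ₁ = 1` on `I`
      have hχ₁ : χ₁ σ₀ = 1 := by
        apply Units.ext
        have h4 := hdet' σ₀
        rw [hdet σ₀, ← hw, hwm1, h3] at h4
        rw [Units.val_one]
        have h5 : -((χ₁ σ₀ : kˣ) : k) = -1 := by
          rw [h4]; ring
        exact neg_injective h5
      have hχ₁I := hI1 χ₁ hχ₁
      have hfix : ∀ σ ∈ D.I, ∀ v ∈ ℓ₀, r σ v = v := by
        intro σ hσ v hv
        rw [h1 σ v hv, hχ₁I σ hσ, Units.val_one, one_smul]
      obtain ⟨ℓ', hℓ', hdisj⟩ := hcompl ℓ₀ hℓ₀ hfix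
      obtain ⟨χ₁', χ₂', -, -, h2', -, hbor'⟩ := flc_red_devissage hV r ℓ' hℓ'
      -- a non-zero vector of `ℓ₀`
      obtain ⟨v, hv0⟩ : ∃ v : ℓ₀, v ≠ 0 := by
        have h4 : 0 < Module.finrank k ↥ℓ₀ := by rw [hℓ₀.1]; exact Nat.one_pos
        exact Module.finrank_pos_iff_exists_ne_zero.mp h4
      have hv0' : (v : V) ≠ 0 := fun h => hv0 (Subtype.ext h)
      have hχ₂' : χ₂' σ₀ = 1 := by
        apply Units.ext
        rw [Units.val_one]
        have h4 := h2' σ₀ (v : V)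
        rw [hfix σ₀ hσ₀I (v : V) v.2] at h4
        have h5 : (v : V) - ((χ₂' σ₀ : kˣ) : k) • (v : V) ∈ ℓ₀ :=
          ℓ₀.sub_mem v.2 (ℓ₀.smul_mem _ v.2)
        have h6 : (v : V) - ((χ₂' σ₀ : kˣ) : k) • (v : V) ∈ ℓ₀ ⊓ ℓ' := ⟨h5, h4⟩
        rw [hdisj, Submodule.mem_bot] at h6
        have h7 : (1 - ((χ₂' σ₀ : kˣ) : k)) • (v : V) = 0 := by
          rw [sub_smul, one_smul]; exact h6
        rcases smul_eq_zero.mp h7 with h8 | h8
        · exact (sub_eq_zero.mp h8).symm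
        · exact absurd h8 hv0'
      exact hcase ℓ' hℓ' χ₁' χ₂' h2' hbor' hχ₂'
  · -- `p ≥ 5`
    have hnot : ¬ (FlcIsOmega D (fun g => (((χ₂ / χ₁) g : kˣ) : k)) ∧
        FlcIsOmega D (fun g => (((χ₁ / χ₂) g : kˣ) : k))) := by
      rintro ⟨ha, hb⟩
      have ha' := ha σ₀ hσ₀I
      have hb' := hb σ₀ hσ₀I
      have h3 : ((((χ₂ / χ₁) σ₀ * (χ₁ / χ₂) σ₀ : kˣ) : kˣ) : k) = 1 := by
        rw [MonoidHom.div_apply, MonoidHom.div_apply, div_mul_div_cancel, div_self',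
          Units.val_one]
      rw [Units.val_mul] at h3
      simp only at ha' hb'
      rw [ha', hb', ← hw, ← sq, hw, ← flcrb_cast_pow, flcrb_cast_eq_one_iff] at h3
      have h4 := orderOf_dvd_of_pow_eq_one h3
      rw [hσ₀ω] at h4
      have h5 := Nat.le_of_dvd (by norm_num) h4
      omega
    refine le_trans hSall (le_trans hall ?_)
    rcases not_and_or.mp hnot with h3 | h3
    · exact hbound1 _ _ _ (flc_card_Z1_char_le_of_ne D hp2 _ h3) hZ1
        (flc_card_Z1_char_le D hp2 _)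
    · exact hbound2 _ _ _ (flc_card_Z1_char_le D hp2 _) hZ1
        (flc_card_Z1_char_le_of_ne D hp2 _ h3)

end Red

end Fermat.Agent.S56
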