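import Fermat.Agent.S56.Flat.Cnt.Defs

/-!
# S56 / FLAT / CNT, leaf R(a): the devissage along a stable line (`flc_red_devissage`)

`V` a `2`-dimensional space over the finite field `k`, `r : 𝒢 →* End V`, `ℓ` a stable line.
Choose a basis `e₁ ∈ ℓ`, `e₂`, with coordinates `π₁, π₂`.  `χ₁ g = π₁ (r g e₁)`,
`χ₂ g = π₂ (r g e₂)`.  For an ad-cocycle `c` (trace zero):

* `z g = π₂ (c g e₁)` is a cocycle for `χ₂ / χ₁`;
* if `z = 0`: `x g = π₁ (c g e₁)` is a homomorphism;
* if also `x = 0`: `y g = π₁ (c g e₂)` is a cocycle for `χ₁ / χ₂` and determines `c`.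

Counting: `#A ≤ #A' * #B` for an additive map `A → B` with kernel in `A'` (`flcrd_card_le`), three
times.  Borel count: `c = c' + ∂(t E)` with `π₂ (c' g e₁) = 0`, `E v = π₁ v • e₂`.

Helper lemmas are prefixed `flcrd_`.
-/

set_option autoImplicit false
set_option linter.unusedVariables false
set_option linter.unusedSectionVars false
set_option linter.style.haveILetI false

namespace Fermat.Agent.S56

open Polynomial

/-! ### counting -/

section Count

/-- `#A ≤ #A' * #B` for an additive map `φ` with `φ A ⊆ B` and `A ∩ ker φ ⊆ A'` -/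
theorem flcrd_card_le {M N : Type*} [AddCommGroup M] [AddCommGroup N] [Finite M] [Finite N]
    (φ : M →+ N) (A A' : AddSubgroup M) (B : AddSubgroup N) (h1 : ∀ a ∈ A, φ a ∈ B)
    (h2 : ∀ a ∈ A, φ a = 0 → a ∈ A') : Nat.card ↥A ≤ Nat.card ↥A' * Nat.card ↥B := by
  classical
  have hs : ∀ b : N, ∃ a : M, (∃ a' ∈ A, φ a' = b) → (a ∈ A ∧ φ a = b) := by
    intro b
    by_cases h : ∃ a' ∈ A, φ a' = b
    · obtain ⟨a', ha', hb⟩ := h
      exact ⟨a', fun _ => ⟨ha', hb⟩⟩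
    · exact ⟨0, fun h' => absurd h' h⟩
  choose s hs using hs
  have hsa : ∀ a : ↥A, s (φ a) ∈ A ∧ φ (s (φ a)) = φ a := fun a => hs (φ a) ⟨a, a.2, rfl⟩
  let F : ↥A → ↥A' × ↥B := fun a =>
    (⟨(a : M) - s (φ a), h2 _ (A.sub_mem a.2 (hsa a).1) (by
        rw [map_sub, (hsa a).2, sub_self])⟩, ⟨φ a, h1 a a.2⟩)
  have hF : Function.Injective F := by
    intro a a' h
    have h3 : φ (a : M) = φ (a' : M) := congrArg (fun x : ↥A' × ↥B => (x.2 : N)) h
    have h4 : (a : M) - s (φ a) = (a' : M) - s (φ a') :=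
      congrArg (fun x : ↥A' × ↥B => (x.1 : M)) h
    rw [h3] at h4
    exact Subtype.ext (sub_left_injective h4)
  calc Nat.card ↥A ≤ Nat.card (↥A' × ↥B) := Nat.card_le_card_of_injective F hF
    _ = Nat.card ↥A' * Nat.card ↥B := Nat.card_prod _ _

end Count

/-! ### a basis adapted to the line -/

section Basis

variable {k : Type} [Field k] {V : Type} [AddCommGroup V] [Module k V]

/-- a basis `e₁, e₂` of `V` with `ℓ = {v | π₂ v = 0}` -/
theorem flcrd_exists_basis (hV : Module.finrank k V = 2) (ℓ : Submodule k V)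
    (hℓ : Module.finrank k ↥ℓ = 1) :
    ∃ b : Module.Basis (Fin 2) k V, ∀ v : V, v ∈ ℓ ↔ b.repr v 1 = 0 := by
  obtain ⟨e, he0, hspan⟩ := finrank_eq_one_iff'.1 hℓ
  have he0' : (e : V) ≠ 0 := fun h => he0 (Subtype.ext h)
  have hmem : ∀ v : V, v ∈ ℓ ↔ ∃ c : k, c • (e : V) = v := by
    intro v
    constructor
    · intro hv
      obtain ⟨c, hc⟩ := hspan ⟨v, hv⟩
      exact ⟨c, congrArg Subtype.val hc⟩
    · rintro ⟨c, rfl⟩
      exact ℓ.smul_mem c e.2
  have hne : ℓ ≠ ⊤ := by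
    intro h
    rw [h, finrank_top, hV] at hℓ
    omega
  obtain ⟨e₂, -, he₂⟩ := SetLike.exists_of_lt (lt_top_iff_ne_top.2 hne)
  have hli : LinearIndependent k ![(e : V), e₂] := by
    rw [LinearIndependent.pair_iff]
    intro a t hat
    have ht : t = 0 := by
      by_contra ht
      apply he₂
      rw [hmem]
      refine ⟨-(t⁻¹ * a), ?_⟩
      have h1 : t • e₂ = -(a • (e : V)) := eq_neg_of_add_eq_zero_right hat
      have h2 : e₂ = t⁻¹ • (t • e₂) := by rw [smul_smul, inv_mul_cancel₀ ht, one_smul]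
      rw [h2, h1, smul_neg, smul_smul, neg_smul]
    rw [ht, zero_smul, add_zero] at hat
    exact ⟨(smul_eq_zero.1 hat).resolve_right he0', ht⟩
  have hcard : Fintype.card (Fin 2) = Module.finrank k V := by rw [hV, Fintype.card_fin]
  refine ⟨basisOfLinearIndependentOfCardEqFinrank hli hcard, fun v => ?_⟩
  set b := basisOfLinearIndependentOfCardEqFinrank hli hcard with hb
  have hb0 : b 0 = (e : V) := by
    rw [hb, coe_basisOfLinearIndependentOfCardEqFinrank]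
    rfl
  have hdec : v = b.repr v 0 • b 0 + b.repr v 1 • b 1 := by
    conv_lhs => rw [← b.sum_repr v, Fin.sum_univ_two]
  constructor
  · intro hv
    obtain ⟨c, rfl⟩ := (hmem v).1 hv
    rw [← hb0, map_smul, Module.Basis.repr_self, Finsupp.smul_apply, Finsupp.single_apply]
    simp
  · intro hv
    rw [hdec, hv, zero_smul, add_zero, hb0]
    exact ℓ.smul_mem _ e.2

end Basis

/-! ### the two characters -/

section Chars

variable {𝒢 : Type} [Group 𝒢] {k : Type} [Field k] {V : Type} [AddCommGroup V] [Module k V]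
  (r : 𝒢 →* Module.End k V) (b : Module.Basis (Fin 2) k V)

theorem flcrd_decomp (v : V) : v = b.repr v 0 • b 0 + b.repr v 1 • b 1 := by
  conv_lhs => rw [← b.sum_repr v, Fin.sum_univ_two]

theorem flcrd_repr_00 : b.repr (b 0) 0 = 1 := by
  rw [Module.Basis.repr_self, Finsupp.single_apply, if_pos rfl]

theorem flcrd_repr_01 : b.repr (b 0) 1 = 0 := by
  rw [Module.Basis.repr_self, Finsupp.single_apply, if_neg (by decide)]

theorem flcrd_repr_10 : b.repr (b 1) 0 = 0 := by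
  rw [Module.Basis.repr_self, Finsupp.single_apply, if_neg (by decide)]

theorem flcrd_repr_11 : b.repr (b 1) 1 = 1 := by
  rw [Module.Basis.repr_self, Finsupp.single_apply, if_pos rfl]

theorem flcrd_mul_inv (g : 𝒢) : r g * r g⁻¹ = 1 := by
  rw [← map_mul, mul_inv_cancel, map_one]

theorem flcrd_inv_mul (g : 𝒢) : r g⁻¹ * r g = 1 := by
  rw [← map_mul, inv_mul_cancel, map_one]

/-- the hypothesis "the line `k e₁` is stable", in coordinates -/
def FlcrdStable : Prop := ∀ g : 𝒢, b.repr (r g (b 0)) 1 = 0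

variable {r b}

theorem flcrd_r_e1 (hst : FlcrdStable r b) (g : 𝒢) :
    r g (b 0) = b.repr (r g (b 0)) 0 • b 0 := by
  conv_lhs => rw [flcrd_decomp b (r g (b 0)), hst g, zero_smul, add_zero]

theorem flcrd_pi2_r (hst : FlcrdStable r b) (g : 𝒢) (v : V) :
    b.repr (r g v) 1 = b.repr (r g (b 1)) 1 * b.repr v 1 := by
  conv_lhs => rw [flcrd_decomp b v]
  rw [map_add, map_smul, map_smul, map_add, map_smul, map_smul, Finsupp.add_apply,
    Finsupp.smul_apply, Finsupp.smul_apply, hst g, smul_zero, zero_add, smul_eq_mul, mul_comm]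

variable (r b)

/-- `χ₁` as a homomorphism to `k` -/
noncomputable def flcrdChi1 (hst : FlcrdStable r b) : 𝒢 →* k where
  toFun g := b.repr (r g (b 0)) 0
  map_one' := by
    rw [map_one r, Module.End.one_apply, flcrd_repr_00]
  map_mul' g h := by
    rw [map_mul r, Module.End.mul_apply]
    conv_lhs => rw [flcrd_r_e1 hst h]
    rw [map_smul, map_smul, Finsupp.smul_apply, smul_eq_mul, mul_comm]

/-- `χ₂` as a homomorphism to `k` -/
noncomputable def flcrdChi2 (hst : FlcrdStable r b) : 𝒢 →* k where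
  toFun g := b.repr (r g (b 1)) 1
  map_one' := by
    rw [map_one r, Module.End.one_apply, flcrd_repr_11]
  map_mul' g h := by
    rw [map_mul r, Module.End.mul_apply, flcrd_pi2_r hst g]

variable {r b}

theorem flcrdChi1_apply (hst : FlcrdStable r b) (g : 𝒢) :
    flcrdChi1 r b hst g = b.repr (r g (b 0)) 0 := rfl

theorem flcrdChi2_apply (hst : FlcrdStable r b) (g : 𝒢) :
    flcrdChi2 r b hst g = b.repr (r g (b 1)) 1 := rfl

theorem flcrd_r_e1' (hst : FlcrdStable r b) (g : 𝒢) :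
    r g (b 0) = flcrdChi1 r b hst g • b 0 := flcrd_r_e1 hst g

theorem flcrd_pi2_r' (hst : FlcrdStable r b) (g : 𝒢) (v : V) :
    b.repr (r g v) 1 = flcrdChi2 r b hst g * b.repr v 1 := flcrd_pi2_r hst g v

theorem flcrdChi1_inv (hst : FlcrdStable r b) (g : 𝒢) :
    flcrdChi1 r b hst g⁻¹ = (flcrdChi1 r b hst g)⁻¹ := by
  apply eq_inv_of_mul_eq_one_right
  rw [← map_mul, mul_inv_cancel, map_one]

theorem flcrdChi2_inv (hst : FlcrdStable r b) (g : 𝒢) :
    flcrdChi2 r b hst g⁻¹ = (flcrdChi2 r b hst g)⁻¹ := by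
  apply eq_inv_of_mul_eq_one_right
  rw [← map_mul, mul_inv_cancel, map_one]

theorem flcrdChi1_ne_zero (hst : FlcrdStable r b) (g : 𝒢) : flcrdChi1 r b hst g ≠ 0 := by
  intro h
  have h1 : flcrdChi1 r b hst (g * g⁻¹) = 1 := by rw [mul_inv_cancel, map_one]
  rw [map_mul, h, zero_mul] at h1
  exact zero_ne_one h1

theorem flcrdChi2_ne_zero (hst : FlcrdStable r b) (g : 𝒢) : flcrdChi2 r b hst g ≠ 0 := by
  intro h
  have h1 : flcrdChi2 r b hst (g * g⁻¹) = 1 := by rw [mul_inv_cancel, map_one]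
  rw [map_mul, h, zero_mul] at h1
  exact zero_ne_one h1

/-- the determinant -/
theorem flcrd_det (hst : FlcrdStable r b) (g : 𝒢) :
    LinearMap.det (r g) = flcrdChi1 r b hst g * flcrdChi2 r b hst g := by
  rw [← LinearMap.det_toMatrix b, Matrix.det_fin_two, LinearMap.toMatrix_apply,
    LinearMap.toMatrix_apply, LinearMap.toMatrix_apply, LinearMap.toMatrix_apply, hst g, mul_zero,
    sub_zero]
  rfl

/-- the trace in coordinates -/
theorem flcrd_trace (f : Module.End k V) :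
    LinearMap.trace k V f = b.repr (f (b 0)) 0 + b.repr (f (b 1)) 1 := by
  rw [LinearMap.trace_eq_matrix_trace k b, Matrix.trace_fin_two, LinearMap.toMatrix_apply,
    LinearMap.toMatrix_apply]

/-- conjugation does not change the trace -/
theorem flcrd_trace_conj (g : 𝒢) (A : Module.End k V) :
    LinearMap.trace k V (r g * A * r g⁻¹) = LinearMap.trace k V A := by
  rw [LinearMap.trace_mul_comm, ← mul_assoc, flcrd_inv_mul, one_mul]

end Chars

/-! ### the cocycle groups -/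

section Coc

variable {𝒢 : Type} [Group 𝒢] {k : Type} [Field k] {V : Type} [AddCommGroup V] [Module k V]
  (r : 𝒢 →* Module.End k V) (b : Module.Basis (Fin 2) k V)

/-- the ad-cocycles (trace zero) as an additive subgroup -/
def flcrdX0 : AddSubgroup (𝒢 → Module.End k V) where
  carrier := {c | IsAdCocycle r c}
  zero_mem' := ⟨fun g h => by simp, fun g => by simp⟩
  add_mem' := by
    rintro c c' ⟨h1, h2⟩ ⟨h1', h2'⟩
    refine ⟨fun g h => ?_, fun g => ?_⟩
    · simp only [Pi.add_apply, h1 g h, h1' g h, mul_add, add_mul]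
      abel
    · simp only [Pi.add_apply, map_add, h2 g, h2' g, add_zero]
  neg_mem' := by
    rintro c ⟨h1, h2⟩
    refine ⟨fun g h => ?_, fun g => ?_⟩
    · simp only [Pi.neg_apply, h1 g h, mul_neg, neg_mul, neg_add]
    · simp only [Pi.neg_apply, map_neg, h2 g, neg_zero]

theorem mem_flcrdX0 {c : 𝒢 → Module.End k V} : c ∈ flcrdX0 r ↔ IsAdCocycle r c := Iff.rfl

/-- evaluation: `c ↦ (g ↦ (c g e)_i)` -/
noncomputable def flcrdEval (i : Fin 2) (e : V) : (𝒢 → Module.End k V) →+ (𝒢 → k) where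
  toFun c g := b.repr (c g e) i
  map_zero' := by
    funext g
    simp
  map_add' c c' := by
    funext g
    simp

@[simp] theorem flcrdEval_apply (i : Fin 2) (e : V) (c : 𝒢 → Module.End k V) (g : 𝒢) :
    flcrdEval b i e c g = b.repr (c g e) i := rfl

/-- cocycles with `π₂ (c g e₁) = 0` -/
noncomputable def flcrdX1 : AddSubgroup (𝒢 → Module.End k V) :=
  flcrdX0 r ⊓ (flcrdEval b 1 (b 0)).ker

/-- cocycles with `c g e₁ = 0` -/
noncomputable def flcrdX2 : AddSubgroup (𝒢 → Module.End k V) :=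
  flcrdX1 r b ⊓ (flcrdEval b 0 (b 0)).ker

variable {r b}

theorem mem_flcrdX1 {c : 𝒢 → Module.End k V} :
    c ∈ flcrdX1 r b ↔ IsAdCocycle r c ∧ ∀ g, b.repr (c g (b 0)) 1 = 0 := by
  rw [flcrdX1, AddSubgroup.mem_inf, AddMonoidHom.mem_ker, mem_flcrdX0, funext_iff]
  rfl

theorem mem_flcrdX2 {c : 𝒢 → Module.End k V} :
    c ∈ flcrdX2 r b ↔ IsAdCocycle r c ∧ ∀ g, c g (b 0) = 0 := by
  rw [flcrdX2, AddSubgroup.mem_inf, AddMonoidHom.mem_ker, mem_flcrdX1, funext_iff]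
  constructor
  · rintro ⟨⟨h1, h2⟩, h3⟩
    refine ⟨h1, fun g => ?_⟩
    have h4 : b.repr (c g (b 0)) 0 = 0 := h3 g
    rw [flcrd_decomp b (c g (b 0)), h2 g, h4, zero_smul, zero_smul, add_zero]
  · rintro ⟨h1, h2⟩
    refine ⟨⟨h1, fun g => ?_⟩, fun g => ?_⟩
    · rw [h2 g, map_zero b.repr, Finsupp.zero_apply]
    · show b.repr (c g (b 0)) 0 = 0
      rw [h2 g, map_zero b.repr, Finsupp.zero_apply]

theorem flcrd_coc_apply {c : 𝒢 → Module.End k V} (hc : IsAdCocycle r c) (g h : 𝒢) (v : V) :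
    c (g * h) v = c g v + r g (c h (r g⁻¹ v)) := by
  rw [hc.1 g h, LinearMap.add_apply, Module.End.mul_apply, Module.End.mul_apply]

theorem flcrd_coc_e1 (hst : FlcrdStable r b) {c : 𝒢 → Module.End k V} (hc : IsAdCocycle r c)
    (g h : 𝒢) :
    c (g * h) (b 0) = c g (b 0) + (flcrdChi1 r b hst g)⁻¹ • r g (c h (b 0)) := by
  rw [flcrd_coc_apply hc, flcrd_r_e1' hst g⁻¹, map_smul, map_smul, flcrdChi1_inv]

/-- the characters with values in `kˣ` -/
noncomputable def flcrdU1 (hst : FlcrdStable r b) : 𝒢 →* kˣ := (flcrdChi1 r b hst).toHomUnits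

/-- the characters with values in `kˣ` -/
noncomputable def flcrdU2 (hst : FlcrdStable r b) : 𝒢 →* kˣ := (flcrdChi2 r b hst).toHomUnits

@[simp] theorem flcrdU1_coe (hst : FlcrdStable r b) (g : 𝒢) :
    ((flcrdU1 hst g : kˣ) : k) = flcrdChi1 r b hst g := rfl

@[simp] theorem flcrdU2_coe (hst : FlcrdStable r b) (g : 𝒢) :
    ((flcrdU2 hst g : kˣ) : k) = flcrdChi2 r b hst g := rfl

/-- step 1: `z g = π₂ (c g e₁)` is a cocycle for `χ₂ / χ₁` -/
theorem flcrd_step1 (hst : FlcrdStable r b) {c : 𝒢 → Module.End k V} (hc : c ∈ flcrdX0 r) :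
    flcrdEval b 1 (b 0) c ∈ flcZ1 (flcChi (flcrdU2 hst / flcrdU1 hst)) := by
  intro g h
  rw [flcrdEval_apply, flcrdEval_apply, flcrdEval_apply, flcChi_apply, MonoidHom.div_apply,
    Units.val_div_eq_div_val, flcrdU1_coe, flcrdU2_coe, flcrd_coc_e1 hst hc, map_add, map_smul,
    Finsupp.add_apply, Finsupp.smul_apply, flcrd_pi2_r' hst, smul_eq_mul]
  ring

/-- step 2: if `z = 0` then `x g = π₁ (c g e₁)` is a homomorphism -/
theorem flcrd_step2 (hst : FlcrdStable r b) {c : 𝒢 → Module.End k V} (hc : c ∈ flcrdX1 r b) :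
    flcrdEval b 0 (b 0) c ∈ flcZ1 (flcChi (1 : 𝒢 →* kˣ)) := by
  obtain ⟨hc0, hc1⟩ := mem_flcrdX1.1 hc
  intro g h
  have h1 : c h (b 0) = b.repr (c h (b 0)) 0 • b 0 := by
    conv_lhs => rw [flcrd_decomp b (c h (b 0)), hc1 h, zero_smul, add_zero]
  rw [flcrdEval_apply, flcrdEval_apply, flcrdEval_apply, flcChi_apply, MonoidHom.one_apply,
    Units.val_one, one_mul, flcrd_coc_e1 hst hc0]
  conv_lhs => rw [h1]
  rw [map_smul, flcrd_r_e1' hst g, map_add, map_smul, map_smul, map_smul, Finsupp.add_apply,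
    Finsupp.smul_apply, Finsupp.smul_apply, Finsupp.smul_apply, flcrd_repr_00, smul_eq_mul,
    smul_eq_mul, smul_eq_mul, mul_one, ← mul_assoc, mul_comm _ (b.repr (c h (b 0)) 0),
    mul_assoc, inv_mul_cancel₀ (flcrdChi1_ne_zero hst g), mul_one]

/-- for `c ∈ X₂`: `c g e₂ = y g • e₁` -/
theorem flcrd_e2 {c : 𝒢 → Module.End k V} (hc : c ∈ flcrdX2 r b) (g : 𝒢) :
    c g (b 1) = b.repr (c g (b 1)) 0 • b 0 := by
  obtain ⟨hc0, hc1⟩ := mem_flcrdX2.1 hc
  have h1 := hc0.2 g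
  rw [flcrd_trace (b := b), hc1 g, map_zero b.repr, Finsupp.zero_apply, zero_add] at h1
  conv_lhs => rw [flcrd_decomp b (c g (b 1)), h1, zero_smul, add_zero]

/-- step 3: if `c g e₁ = 0` then `y g = π₁ (c g e₂)` is a cocycle for `χ₁ / χ₂` -/
theorem flcrd_step3 (hst : FlcrdStable r b) {c : 𝒢 → Module.End k V} (hc : c ∈ flcrdX2 r b) :
    flcrdEval b 0 (b 1) c ∈ flcZ1 (flcChi (flcrdU1 hst / flcrdU2 hst)) := by
  obtain ⟨hc0, hc1⟩ := mem_flcrdX2.1 hc
  intro g h
  have h1 : r g⁻¹ (b 1) = b.repr (r g⁻¹ (b 1)) 0 • b 0 + (flcrdChi2 r b hst g)⁻¹ • b 1 := by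
    conv_lhs => rw [flcrd_decomp b (r g⁻¹ (b 1)), flcrd_pi2_r' hst, flcrd_repr_11, mul_one,
      flcrdChi2_inv]
  obtain ⟨y, hy⟩ : ∃ y : k, c h (b 1) = y • b 0 := ⟨_, flcrd_e2 hc h⟩
  have h2 : c h (r g⁻¹ (b 1)) = ((flcrdChi2 r b hst g)⁻¹ * y) • b 0 := by
    rw [h1, map_add, map_smul, map_smul, hc1 h, smul_zero, zero_add, hy, smul_smul]
  have h3 : r g (c h (r g⁻¹ (b 1))) =
      ((flcrdChi2 r b hst g)⁻¹ * y * flcrdChi1 r b hst g) • b 0 := by
    rw [h2, map_smul, flcrd_r_e1' hst g, smul_smul]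
  rw [flcrdEval_apply, flcrdEval_apply, flcrdEval_apply, flcChi_apply, MonoidHom.div_apply,
    Units.val_div_eq_div_val, flcrdU1_coe, flcrdU2_coe, flcrd_coc_apply hc0, h3, hy, map_add,
    Finsupp.add_apply, map_smul, map_smul, Finsupp.smul_apply, Finsupp.smul_apply, flcrd_repr_00,
    smul_eq_mul, smul_eq_mul, mul_one, mul_one]
  ring

/-- step 3, injectivity -/
theorem flcrd_step3_inj {c : 𝒢 → Module.End k V} (hc : c ∈ flcrdX2 r b)
    (h0 : flcrdEval b 0 (b 1) c = 0) : c = 0 := by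
  obtain ⟨hc0, hc1⟩ := mem_flcrdX2.1 hc
  funext g
  apply b.ext
  intro i
  fin_cases i
  · exact (hc1 g).trans (LinearMap.zero_apply _).symm
  · show c g (b 1) = (0 : Module.End k V) (b 1)
    have h1 : b.repr (c g (b 1)) 0 = 0 := congrFun h0 g
    rw [flcrd_e2 hc g, h1, zero_smul, LinearMap.zero_apply]

end Coc

/-! ### the Borel count -/

section Borel

variable {𝒢 : Type} [Group 𝒢] {k : Type} [Field k] {V : Type} [AddCommGroup V] [Module k V]
  {r : 𝒢 →* Module.End k V} {b : Module.Basis (Fin 2) k V}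

/-- coboundaries are ad-cocycles -/
theorem flcrd_adCobdry_mem (A : Module.End k V) : adCobdry r A ∈ flcrdX0 r := by
  refine ⟨fun g h => ?_, fun g => ?_⟩
  · have h1 : r (g * h) * A * r (g * h)⁻¹ = r g * (r h * A * r h⁻¹) * r g⁻¹ := by
      rw [map_mul, mul_inv_rev, map_mul]
      simp only [mul_assoc]
    simp only [adCobdry]
    rw [h1, mul_sub, sub_mul]
    abel
  · simp only [adCobdry]
    rw [map_sub, flcrd_trace_conj, sub_self]

theorem flcrd_adCobdry_sub (A B : Module.End k V) (g : 𝒢) :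
    adCobdry r (A - B) g = adCobdry r A g - adCobdry r B g := by
  simp only [adCobdry]
  rw [mul_sub, sub_mul]
  abel

variable (b) in
/-- `E v = π₁ v • e₂` -/
noncomputable def flcrdE : Module.End k V := LinearMap.smulRight (b.coord 0) (b 1)

theorem flcrdE_e1 : flcrdE b (b 0) = b 1 := by
  rw [flcrdE, LinearMap.smulRight_apply, Module.Basis.coord_apply, flcrd_repr_00, one_smul]

/-- `π₂ (∂A₀ g e₁) = 0` if `π₂ (A₀ e₁) = 0` -/
theorem flcrd_cobdry_e1 (hst : FlcrdStable r b) (A₀ : Module.End k V)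
    (h0 : b.repr (A₀ (b 0)) 1 = 0) (g : 𝒢) : b.repr (adCobdry r A₀ g (b 0)) 1 = 0 := by
  simp only [adCobdry]
  rw [LinearMap.sub_apply, Module.End.mul_apply, Module.End.mul_apply, flcrd_r_e1' hst g⁻¹,
    map_smul, map_sub, Finsupp.sub_apply, flcrd_pi2_r' hst, map_smul, Finsupp.smul_apply, h0,
    smul_zero, mul_zero, sub_zero]

/-- a cocycle which is Borel up to a coboundary is `c' + ∂(t E)` with `c' ∈ X₁` -/
theorem flcrd_borel (hst : FlcrdStable r b) {c : 𝒢 → Module.End k V} (hc : c ∈ flcrdX0 r)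
    (hB : ∃ A : Module.End k V, ∀ g : 𝒢, b.repr ((c g - adCobdry r A g) (b 0)) 1 = 0) :
    ∃ c' ∈ flcrdX1 r b, ∃ t : k, c = c' + adCobdry r (t • flcrdE b) := by
  obtain ⟨A, hA⟩ := hB
  refine ⟨c - adCobdry r (b.repr (A (b 0)) 1 • flcrdE b), ?_, b.repr (A (b 0)) 1, ?_⟩
  · rw [mem_flcrdX1]
    refine ⟨(flcrdX0 r).sub_mem hc (flcrd_adCobdry_mem _), fun g => ?_⟩
    have h0 : b.repr ((A - b.repr (A (b 0)) 1 • flcrdE b) (b 0)) 1 = 0 := by
      rw [LinearMap.sub_apply, LinearMap.smul_apply, flcrdE_e1, map_sub, map_smul,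
        Finsupp.sub_apply, Finsupp.smul_apply, flcrd_repr_11, smul_eq_mul, mul_one, sub_self]
    have h1 := flcrd_cobdry_e1 hst _ h0 g
    have h2 : (c - adCobdry r (b.repr (A (b 0)) 1 • flcrdE b)) g =
        (c g - adCobdry r A g) + adCobdry r (A - b.repr (A (b 0)) 1 • flcrdE b) g := by
      rw [flcrd_adCobdry_sub, Pi.sub_apply]
      abel
    rw [h2, LinearMap.add_apply, map_add, Finsupp.add_apply, hA g, h1, add_zero]
  · rw [sub_add_cancel]

end Borel

/-! ### the theorem -/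

section RedDev

variable {p : ℕ} [Fact p.Prime] {𝒢 : Type} [Group 𝒢] [Finite 𝒢]
  {k : Type} [Field k] [Finite k] {V : Type} [AddCommGroup V] [Module k V] [Module.Finite k V]

/-- **leaf R (a)**: the devissage along a stable line (linear algebra + cocycles; no
`TameKummerData`).  `e₁` spans `ℓ`, `π₂ : V → k` has kernel `ℓ`; `z g := π₂ (c g e₁)` is a cocycle
for `χ₂/χ₁`; if `z = 0` then `c g e₁ = x g • e₁` with `x` a homomorphism; if also `x = 0` then
`c g v = y g • π₂ v • e₁` with `y` a cocycle for `χ₁/χ₂`.  For the Borel count write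
`c = c₀ + ∂A`, `A = A₀ + t E` with `A₀ ℓ ⊆ ℓ` and `E` a fixed trace-zero endomorphism with
`E e₁ ∉ ℓ`: `c = (c₀ + ∂A₀) + t ∂E`. -/
theorem flc_red_devissage (hV : Module.finrank k V = 2) (r : 𝒢 →* Module.End k V)
    (ℓ : Submodule k V) (hℓ : IsStableLine r ℓ) :
    ∃ χ₁ χ₂ : 𝒢 →* kˣ,
      (∀ g, LinearMap.det (r g) = ((χ₁ g : kˣ) : k) * ((χ₂ g : kˣ) : k)) ∧
      (∀ g, ∀ v ∈ ℓ, r g v = ((χ₁ g : kˣ) : k) • v) ∧
      (∀ g v, r g v - ((χ₂ g : kˣ) : k) • v ∈ ℓ) ∧
      Nat.card {c : 𝒢 → Module.End k V // IsAdCocycle r c} ≤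
        Nat.card ↥(flcZ1 (flcChi (χ₂ / χ₁))) * Nat.card ↥(flcZ1 (flcChi (1 : 𝒢 →* kˣ))) *
          Nat.card ↥(flcZ1 (flcChi (χ₁ / χ₂))) ∧
      Nat.card {c : 𝒢 → Module.End k V // IsAdCocycle r c ∧ IsBorelUpToCobdry r ℓ c} ≤
        Nat.card k * Nat.card ↥(flcZ1 (flcChi (1 : 𝒢 →* kˣ))) *
          Nat.card ↥(flcZ1 (flcChi (χ₁ / χ₂))) := by
  classical
  obtain ⟨b, hb⟩ := flcrd_exists_basis hV ℓ hℓ.1
  have he1 : b 0 ∈ ℓ := (hb _).2 (flcrd_repr_01 b)
  have hst : FlcrdStable r b := fun g => (hb _).1 (hℓ.2 g _ he1)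
  haveI : Finite V := Module.finite_of_finite k
  haveI : Finite (Module.End k V) :=
    Finite.of_injective (fun f : Module.End k V => (f : V → V)) DFunLike.coe_injective
  -- the three steps
  have hs1 : Nat.card ↥(flcrdX0 r) ≤
      Nat.card ↥(flcrdX1 r b) * Nat.card ↥(flcZ1 (flcChi (flcrdU2 hst / flcrdU1 hst))) :=
    flcrd_card_le (flcrdEval b 1 (b 0)) (flcrdX0 r) (flcrdX1 r b) _
      (fun c hc => flcrd_step1 hst hc)
      (fun c hc h0 => AddSubgroup.mem_inf.2 ⟨hc, AddMonoidHom.mem_ker.2 h0⟩)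
  have hs2 : Nat.card ↥(flcrdX1 r b) ≤
      Nat.card ↥(flcrdX2 r b) * Nat.card ↥(flcZ1 (flcChi (1 : 𝒢 →* kˣ))) :=
    flcrd_card_le (flcrdEval b 0 (b 0)) (flcrdX1 r b) (flcrdX2 r b) _
      (fun c hc => flcrd_step2 hst hc)
      (fun c hc h0 => AddSubgroup.mem_inf.2 ⟨hc, AddMonoidHom.mem_ker.2 h0⟩)
  have hs3 : Nat.card ↥(flcrdX2 r b) ≤
      Nat.card ↥(flcZ1 (flcChi (flcrdU1 hst / flcrdU2 hst))) := by
    have h1 := flcrd_card_le (flcrdEval b 0 (b 1)) (flcrdX2 r b) ⊥ _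
      (fun c hc => flcrd_step3 hst hc)
      (fun c hc h0 => AddSubgroup.mem_bot.2 (flcrd_step3_inj hc h0))
    rwa [AddSubgroup.card_bot, one_mul] at h1
  have hX1 : Nat.card ↥(flcrdX1 r b) ≤ Nat.card ↥(flcZ1 (flcChi (1 : 𝒢 →* kˣ))) *
      Nat.card ↥(flcZ1 (flcChi (flcrdU1 hst / flcrdU2 hst))) := by
    calc Nat.card ↥(flcrdX1 r b)
        ≤ Nat.card ↥(flcrdX2 r b) * Nat.card ↥(flcZ1 (flcChi (1 : 𝒢 →* kˣ))) := hs2
      _ ≤ Nat.card ↥(flcZ1 (flcChi (flcrdU1 hst / flcrdU2 hst))) *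
          Nat.card ↥(flcZ1 (flcChi (1 : 𝒢 →* kˣ))) := Nat.mul_le_mul_right _ hs3
      _ = _ := mul_comm _ _
  refine ⟨flcrdU1 hst, flcrdU2 hst, fun g => ?_, fun g v hv => ?_, fun g v => ?_, ?_, ?_⟩
  · rw [flcrdU1_coe, flcrdU2_coe]
    exact flcrd_det hst g
  · have h1 : v = b.repr v 0 • b 0 := by
      conv_lhs => rw [flcrd_decomp b v, (hb v).1 hv, zero_smul, add_zero]
    rw [flcrdU1_coe]
    conv_lhs => rw [h1, map_smul, flcrd_r_e1' hst g, smul_comm, ← h1]
  · rw [hb, map_sub, map_smul, Finsupp.sub_apply, Finsupp.smul_apply, flcrd_pi2_r' hst,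
      flcrdU2_coe, smul_eq_mul, sub_self]
  · have h0 : Nat.card {c : 𝒢 → Module.End k V // IsAdCocycle r c} = Nat.card ↥(flcrdX0 r) :=
      rfl
    rw [h0]
    calc Nat.card ↥(flcrdX0 r)
        ≤ Nat.card ↥(flcrdX1 r b) * Nat.card ↥(flcZ1 (flcChi (flcrdU2 hst / flcrdU1 hst))) := hs1
      _ ≤ (Nat.card ↥(flcZ1 (flcChi (1 : 𝒢 →* kˣ))) *
            Nat.card ↥(flcZ1 (flcChi (flcrdU1 hst / flcrdU2 hst)))) *
          Nat.card ↥(flcZ1 (flcChi (flcrdU2 hst / flcrdU1 hst))) := Nat.mul_le_mul_right _ hX1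
      _ = _ := by ring
  · -- the Borel count
    have hex : ∀ y : {c : 𝒢 → Module.End k V // IsAdCocycle r c ∧ IsBorelUpToCobdry r ℓ c},
        ∃ x : ↥(flcrdX1 r b) × k, ((x.1 : 𝒢 → Module.End k V) +
          adCobdry r (x.2 • flcrdE b)) = (y : 𝒢 → Module.End k V) := by
      rintro ⟨c, hc, A, -, hA⟩
      obtain ⟨c', hc', t, hct⟩ := flcrd_borel hst (c := c) hc
        ⟨A, fun g => (hb _).1 (hA g _ he1)⟩
      exact ⟨(⟨c', hc'⟩, t), hct.symm⟩
    choose F hF using hex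
    have hFinj : Function.Injective F := by
      intro y y' h
      apply Subtype.ext
      rw [← hF y, ← hF y', h]
    calc Nat.card {c : 𝒢 → Module.End k V // IsAdCocycle r c ∧ IsBorelUpToCobdry r ℓ c}
        ≤ Nat.card (↥(flcrdX1 r b) × k) := Nat.card_le_card_of_injective F hFinj
      _ = Nat.card ↥(flcrdX1 r b) * Nat.card k := Nat.card_prod _ _
      _ ≤ (Nat.card ↥(flcZ1 (flcChi (1 : 𝒢 →* kˣ))) *
            Nat.card ↥(flcZ1 (flcChi (flcrdU1 hst / flcrdU2 hst)))) * Nat.card k :=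
          Nat.mul_le_mul_right _ hX1
      _ = _ := by ring

end RedDev

end Fermat.Agent.S56
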