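import Mathlib

/-!
# S56 / FLAT / CNT, leaf F (row 446): fixed points of a semilinear map

`K` a finite field of characteristic `p`, `T : X →+ X` with `T (a • x) = a ^ (p^m) • T x`, `Y ≤ X` a
finite-dimensional subspace: `#{y ∈ Y | T y = y} ≤ (p^m) ^ dim_K Y`.
Statement of `flc_semilinear` VERBATIM from `Flat/Cnt/Spec/F.lean` (helper2).  Pure Mathlib.
-/

set_option autoImplicit false
set_option linter.unusedVariables false
set_option linter.unusedSectionVars false
set_option linter.style.haveILetI false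

namespace Fermat.Agent.S56

open Polynomial

section Semilinear

variable {K : Type*} [Field K]

/-- the subfield `K₀ = {a | a ^ q = a}`, `q = p ^ m` -/
def flcsFix (p : ℕ) [Fact p.Prime] [CharP K p] (m : ℕ) : Subfield K :=
  RingHom.eqLocusField (iterateFrobenius K p m) (RingHom.id K)

theorem mem_flcsFix (p : ℕ) [Fact p.Prime] [CharP K p] (m : ℕ) (a : K) :
    a ∈ flcsFix (K := K) p m ↔ a ^ (p ^ m) = a := by
  unfold flcsFix
  show iterateFrobenius K p m a = RingHom.id K a ↔ _
  rw [iterateFrobenius_def, RingHom.id_apply]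

/-- `#K₀ ≤ q` -/
theorem flcs_card_fix_le [Finite K] (p : ℕ) [Fact p.Prime] [CharP K p] (m : ℕ) (hm : 0 < m) :
    Nat.card ↥(flcsFix (K := K) p m) ≤ p ^ m := by
  classical
  have hp : p.Prime := Fact.out
  have hq : 1 < p ^ m := Nat.one_lt_pow hm.ne' hp.one_lt
  have hne : (X ^ (p ^ m) - X : K[X]) ≠ 0 := FiniteField.X_pow_card_sub_X_ne_zero K hq
  have hdeg : (X ^ (p ^ m) - X : K[X]).natDegree = p ^ m :=
    FiniteField.X_pow_card_sub_X_natDegree_eq K hq
  haveI : Fintype ↥(flcsFix (K := K) p m) := Fintype.ofFinite _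
  rw [Nat.card_eq_fintype_card]
  calc Fintype.card ↥(flcsFix (K := K) p m)
      ≤ ((X ^ (p ^ m) - X : K[X]).roots.toFinset).card := by
        rw [← Finset.card_univ]
        refine Finset.card_le_card_of_injOn (fun a => (a : K)) ?_ ?_
        · intro a _
          rw [Finset.mem_coe, Multiset.mem_toFinset, mem_roots hne]
          simp only [IsRoot.def, eval_sub, eval_pow, eval_X]
          rw [(mem_flcsFix p m (a : K)).mp a.2, sub_self]
        · intro a _ b _ hab
          exact Subtype.ext hab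
    _ ≤ Multiset.card (X ^ (p ^ m) - X : K[X]).roots := Multiset.toFinset_card_le _
    _ ≤ (X ^ (p ^ m) - X : K[X]).natDegree := card_roots' _
    _ = p ^ m := hdeg

variable (p : ℕ) [Fact p.Prime] [CharP K p] (m : ℕ)
  {X : Type*} [AddCommGroup X] [Module K X] (T : X →+ X)
  (hT : ∀ (a : K) (x : X), T (a • x) = a ^ (p ^ m) • T x)

include hT in
/-- fixed vectors independent over `K₀` are independent over `K` -/
theorem flcs_linearIndependent : ∀ (n : ℕ) (v : Fin n → X), (∀ i, T (v i) = v i) →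
    LinearIndependent ↥(flcsFix (K := K) p m) v → LinearIndependent K v := by
  intro n
  induction n with
  | zero => intro v _ _; exact linearIndependent_empty_type
  | succ n ih =>
    intro v hv hli
    -- write `v = Fin.cons x w`
    obtain ⟨x, w, rfl⟩ : ∃ x w, v = Fin.cons x w := ⟨v 0, Fin.tail v, (Fin.cons_self_tail v).symm⟩
    rw [linearIndependent_finCons] at hli ⊢
    have hw : ∀ i, T (w i) = w i := fun i => by
      have := hv i.succ
      rwa [Fin.cons_succ] at this
    have hx : T x = x := by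
      have := hv 0
      rwa [Fin.cons_zero] at this
    have hwK : LinearIndependent K w := ih w hw hli.1
    refine ⟨hwK, fun hmem => hli.2 ?_⟩
    obtain ⟨b, hb⟩ := (Submodule.mem_span_range_iff_exists_fun K).mp hmem
    -- apply `T`
    have hTb : ∑ i, (b i) ^ (p ^ m) • w i = x := by
      have h1 := congrArg T hb
      rw [map_sum, hx] at h1
      rw [← h1]
      refine Finset.sum_congr rfl fun i _ => ?_
      rw [hT, hw]
    have hzero : ∑ i, ((b i) ^ (p ^ m) - b i) • w i = 0 := by
      simp only [sub_smul, Finset.sum_sub_distrib]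
      rw [hTb, hb, sub_self]
    have hb0 : ∀ i, (b i) ^ (p ^ m) - b i = 0 := Fintype.linearIndependent_iff.mp hwK _ hzero
    have hbmem : ∀ i, b i ∈ flcsFix (K := K) p m := fun i =>
      (mem_flcsFix p m (b i)).mpr (sub_eq_zero.mp (hb0 i))
    rw [Submodule.mem_span_range_iff_exists_fun]
    exact ⟨fun i => ⟨b i, hbmem i⟩, hb⟩

/-- the fixed vectors in `Y` as a `K₀`-subspace -/
def flcsFixed (Y : Submodule K X) : Submodule ↥(flcsFix (K := K) p m) X where
  carrier := {y | y ∈ Y ∧ T y = y}
  add_mem' := by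
    rintro a b ⟨ha, ha'⟩ ⟨hb, hb'⟩
    exact ⟨Y.add_mem ha hb, by rw [map_add, ha', hb']⟩
  zero_mem' := ⟨Y.zero_mem, map_zero T⟩
  smul_mem' := by
    rintro ⟨c, hc⟩ y ⟨hy, hy'⟩
    refine ⟨Y.smul_mem c hy, ?_⟩
    show T (c • y) = c • y
    rw [hT, hy', (mem_flcsFix p m c).mp hc]

end Semilinear

/-- **leaf F.** `T` additive with `T (a • x) = a ^ (p^m) • T x`, `Y` a finite-dimensional subspace:
at most `(p^m) ^ dim Y` fixed points of `T` in `Y`. -/
theorem flc_semilinear {K : Type*} [Field K] [Finite K] (p : ℕ) [Fact p.Prime] [CharP K p]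
    (m : ℕ) (hm : 0 < m) {X : Type*} [AddCommGroup X] [Module K X] (T : X →+ X)
    (hT : ∀ (a : K) (x : X), T (a • x) = a ^ (p ^ m) • T x)
    (Y : Submodule K X) [Module.Finite K ↥Y] :
    Nat.card {y : X // y ∈ Y ∧ T y = y} ≤ (p ^ m) ^ Module.finrank K ↥Y := by
  classical
  have hp : p.Prime := Fact.out
  set K₀ := flcsFix (K := K) p m with hK₀
  set V₀ := flcsFixed p m T hT Y with hV₀
  haveI : Finite ↥Y := Module.finite_of_finite K
  haveI : Finite ↥V₀ := Finite.of_injective (fun y : ↥V₀ => (⟨y.1, y.2.1⟩ : ↥Y))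
    (fun a b h => Subtype.ext (congrArg (fun z : ↥Y => (z : X)) h))
  haveI : Module.Finite ↥K₀ ↥V₀ := Module.Finite.of_finite
  have hcard : Nat.card {y : X // y ∈ Y ∧ T y = y} = Nat.card ↥V₀ := rfl
  rw [hcard, Module.natCard_eq_pow_finrank (K := ↥K₀) (V := ↥V₀)]
  set n := Module.finrank ↥K₀ ↥V₀ with hn
  -- a `K₀`-basis of the fixed vectors is `K`-independent
  let b := Module.finBasis ↥K₀ ↥V₀
  have hli₀ : LinearIndependent ↥K₀ (fun i => ((b i : ↥V₀) : X)) :=
    b.linearIndependent.map' V₀.subtype (Submodule.ker_subtype V₀)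
  have hfix : ∀ i, T ((b i : ↥V₀) : X) = ((b i : ↥V₀) : X) := fun i => (b i).2.2
  have hliK : LinearIndependent K (fun i => ((b i : ↥V₀) : X)) :=
    flcs_linearIndependent p m T hT n _ hfix hli₀
  have hliY : LinearIndependent K (fun i => (⟨((b i : ↥V₀) : X), (b i).2.1⟩ : ↥Y)) := by
    apply LinearIndependent.of_comp Y.subtype
    exact hliK
  have hle : n ≤ Module.finrank K ↥Y := by
    have := hliY.fintype_card_le_finrank
    rwa [Fintype.card_fin] at this
  calc Nat.card ↥K₀ ^ n ≤ (p ^ m) ^ n := Nat.pow_le_pow_left (flcs_card_fix_le p m hm) n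
    _ ≤ (p ^ m) ^ Module.finrank K ↥Y := Nat.pow_le_pow_right (Nat.pos_of_ne_zero (pow_ne_zero m hp.ne_zero)) hle

end Fermat.Agent.S56
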