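import Fermat.Agent.S56.Flat.Cnt.Defs

/-! # S56 / FLAT / CNT: leaf T (the tame bound), helper12.

`flc_tame` : cocycles of `𝒢` in `N` vanishing on the wild inertia `P` are at most `#N`;
`flc_card_Z1_le_abstract` : `#Z¹(𝒢, N) ≤ #N · #Hom_𝒢(P, N)`. -/

set_option autoImplicit false
set_option linter.unusedVariables false
set_option linter.unusedSectionVars false
set_option linter.style.haveILetI false

namespace Fermat.Agent.S56

open Polynomial

/-- `#G = #ker f · #range f` for an additive homomorphism -/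
theorem flct_card_eq_ker_mul_range {G H : Type*} [AddCommGroup G] [AddCommGroup H]
    (f : G →+ H) : Nat.card G = Nat.card ↥f.ker * Nat.card ↥f.range := by
  rw [AddSubgroup.card_eq_card_quotient_mul_card_addSubgroup f.ker,
    Nat.card_congr (QuotientAddGroup.quotientKerEquivRange f).toEquiv, mul_comm]

/-- `#G ≤ #ker g · #range g` when `ker f` injects into `ker g` and `range f ≤ range g` -/
theorem flct_card_le_of_ker_range {G H M : Type*} [AddCommGroup G] [AddCommGroup H]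
    [AddCommGroup M] [Finite G] [Finite M] (f : G →+ H) (g : M →+ H)
    (e : ↥f.ker → ↥g.ker) (he : Function.Injective e) (hr : f.range ≤ g.range) :
    Nat.card G ≤ Nat.card M := by
  haveI : Finite ↥g.range := Finite.of_surjective g.rangeRestrict g.rangeRestrict_surjective
  rw [flct_card_eq_ker_mul_range f, flct_card_eq_ker_mul_range g]
  exact Nat.mul_le_mul (Nat.card_le_card_of_injective e he) (AddSubgroup.card_le_of_le hr)

section Coc

variable {𝒢 : Type} [Group 𝒢] {N : Type*} [AddCommGroup N] (ρ : 𝒢 →* AddMonoid.End N)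

theorem flct_map_one {c : 𝒢 → N} (hc : c ∈ flcZ1 ρ) : c 1 = 0 := by
  have h := hc 1 1
  rw [mul_one, map_one] at h
  simpa using h

theorem flct_map_pow_eq_zero {c : 𝒢 → N} (hc : c ∈ flcZ1 ρ) (φ : 𝒢) (h : c φ = 0) (n : ℕ) :
    c (φ ^ n) = 0 := by
  induction n with
  | zero => rw [pow_zero]; exact flct_map_one ρ hc
  | succ k ih => rw [pow_succ, hc, ih, h, map_zero, add_zero]

theorem flct_map_inv {c : 𝒢 → N} (hc : c ∈ flcZ1 ρ) (g : 𝒢) : c g + ρ g (c g⁻¹) = 0 := by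
  rw [← hc, mul_inv_cancel, flct_map_one ρ hc]

/-- cocycles vanishing on `P` -/
def flctZP (P : Subgroup 𝒢) : AddSubgroup (𝒢 → N) where
  carrier := {c | c ∈ flcZ1 ρ ∧ ∀ x ∈ P, c x = 0}
  zero_mem' := ⟨(flcZ1 ρ).zero_mem, fun _ _ => rfl⟩
  add_mem' := by
    rintro c c' ⟨h1, h2⟩ ⟨h1', h2'⟩
    refine ⟨(flcZ1 ρ).add_mem h1 h1', fun x hx => ?_⟩
    rw [Pi.add_apply, h2 x hx, h2' x hx, add_zero]
  neg_mem' := by
    rintro c ⟨h1, h2⟩
    refine ⟨(flcZ1 ρ).neg_mem h1, fun x hx => ?_⟩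
    rw [Pi.neg_apply, h2 x hx, neg_zero]

theorem mem_flctZP {P : Subgroup 𝒢} {c : 𝒢 → N} :
    c ∈ flctZP ρ P ↔ c ∈ flcZ1 ρ ∧ ∀ x ∈ P, c x = 0 := Iff.rfl

/-- a cocycle vanishing on `P` is right `P`-invariant -/
theorem flct_mul_right {P : Subgroup 𝒢} {c : 𝒢 → N} (hc : c ∈ flctZP ρ P) (g : 𝒢) {x : 𝒢}
    (hx : x ∈ P) : c (g * x) = c g := by
  rw [hc.1, hc.2 x hx, map_zero, add_zero]

/-- restriction of functions to a subgroup -/
def flctRes (I : Subgroup 𝒢) : (𝒢 → N) →+ (↥I → N) where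
  toFun c := fun s => c (s : 𝒢)
  map_zero' := rfl
  map_add' _ _ := rfl

@[simp] theorem flctRes_apply (I : Subgroup 𝒢) (c : 𝒢 → N) (s : ↥I) :
    flctRes I c s = c (s : 𝒢) := rfl

/-- the coboundary map restricted to a subgroup -/
def flctCob (I : Subgroup 𝒢) : N →+ (↥I → N) where
  toFun n := fun s => ρ (s : 𝒢) n - n
  map_zero' := by
    funext s
    simp
  map_add' a b := by
    funext s
    simp only [map_add, Pi.add_apply]
    abel

@[simp] theorem flctCob_apply (I : Subgroup 𝒢) (n : N) (s : ↥I) :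
    flctCob ρ I n s = ρ (s : 𝒢) n - n := rfl

end Coc

section Avg

variable {𝒢 : Type} [Group 𝒢] [Finite 𝒢] (P I : Subgroup 𝒢) (hPI : P ≤ I)
  (m : ℕ) (hm : Nat.card ↥I = m * Nat.card ↥P)
  (p : ℕ) [Fact p.Prime] (hmp : m.Coprime p) {N : Type*} [AddCommGroup N]
  (hN : ∀ n : N, p • n = 0) (ρ : 𝒢 →* AddMonoid.End N)

include hPI hm in
theorem flct_card_quot : Nat.card (↥I ⧸ P.subgroupOf I) = m := by
  have h1 := Subgroup.card_eq_card_quotient_mul_card_subgroup (P.subgroupOf I)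
  have h2 : Nat.card ↥(P.subgroupOf I) = Nat.card ↥P :=
    Nat.card_congr (Subgroup.subgroupOfEquivOfLe hPI).toEquiv
  rw [h2, hm] at h1
  exact (Nat.eq_of_mul_eq_mul_right Nat.card_pos h1).symm

include hmp hN in
theorem flct_exists_inv : ∃ a : ℕ, ∀ x : N, (a * m) • x = x := by
  obtain ⟨a, -, ha⟩ := Nat.exists_mul_mod_eq_one_of_coprime hmp (Fact.out : p.Prime).one_lt
  refine ⟨a, fun x => ?_⟩
  have h := Nat.div_add_mod (m * a) p
  rw [ha] at h
  rw [mul_comm a m, ← h, add_smul, mul_smul, one_smul, hN, zero_add]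

include hPI hm hmp hN in
/-- averaging over `I/P`: a cocycle vanishing on `P` is a coboundary on `I` -/
theorem flct_res_mem_range {c : 𝒢 → N} (hc : c ∈ flctZP ρ P) :
    flctRes I c ∈ (flctCob ρ I).range := by
  classical
  haveI : Fintype (↥I ⧸ P.subgroupOf I) := Fintype.ofFinite _
  obtain ⟨a, ha⟩ := flct_exists_inv m p hmp hN
  set S : N := ∑ q : ↥I ⧸ P.subgroupOf I, c ((q.out : ↥I) : 𝒢) with hS
  -- constancy on cosets
  have hcos : ∀ x y : ↥I, (QuotientGroup.mk x : ↥I ⧸ P.subgroupOf I) = QuotientGroup.mk y →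
      c (x : 𝒢) = c (y : 𝒢) := by
    intro x y hxy
    have h1 : x⁻¹ * y ∈ P.subgroupOf I := QuotientGroup.eq.mp hxy
    have h2 : ((x : 𝒢))⁻¹ * (y : 𝒢) ∈ P := by
      simpa [Subgroup.mem_subgroupOf] using h1
    have h3 := flct_mul_right ρ hc (x : 𝒢) h2
    rw [mul_inv_cancel_left] at h3
    exact h3.symm
  have key : ∀ s : ↥I, m • c (s : 𝒢) = S - ρ (s : 𝒢) S := by
    intro s
    have e1 : ∑ q : ↥I ⧸ P.subgroupOf I, c (((s • q).out : ↥I) : 𝒢) = S :=
      Equiv.sum_comp (MulAction.toPerm s) (fun q : ↥I ⧸ P.subgroupOf I => c ((q.out : ↥I) : 𝒢))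
    have e2 : ∀ q : ↥I ⧸ P.subgroupOf I,
        c (((s • q).out : ↥I) : 𝒢) = c (s : 𝒢) + ρ (s : 𝒢) (c ((q.out : ↥I) : 𝒢)) := by
      intro q
      have h1 : c (((s • q).out : ↥I) : 𝒢) = c ((s * q.out : ↥I) : 𝒢) := by
        apply hcos
        rw [QuotientGroup.out_eq']
        conv_lhs => rw [← QuotientGroup.out_eq' q]
        rfl
      rw [h1, Subgroup.coe_mul, hc.1]
    rw [Finset.sum_congr rfl (fun q _ => e2 q), Finset.sum_add_distrib, Finset.sum_const,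
      Finset.card_univ, ← Nat.card_eq_fintype_card, flct_card_quot P I hPI m hm,
      ← map_sum] at e1
    exact eq_sub_of_add_eq e1
  refine ⟨-(a • S), ?_⟩
  funext s
  rw [flctCob_apply, flctRes_apply, map_neg, map_nsmul, ← ha (c (s : 𝒢)), mul_smul, key s,
    smul_sub]
  abel

end Avg

section T

variable {𝒢 : Type} [Group 𝒢] [Finite 𝒢] (P I : Subgroup 𝒢) [P.Normal] [I.Normal] (hPI : P ≤ I)
  (φ : 𝒢) (hgen : ∀ g : 𝒢, ∃ n : ℕ, g * φ ^ n ∈ I) (m : ℕ) (hm : Nat.card ↥I = m * Nat.card ↥P)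
  (p : ℕ) [Fact p.Prime] (hmp : m.Coprime p) {N : Type*} [AddCommGroup N] [Finite N]
  (hN : ∀ n : N, p • n = 0) (ρ : 𝒢 →* AddMonoid.End N) (hP : ∀ x ∈ P, ρ x = 1)

include hgen in
/-- a cocycle vanishing on `I` and at `φ` vanishes -/
theorem flct_eq_zero_of_res {c : 𝒢 → N} (hc : c ∈ flcZ1 ρ) (hI : ∀ s ∈ I, c s = 0)
    (hφ : c φ = 0) : c = 0 := by
  funext g
  obtain ⟨n, hn⟩ := hgen g
  have h := hI _ hn
  rw [hc, flct_map_pow_eq_zero ρ hc φ hφ, map_zero, add_zero] at h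
  exact h

/-- a cocycle vanishing on the normal subgroup `I` has `I`-invariant values -/
theorem flct_invariant_of_res {c : 𝒢 → N} (hc : c ∈ flcZ1 ρ) (hI : ∀ s ∈ I, c s = 0)
    (g : 𝒢) {s : 𝒢} (hs : s ∈ I) : ρ s (c g) = c g := by
  have h1 : c (s * g) = ρ s (c g) := by rw [hc, hI s hs, zero_add]
  have h2 : g⁻¹ * s * g ∈ I := by
    have := (inferInstance : I.Normal).conj_mem s hs g⁻¹
    rwa [inv_inv] at this
  have h3 : c (g * (g⁻¹ * s * g)) = c g := by rw [hc, hI _ h2, map_zero, add_zero]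
  rw [← h1, ← h3]
  congr 1
  group

include hPI hgen hm hmp hN hP in
/-- **leaf T (a).** Cocycles vanishing on `P`: at most `#N`.
(`c` factors through `𝒢/P`; on `I`: `c σ = σ n - n` with `n = -(1/m) Σ_{q ∈ I/P} c(q.out)`
(averaging, `m` invertible on `N`); `c - ∂n` vanishes on `I`, has values in `N^I` and is determined
by its value at `φ`; so `#{c} ≤ #(N/N^I) · #N^I`.) -/
theorem flc_tame :
    Nat.card {c : 𝒢 → N // c ∈ flcZ1 ρ ∧ ∀ x ∈ P, c x = 0} ≤ Nat.card N := by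
  show Nat.card ↥(flctZP ρ P) ≤ Nat.card N
  -- the restriction to `I` on `Z_P`
  let f : ↥(flctZP ρ P) →+ (↥I → N) := (flctRes I).comp (flctZP ρ P).subtype
  have hker : ∀ c : ↥f.ker, ∀ s ∈ I, (c : ↥(flctZP ρ P)).1 s = 0 := by
    intro c s hs
    have := c.2
    rw [AddMonoidHom.mem_ker] at this
    exact congr_fun this ⟨s, hs⟩
  refine flct_card_le_of_ker_range f (flctCob ρ I)
    (fun c => ⟨(c : ↥(flctZP ρ P)).1 φ, ?_⟩) ?_ ?_
  · rw [AddMonoidHom.mem_ker]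
    funext s
    rw [flctCob_apply, flct_invariant_of_res I ρ c.1.2.1 (hker c) φ s.2, sub_self]
    rfl
  · intro c c' hcc
    have h0 : (c : ↥(flctZP ρ P)).1 φ = (c' : ↥(flctZP ρ P)).1 φ := congr_arg Subtype.val hcc
    have hd : ((c : ↥(flctZP ρ P)).1 - (c' : ↥(flctZP ρ P)).1) = 0 := by
      apply flct_eq_zero_of_res I φ hgen ρ ((flcZ1 ρ).sub_mem c.1.2.1 c'.1.2.1)
      · intro s hs
        rw [Pi.sub_apply, hker c s hs, hker c' s hs, sub_zero]
      · rw [Pi.sub_apply, h0, sub_self]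
    exact Subtype.ext (Subtype.ext (sub_eq_zero.mp hd))
  · rintro _ ⟨c, rfl⟩
    exact flct_res_mem_range P I hPI m hm p hmp hN ρ c.2

include hPI hgen hm hmp hN hP in
/-- **leaf T (b).** `#Z¹(𝒢, N) ≤ #N · #Hom_𝒢(P, N)`: restriction to `P` is a homomorphism
`Z¹(𝒢, N) → Hom_𝒢(P, N)` (`c (g x g⁻¹) = ρ g (c x)` because `P` acts trivially) with kernel the
cocycles vanishing on `P`. -/
theorem flc_card_Z1_le_abstract :
    Nat.card ↥(flcZ1 ρ) ≤ Nat.card N * Nat.card ↥(flcHomG P ρ) := by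
  let f : ↥(flcZ1 ρ) →+ (↥P → N) := (flctRes P).comp (flcZ1 ρ).subtype
  rw [flct_card_eq_ker_mul_range f]
  refine Nat.mul_le_mul ?_ (AddSubgroup.card_le_of_le ?_)
  · refine le_trans (Nat.card_le_card_of_injective
      (fun c : ↥f.ker => (⟨(c : ↥(flcZ1 ρ)).1, c.1.2, fun x hx => ?_⟩ :
        {c : 𝒢 → N // c ∈ flcZ1 ρ ∧ ∀ x ∈ P, c x = 0})) ?_)
      (flc_tame P I hPI φ hgen m hm p hmp hN ρ hP)
    · have := c.2
      rw [AddMonoidHom.mem_ker] at this
      exact congr_fun this ⟨x, hx⟩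
    · intro c c' hcc
      have h : (c : ↥(flcZ1 ρ)).1 = (c' : ↥(flcZ1 ρ)).1 := congrArg (fun z => z.1) hcc
      exact Subtype.ext (Subtype.ext h)
  · rintro _ ⟨c, rfl⟩
    have hc := c.2
    refine ⟨fun x y => ?_, fun g x => ?_⟩
    · show c.1 ((x * y : ↥P) : 𝒢) = c.1 (x : 𝒢) + c.1 (y : 𝒢)
      rw [Subgroup.coe_mul, hc, hP _ x.2]
      rfl
    · show c.1 (g * (x : 𝒢) * g⁻¹) = ρ g (c.1 (x : 𝒢))
      rw [hc, hc, map_mul, hP _ x.2, mul_one, add_right_comm, flct_map_inv ρ hc, zero_add]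

end T

end Fermat.Agent.S56
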