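import Fermat.Agent.S56.Flat.Cnt.Defs

/-! # S56 / FLAT / CNT: leaf `L` (the spaces `flcWab a b`)

`flcWab a b` = additive `Λ : k → kF` with `Λ (a c) = b Λ c`.

* `flcWab_aeval_mul` : `Λ (Q(a) c) = Q(b) Λ c` for `Q ∈ ℤ[X]`.
* `flcWab_finrank_le_adjoin` : `dim_kF (flcWab a b) ≤ [k : 𝔽_p(a)]`.
* `flcWab_card_le`, `flcWab_card_le_half`, `flcWab_aeval_iff` : the three statements of the leaf.
-/

set_option autoImplicit false
set_option linter.unusedVariables false
set_option linter.unusedSectionVars false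
set_option linter.style.haveILetI false

namespace Fermat.Agent.S56

open Polynomial IntermediateField

section Lgen

variable {k : Type*} [Field k] {kF : Type*} [Field kF]

theorem flcWab_pow_mul {a : k} {b : kF} {Λ : k →+ kF} (hΛ : Λ ∈ flcWab a b) (n : ℕ) (c : k) :
    Λ (a ^ n * c) = b ^ n * Λ c := by
  induction n generalizing c with
  | zero => simp
  | succ n ih =>
    rw [pow_succ, mul_assoc, ih, hΛ c, pow_succ, mul_assoc]

theorem flcWab_aeval_mul {a : k} {b : kF} {Λ : k →+ kF} (hΛ : Λ ∈ flcWab a b) (Q : ℤ[X])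
    (c : k) : Λ (aeval a Q * c) = aeval b Q * Λ c := by
  induction Q using Polynomial.induction_on' with
  | add P Q hP hQ => simp only [map_add, add_mul, hP, hQ]
  | monomial n z =>
    rw [aeval_monomial, aeval_monomial, mul_assoc, mul_assoc, algebraMap_int_eq,
      algebraMap_int_eq, eq_intCast, eq_intCast, ← zsmul_eq_mul, map_zsmul,
      flcWab_pow_mul hΛ, zsmul_eq_mul]

/-- **leaf L (c).** -/
theorem flcWab_aeval_iff' (a : k) (b : kF) (h : flcWab a b ≠ ⊥) (Q : ℤ[X]) :
    aeval a Q = 0 ↔ aeval b Q = 0 := by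
  obtain ⟨Λ, hΛ, hne⟩ := Submodule.exists_mem_ne_zero_of_ne_bot h
  have hc : ∃ c₀, Λ c₀ ≠ 0 := by
    by_contra hcon
    push Not at hcon
    exact hne (AddMonoidHom.ext hcon)
  obtain ⟨c₀, hc₀⟩ := hc
  constructor
  · intro h0
    have := flcWab_aeval_mul hΛ Q c₀
    rw [h0, zero_mul, map_zero] at this
    rcases mul_eq_zero.mp this.symm with h1 | h1
    · exact h1
    · exact absurd h1 hc₀
  · intro h0
    by_contra hne0
    have := flcWab_aeval_mul hΛ Q ((aeval a Q)⁻¹ * c₀)
    rw [h0, zero_mul, ← mul_assoc, mul_inv_cancel₀ hne0, one_mul] at this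
    exact hc₀ this

end Lgen

section L

variable {k : Type*} [Field k] [Finite k] {kF : Type*} [Field kF] [Finite kF] (p : ℕ)
  [Fact p.Prime] [CharP k p] [CharP kF p]

theorem flcWab_mem_adjoin_exists (a : k) :
    letI : Algebra (ZMod p) k := ZMod.algebra k p
    ∀ x ∈ (ZMod p)⟮a⟯, ∃ Q : ℤ[X], aeval a Q = x := by
  letI : Algebra (ZMod p) k := ZMod.algebra k p
  intro x hx
  have halg : IsAlgebraic (ZMod p) a := Algebra.IsAlgebraic.isAlgebraic a
  have h1 : x ∈ ((ZMod p)⟮a⟯).toSubalgebra := hx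
  rw [IntermediateField.adjoin_simple_toSubalgebra_of_isAlgebraic halg,
    Algebra.adjoin_singleton_eq_range_aeval] at h1
  obtain ⟨P, hP⟩ := h1
  obtain ⟨Q, hQ⟩ := Polynomial.map_surjective (Int.castRingHom (ZMod p))
    ZMod.intCast_surjective P
  refine ⟨Q, ?_⟩
  rw [← hP, ← hQ]
  have := Polynomial.aeval_map_algebraMap (A := ZMod p) (B := k) a Q
  rw [← this]
  rfl

theorem flcWab_finrank_le_adjoin (a : k) (b : kF) :
    letI : Algebra (ZMod p) k := ZMod.algebra k p
    Module.finrank kF ↥(flcWab a b) ≤ Module.finrank (ZMod p)⟮a⟯ k := by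
  letI : Algebra (ZMod p) k := ZMod.algebra k p
  let B := Module.finBasis (ZMod p)⟮a⟯ k
  let ev : ↥(flcWab a b) →ₗ[kF] (Fin (Module.finrank (ZMod p)⟮a⟯ k) → kF) :=
    { toFun := fun Λ i => (Λ : k →+ kF) (B i)
      map_add' := fun Λ Λ' => by
        ext i
        rfl
      map_smul' := fun x Λ => by
        ext i
        rfl }
  have hinj : Function.Injective ev := by
    rw [injective_iff_map_eq_zero]
    intro Λ hΛ
    apply Subtype.ext
    apply AddMonoidHom.ext
    intro x
    show (Λ : k →+ kF) x = 0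
    rw [← B.sum_repr x, map_sum]
    apply Finset.sum_eq_zero
    intro i _
    obtain ⟨Q, hQ⟩ := flcWab_mem_adjoin_exists p a (B.repr x i) (B.repr x i).2
    have h0 : (Λ : k →+ kF) (B i) = 0 := congrFun hΛ i
    show (Λ : k →+ kF) ((B.repr x i) • B i) = 0
    rw [show (B.repr x i) • B i = ((B.repr x i : (ZMod p)⟮a⟯) : k) * B i from rfl, ← hQ,
      flcWab_aeval_mul Λ.2, h0, mul_zero]
  have := LinearMap.finrank_le_finrank_of_injective hinj
  simpa using this

theorem flcWab_card_eq_pow (a : k) :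
    letI : Algebra (ZMod p) k := ZMod.algebra k p
    Nat.card k = p ^ (Module.finrank (ZMod p) (ZMod p)⟮a⟯ * Module.finrank (ZMod p)⟮a⟯ k) := by
  letI : Algebra (ZMod p) k := ZMod.algebra k p
  rw [Module.finrank_mul_finrank (ZMod p) (ZMod p)⟮a⟯ k,
    Module.natCard_eq_pow_finrank (K := ZMod p) (V := k), Nat.card_zmod]

theorem flcWab_two_le_finrank_adjoin (a : k) (ha : a ^ p ≠ a) :
    letI : Algebra (ZMod p) k := ZMod.algebra k p
    2 ≤ Module.finrank (ZMod p) (ZMod p)⟮a⟯ := by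
  letI : Algebra (ZMod p) k := ZMod.algebra k p
  have hpos : 0 < Module.finrank (ZMod p) (ZMod p)⟮a⟯ := Module.finrank_pos
  have hne1 : Module.finrank (ZMod p) (ZMod p)⟮a⟯ ≠ 1 := by
    intro h1
    rw [IntermediateField.finrank_eq_one_iff, IntermediateField.adjoin_simple_eq_bot_iff,
      IntermediateField.mem_bot] at h1
    obtain ⟨z, hz⟩ := h1
    apply ha
    rw [← hz, ← map_pow, ZMod.pow_card]
  omega

/-- **leaf L (a).** -/
theorem flcWab_card_le (a : k) (b : kF) :
    p ^ Module.finrank kF ↥(flcWab a b) ≤ Nat.card k := by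
  letI : Algebra (ZMod p) k := ZMod.algebra k p
  have h1 := flcWab_finrank_le_adjoin p a b
  have hpos : 0 < Module.finrank (ZMod p) (ZMod p)⟮a⟯ := Module.finrank_pos
  rw [flcWab_card_eq_pow p a]
  apply Nat.pow_le_pow_right (Fact.out : p.Prime).pos
  calc Module.finrank kF ↥(flcWab a b) ≤ Module.finrank (ZMod p)⟮a⟯ k := h1
    _ = 1 * Module.finrank (ZMod p)⟮a⟯ k := (one_mul _).symm
    _ ≤ _ := Nat.mul_le_mul_right _ hpos

/-- **leaf L (b).** -/
theorem flcWab_card_le_half (a : k) (b : kF) (ha : a ^ p ≠ a) :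
    p ^ (2 * Module.finrank kF ↥(flcWab a b)) ≤ Nat.card k := by
  letI : Algebra (ZMod p) k := ZMod.algebra k p
  have h1 := flcWab_finrank_le_adjoin p a b
  have h2 := flcWab_two_le_finrank_adjoin p a ha
  rw [flcWab_card_eq_pow p a]
  apply Nat.pow_le_pow_right (Fact.out : p.Prime).pos
  calc 2 * Module.finrank kF ↥(flcWab a b) ≤ 2 * Module.finrank (ZMod p)⟮a⟯ k :=
        Nat.mul_le_mul_left _ h1
    _ ≤ _ := Nat.mul_le_mul_right _ h2

/-- **leaf L (c).** If `flcWab a b ≠ 0` then `a` and `b` have the same annihilating polynomials. -/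
theorem flcWab_aeval_iff (a : k) (b : kF) (h : flcWab a b ≠ ⊥) (Q : ℤ[X]) :
    aeval a Q = 0 ↔ aeval b Q = 0 := flcWab_aeval_iff' a b h Q

end L

end Fermat.Agent.S56
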