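import Fermat.Agent.S56.Flat.Cnt.Spec.T
import Fermat.Agent.S56.Flat.Cnt.Spec.Gen
import Fermat.Agent.S56.Flat.Cnt.Spec.U1

/-!
# S56 / FLAT / CNT, leaf C1: `#Z¹(𝒢, k(χ)) ≤ #k ^ (1 + [χ = ω on I])`

`flc_card_Z1_le` is the tame bound (T) for a `TameKummerData`.
-/

set_option autoImplicit false
set_option linter.unusedVariables false
set_option linter.unusedSectionVars false
set_option linter.style.haveILetI false

namespace Fermat.Agent.S56

section C1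

variable {p : ℕ} [Fact p.Prime] {𝒢 : Type} [Group 𝒢] [Finite 𝒢] (D : TameKummerData p 𝒢)

/-- the tame bound for a `TameKummerData` -/
theorem flc_card_Z1_le {N : Type*} [AddCommGroup N] [Finite N] (hN : ∀ n : N, p • n = 0)
    (ρ : 𝒢 →* AddMonoid.End N) (hP : ∀ x ∈ D.P, ρ x = 1) :
    haveI := D.P_normal
    Nat.card ↥(flcZ1 ρ) ≤ Nat.card N * Nat.card ↥(flcHomG D.P ρ) := by
  haveI := D.P_normal
  haveI := D.I_normal
  exact flc_card_Z1_le_abstract D.P D.I D.P_le_I D.φ D.gen ((p - 1) * D.e') D.card_I p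
    (flc_coprime D) hN ρ hP

variable {k : Type*} [Field k] [Finite k] [CharP k p]

/-- the two cases together -/
theorem flc_card_Z1_char_aux (hp2 : p ≠ 2) (χ : 𝒢 →* kˣ) :
    Nat.card ↥(flcZ1 (flcChi χ)) ≤ Nat.card k ^ 2 ∧
      (¬ FlcIsOmega D (fun g => ((χ g : kˣ) : k)) →
        Nat.card ↥(flcZ1 (flcChi χ)) ≤ Nat.card k) := by
  haveI := D.P_normal
  obtain ⟨hχP, hχI⟩ := flc_char_I D χ
  have hN : ∀ c : k, p • c = 0 := by
    intro c
    rw [nsmul_eq_mul, CharP.cast_eq_zero k p, zero_mul]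
  have hP : ∀ x ∈ D.P, flcChi χ x = 1 := by
    intro x hx
    ext c
    show ((χ x : kˣ) : k) * c = c
    rw [hχP x hx, Units.val_one, one_mul]
  have h1 := flc_card_Z1_le D hN (flcChi χ) hP
  have hle : flcHomG D.P (flcChi χ) ≤
      flcH D 1 (fun g => ((χ g : kˣ) : k)) ((χ D.φ : kˣ) : k) := by
    intro f hf
    refine ⟨⟨hf.1, fun σ _ x => hf.2 σ x⟩, fun x => ?_⟩
    rw [pow_one]
    exact hf.2 D.φ x
  haveI : Finite (↥D.P → k) := inferInstance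
  have h2 : Nat.card ↥(flcHomG D.P (flcChi χ)) ≤
      Nat.card ↥(flcH D 1 (fun g => ((χ g : kˣ) : k)) ((χ D.φ : kˣ) : k)) :=
    AddSubgroup.card_le_of_le hle
  have h0 : ∀ σ ∈ D.I, (fun g => ((χ g : kˣ) : k)) σ ≠ 0 := fun σ _ => Units.ne_zero _
  have hχp : ∀ σ ∈ D.I, (fun g => ((χ g : kˣ) : k)) σ ^ p = (fun g => ((χ g : kˣ) : k)) σ := by
    intro σ hσ
    show ((χ σ : kˣ) : k) ^ p = ((χ σ : kˣ) : k)
    have hp1 : (p - 1) + 1 = p := Nat.sub_add_cancel (Fact.out : p.Prime).one_le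
    have h := hχI σ hσ
    calc ((χ σ : kˣ) : k) ^ p = ((χ σ : kˣ) : k) ^ ((p - 1) + 1) := by rw [hp1]
      _ = ((χ σ ^ (p - 1) : kˣ) : k) * ((χ σ : kˣ) : k) := by
        rw [pow_succ, Units.val_pow_eq_pow_val]
      _ = ((χ σ : kˣ) : k) := by rw [h, Units.val_one, one_mul]
  have hkpos : 0 < Nat.card k := Nat.card_pos
  have hne_case : ¬ FlcIsOmega D (fun g => ((χ g : kˣ) : k)) →
      Nat.card ↥(flcZ1 (flcChi χ)) ≤ Nat.card k := by
    intro hne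
    have h3 := flc_HI_eq_bot_of_ne D hp2 _ h0 hχp hne
    have h4 : flcH D 1 (fun g => ((χ g : kˣ) : k)) ((χ D.φ : kˣ) : k) = ⊥ := by
      rw [eq_bot_iff, ← h3]
      exact fun f hf => hf.1
    rw [h4] at h2
    have h5 : Nat.card ↥(flcHomG D.P (flcChi χ)) ≤ 1 := by
      refine le_trans h2 ?_
      simp
    calc Nat.card ↥(flcZ1 (flcChi χ)) ≤ Nat.card k * Nat.card ↥(flcHomG D.P (flcChi χ)) := h1
      _ ≤ Nat.card k * 1 := Nat.mul_le_mul_left _ h5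
      _ = Nat.card k := mul_one _
  refine ⟨?_, hne_case⟩
  by_cases hω : FlcIsOmega D (fun g => ((χ g : kˣ) : k))
  · have h3 := flc_card_H_one_le D hp2 _ hω ((χ D.φ : kˣ) : k) (Units.ne_zero _)
    calc Nat.card ↥(flcZ1 (flcChi χ)) ≤ Nat.card k * Nat.card ↥(flcHomG D.P (flcChi χ)) := h1
      _ ≤ Nat.card k * Nat.card k := Nat.mul_le_mul_left _ (le_trans h2 h3)
      _ = Nat.card k ^ 2 := (sq _).symm
  · refine le_trans (hne_case hω) ?_
    calc Nat.card k = Nat.card k ^ 1 := (pow_one _).symm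
      _ ≤ Nat.card k ^ 2 := Nat.pow_le_pow_right hkpos (by norm_num)

include D in
/-- **leaf C1 (a)** (helper2). -/
theorem flc_card_Z1_char_le (hp2 : p ≠ 2) (χ : 𝒢 →* kˣ) :
    Nat.card ↥(flcZ1 (flcChi χ)) ≤ Nat.card k ^ 2 :=
  (flc_card_Z1_char_aux D hp2 χ).1

/-- **leaf C1 (b)** (helper2). -/
theorem flc_card_Z1_char_le_of_ne (hp2 : p ≠ 2) (χ : 𝒢 →* kˣ)
    (hne : ¬ FlcIsOmega D (fun g => ((χ g : kˣ) : k))) :
    Nat.card ↥(flcZ1 (flcChi χ)) ≤ Nat.card k :=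
  (flc_card_Z1_char_aux D hp2 χ).2 hne

end C1

end Fermat.Agent.S56
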